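import Fermat.Agent.S28.Analytic

/-!
# S28, analytic inputs at level `N`: products of the units `Δ(τ)/Δ(dτ)`

* `exists_hermite_gcd`, `wS_smul_gcd`: Hermite form of the translates with the explicit
  diagonal entry `gcd (d, c)`;
* `Asymp f κ`: two-sided bounds `‖f τ‖ ≍ exp (-2π κ Im τ)` at `i∞`;
* `etaQ s d a = ∏ i ∈ s, wS (d i) ^ a i` : `ModFun`, asymptotics of all translates, exact limit.
-/

set_option autoImplicit false

namespace Fermat.Agent.S28A

open UpperHalfPlane hiding I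
open Real Complex Filter Function
open ModularForm
open scoped Manifold MatrixGroups ModularForm Topology
open Fermat.Agent Fermat.Agent.S24 Fermat.Agent.ES

noncomputable section

/-! ### Hermite form with explicit diagonal -/

/-- Hermite normal form of `diag(N, 1) * γ`, with `e = gcd (N, c)`. -/
theorem exists_hermite_gcd (N : ℕ) [NeZero N] (γ : SL(2, ℤ)) :
    ∃ (γ' : SL(2, ℤ)) (e B D : ℤ), 0 < e ∧ 0 < D ∧ e * D = N ∧
      e = (Int.gcd (N : ℤ) (γ 1 0) : ℤ) ∧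
      ∃ had : ((e : ℝ) * (D : ℝ)) ≠ 0,
        heckeDiagMatrix N * (Matrix.SpecialLinearGroup.mapGL ℝ γ : GL (Fin 2) ℝ) =
          (Matrix.SpecialLinearGroup.mapGL ℝ γ' : GL (Fin 2) ℝ) *
            upperTriangularGL (e : ℝ) (B : ℝ) (D : ℝ) had := by
  have hN : N ≠ 0 := NeZero.ne N
  have hdet : γ 0 0 * γ 1 1 - γ 0 1 * γ 1 0 = 1 := by
    have := γ.det_coe
    rwa [Matrix.det_fin_two] at this
  set a := γ 0 0 with ha
  set b := γ 0 1 with hb
  set c := γ 1 0 with hc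
  set d := γ 1 1 with hd
  obtain ⟨g, hg⟩ : ∃ g : ℕ, g = Int.gcd (N : ℤ) c := ⟨_, rfl⟩
  have hg0 : g ≠ 0 := by
    rw [hg, Ne, Int.gcd_eq_zero_iff]
    exact fun h => hN (by exact_mod_cast h.1)
  have hgpos : 0 < g := Nat.pos_of_ne_zero hg0
  obtain ⟨D, hD⟩ : (g : ℤ) ∣ (N : ℤ) := hg ▸ Int.gcd_dvd_left _ _
  obtain ⟨z, hz⟩ : (g : ℤ) ∣ c := hg ▸ Int.gcd_dvd_right _ _
  obtain ⟨e, he⟩ : ∃ e : ℤ, e = (g : ℤ) := ⟨_, rfl⟩
  rw [← he] at hD hz
  have hepos : 0 < e := by rw [he]; exact_mod_cast hgpos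
  have hDpos : 0 < D := by
    have h1 : (0 : ℤ) < e * D := by rw [← hD]; exact_mod_cast Nat.pos_of_ne_zero hN
    by_contra h
    rw [not_lt] at h
    nlinarith
  -- `D` and `z` are coprime
  have hcopDz : IsCoprime D z := by
    have h1 : g = g * Int.gcd D z := by
      have h := Int.gcd_mul_left e D z
      rw [← hD, ← hz, ← hg, he, Int.natAbs_natCast] at h
      exact h
    have h2 : Int.gcd D z = 1 := by
      have := Nat.eq_of_mul_eq_mul_left hgpos (by rw [mul_one]; exact h1 : g * 1 = g * Int.gcd D z)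
      exact this.symm
    exact Int.isCoprime_iff_gcd_eq_one.mpr h2
  have hcopaz : IsCoprime a z := ⟨d, -(b * e), by rw [hz] at hdet; linear_combination hdet⟩
  have hcop : IsCoprime (D * a) z := IsCoprime.mul_left hcopDz hcopaz
  obtain ⟨v, w, hvw⟩ := hcop
  let γ' : SL(2, ℤ) := ⟨!![D * a, -w; z, v], by
    rw [Matrix.det_fin_two_of]
    linear_combination hvw⟩
  have e00 : (γ' : Matrix (Fin 2) (Fin 2) ℤ) 0 0 = D * a := rfl
  have e01 : (γ' : Matrix (Fin 2) (Fin 2) ℤ) 0 1 = -w := rfl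
  have e10 : (γ' : Matrix (Fin 2) (Fin 2) ℤ) 1 0 = z := rfl
  have e11 : (γ' : Matrix (Fin 2) (Fin 2) ℤ) 1 1 = v := rfl
  have had : ((e : ℝ) * (D : ℝ)) ≠ 0 := by
    have : (0 : ℝ) < (e : ℝ) * (D : ℝ) := by exact_mod_cast mul_pos hepos hDpos
    exact this.ne'
  refine ⟨γ', e, v * N * b + w * d, D, hepos, hDpos, hD.symm, he.trans (by rw [hg]), had, ?_⟩
  have h00 : (D * a) * e = N * a := by rw [hD]; ring
  have h01 : (D * a) * (v * N * b + w * d) + (-w) * D = N * b := by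
    rw [hz] at hdet
    rw [hD]
    linear_combination (w * D) * hdet + (e * D * b) * hvw
  have h10 : z * e = c := by rw [hz]; ring
  have h11 : z * (v * N * b + w * d) + v * D = d := by
    rw [hz] at hdet
    rw [hD]
    linear_combination (-(v * D)) * hdet + d * hvw
  have r00 : ((D : ℝ) * (a : ℝ)) * (e : ℝ) = (N : ℝ) * (a : ℝ) := by exact_mod_cast h00
  have r01 : ((D : ℝ) * (a : ℝ)) * ((v : ℝ) * (N : ℝ) * (b : ℝ) + (w : ℝ) * (d : ℝ))
      + (-(w : ℝ)) * (D : ℝ) = (N : ℝ) * (b : ℝ) := by exact_mod_cast h01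
  have r10 : (z : ℝ) * (e : ℝ) = (c : ℝ) := by exact_mod_cast h10
  have r11 : (z : ℝ) * ((v : ℝ) * (N : ℝ) * (b : ℝ) + (w : ℝ) * (d : ℝ)) + (v : ℝ) * (D : ℝ)
      = (d : ℝ) := by exact_mod_cast h11
  apply Matrix.GeneralLinearGroup.ext
  intro i j
  fin_cases i <;> fin_cases j
  · simp [Matrix.mul_apply, Fin.sum_univ_two, val_heckeDiagMatrix hN, e00, e01]
    linear_combination -r00
  · simp [Matrix.mul_apply, Fin.sum_univ_two, val_heckeDiagMatrix hN, e00, e01]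
    linear_combination -r01
  · simp [Matrix.mul_apply, Fin.sum_univ_two, val_heckeDiagMatrix hN, e10, e11]
    linear_combination -r10
  · simp [Matrix.mul_apply, Fin.sum_univ_two, val_heckeDiagMatrix hN, e10, e11]
    linear_combination -r11

/-- Hermite form of the `SL(2,ℤ)`-translates of `Δ(d·)`, with `e = gcd (d, c)`. -/
theorem dS_smul_gcd (d : ℕ) [NeZero d] (γ : SL(2, ℤ)) :
    ∃ (e B D : ℤ), 0 < e ∧ 0 < D ∧ e * D = d ∧ e = (Int.gcd (d : ℤ) (γ 1 0) : ℤ) ∧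
      ∃ had : ((e : ℝ) * (D : ℝ)) ≠ 0, ∀ τ : ℍ,
        (D : ℂ) ^ (12 : ℕ) * dS d (γ • τ) = denom γ τ ^ (12 : ℤ) *
          ModularForm.discriminant (upperTriangularGL (e : ℝ) (B : ℝ) (D : ℝ) had • τ) := by
  obtain ⟨γ', e, B, D, he, hD, heD, heg, had, hmat⟩ := exists_hermite_gcd d γ
  have heR : (0 : ℝ) < e := by exact_mod_cast he
  have hDR : (0 : ℝ) < D := by exact_mod_cast hD
  have hN : d ≠ 0 := NeZero.ne d
  have h1 : (⇑(S23.scaledDelta d) : ℍ → ℂ) ∣[(12 : ℤ)] γ =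
      ModularForm.discriminant ∣[(12 : ℤ)] upperTriangularGL (e : ℝ) (B : ℝ) (D : ℝ) had := by
    rw [S23.Scale.coe_scaledDelta, S23.Scale.SL_slash_eq_mapGL, ← SlashAction.slash_mul, hmat,
      SlashAction.slash_mul]
    congr 1
    exact CuspForm.discriminant.slash_action_eq' _ ⟨γ', rfl⟩
  refine ⟨e, B, D, he, hD, heD, heg, had, fun τ => ?_⟩
  have h3 := congrFun h1 τ
  rw [S23.Scale.slash_upperTriangularGL_apply 12 heR hDR, ModularForm.SL_slash_apply,
    scaledDelta_eq_dS] at h3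
  have hNC : (((e : ℝ) * (D : ℝ) : ℝ) : ℂ) = (d : ℂ) := by
    have : (e : ℝ) * D = d := by exact_mod_cast heD
    rw [this]
    simp
  have hDC : (D : ℂ) ≠ 0 := by exact_mod_cast hD.ne'
  have hNC0 : (d : ℂ) ≠ 0 := by exact_mod_cast hN
  have hden : denom γ τ ≠ 0 := denom_ne_zero γ τ
  have e1 : ((12 : ℤ) - 1) = ((11 : ℕ) : ℤ) := by norm_num
  have e2 : (-(12 : ℤ)) = -((12 : ℕ) : ℤ) := by norm_num
  have hDD : (((D : ℝ) : ℂ)) = (D : ℂ) := by push_cast; rfl
  rw [hNC, e1, zpow_natCast, e2, zpow_neg, zpow_natCast, zpow_neg, zpow_natCast, hDD] at h3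
  have hN11 : (d : ℂ) ^ 11 ≠ 0 := pow_ne_zero _ hNC0
  have hD12 : (D : ℂ) ^ 12 ≠ 0 := pow_ne_zero _ hDC
  have hden12 : denom γ τ ^ 12 ≠ 0 := pow_ne_zero _ hden
  have e3 : denom γ τ ^ (12 : ℤ) = denom γ τ ^ (12 : ℕ) := by
    rw [show (12 : ℤ) = ((12 : ℕ) : ℤ) by norm_num, zpow_natCast]
  rw [e3]
  field_simp at h3
  linear_combination h3

/-- Hermite form of the `SL(2,ℤ)`-translates of `Δ/Δ(d·)`, with `e = gcd (d, c)`. -/
theorem wS_smul_gcd (d : ℕ) [NeZero d] (γ : SL(2, ℤ)) :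
    ∃ (e B D : ℤ), 0 < e ∧ 0 < D ∧ e * D = d ∧ e = (Int.gcd (d : ℤ) (γ 1 0) : ℤ) ∧
      ∃ had : ((e : ℝ) * (D : ℝ)) ≠ 0, ∀ τ : ℍ,
        wS d (γ • τ) = (D : ℂ) ^ (12 : ℕ) * ModularForm.discriminant τ /
          ModularForm.discriminant (upperTriangularGL (e : ℝ) (B : ℝ) (D : ℝ) had • τ) := by
  obtain ⟨e, B, D, he, hD, heD, heg, had, h⟩ := dS_smul_gcd d γ
  refine ⟨e, B, D, he, hD, heD, heg, had, fun τ => ?_⟩
  have h2 := h τ
  have h0 := dS_ne_zero d (γ • τ)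
  have h4 : ModularForm.discriminant (upperTriangularGL (e : ℝ) (B : ℝ) (D : ℝ) had • τ) ≠ 0 :=
    discriminant_ne_zero _
  unfold wS
  rw [discriminant_smul, div_eq_div_iff h0 h4]
  linear_combination (-(ModularForm.discriminant τ)) * h2

/-! ### Two-sided exponential asymptotics at `i∞` -/

/-- `‖f τ‖ ≍ exp (-2π κ Im τ)` as `Im τ → ∞`. -/
def Asymp (f : ℍ → ℂ) (κ : ℝ) : Prop :=
  ∃ C₁ C₂ A : ℝ, 0 < C₁ ∧ 0 < C₂ ∧ ∀ τ : ℍ, A ≤ τ.im →
    C₁ * Real.exp (-(2 * π * κ * τ.im)) ≤ ‖f τ‖ ∧ ‖f τ‖ ≤ C₂ * Real.exp (-(2 * π * κ * τ.im))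

theorem Asymp.congr_exp {f : ℍ → ℂ} {κ κ' : ℝ} (h : Asymp f κ) (hκ : κ = κ') : Asymp f κ' :=
  hκ ▸ h

theorem Asymp.congr_fun {f g : ℍ → ℂ} {κ : ℝ} (h : Asymp f κ) (hfg : ∀ τ, f τ = g τ) :
    Asymp g κ := by
  have : f = g := funext hfg
  rwa [← this]

theorem Asymp.const {c : ℂ} (hc : c ≠ 0) : Asymp (fun _ => c) 0 := by
  refine ⟨‖c‖, ‖c‖, 0, norm_pos_iff.mpr hc, norm_pos_iff.mpr hc, fun τ _ => ?_⟩
  simp

theorem Asymp.mul {f g : ℍ → ℂ} {κ κ' : ℝ} (hf : Asymp f κ) (hg : Asymp g κ') :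
    Asymp (fun τ => f τ * g τ) (κ + κ') := by
  obtain ⟨C₁, C₂, A, hC₁, hC₂, h⟩ := hf
  obtain ⟨C₁', C₂', A', hC₁', hC₂', h'⟩ := hg
  refine ⟨C₁ * C₁', C₂ * C₂', max A A', mul_pos hC₁ hC₁', mul_pos hC₂ hC₂', fun τ hτ => ?_⟩
  obtain ⟨h1, h2⟩ := h τ ((le_max_left _ _).trans hτ)
  obtain ⟨h1', h2'⟩ := h' τ ((le_max_right _ _).trans hτ)
  have he : Real.exp (-(2 * π * (κ + κ') * τ.im)) =
      Real.exp (-(2 * π * κ * τ.im)) * Real.exp (-(2 * π * κ' * τ.im)) := by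
    rw [← Real.exp_add]
    congr 1
    ring
  rw [norm_mul, he]
  constructor
  · calc C₁ * C₁' * (Real.exp (-(2 * π * κ * τ.im)) * Real.exp (-(2 * π * κ' * τ.im)))
        = (C₁ * Real.exp (-(2 * π * κ * τ.im))) * (C₁' * Real.exp (-(2 * π * κ' * τ.im))) := by
          ring
      _ ≤ ‖f τ‖ * ‖g τ‖ := mul_le_mul h1 h1' (by positivity) (norm_nonneg _)
  · calc ‖f τ‖ * ‖g τ‖
        ≤ (C₂ * Real.exp (-(2 * π * κ * τ.im))) * (C₂' * Real.exp (-(2 * π * κ' * τ.im))) :=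
          mul_le_mul h2 h2' (norm_nonneg _) (by positivity)
      _ = _ := by ring

theorem Asymp.inv {f : ℍ → ℂ} {κ : ℝ} (hf : Asymp f κ) : Asymp (fun τ => (f τ)⁻¹) (-κ) := by
  obtain ⟨C₁, C₂, A, hC₁, hC₂, h⟩ := hf
  refine ⟨C₂⁻¹, C₁⁻¹, A, inv_pos.mpr hC₂, inv_pos.mpr hC₁, fun τ hτ => ?_⟩
  obtain ⟨h1, h2⟩ := h τ hτ
  have he : Real.exp (-(2 * π * (-κ) * τ.im)) = (Real.exp (-(2 * π * κ * τ.im)))⁻¹ := by
    rw [← Real.exp_neg]
    congr 1
    ring
  have hpos1 : 0 < C₁ * Real.exp (-(2 * π * κ * τ.im)) := by positivity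
  have hfpos : 0 < ‖f τ‖ := lt_of_lt_of_le hpos1 h1
  rw [norm_inv, he, ← mul_inv, ← mul_inv]
  exact ⟨inv_anti₀ hfpos h2, inv_anti₀ hpos1 h1⟩

theorem Asymp.div {f g : ℍ → ℂ} {κ κ' : ℝ} (hf : Asymp f κ) (hg : Asymp g κ') :
    Asymp (fun τ => f τ / g τ) (κ - κ') := by
  have := hf.mul hg.inv
  refine (this.congr_exp (by ring)).congr_fun fun τ => ?_
  rw [div_eq_mul_inv]

theorem Asymp.pow {f : ℍ → ℂ} {κ : ℝ} (hf : Asymp f κ) (n : ℕ) :
    Asymp (fun τ => f τ ^ n) (n * κ) := by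
  induction n with
  | zero =>
    refine ((Asymp.const one_ne_zero).congr_exp (by simp)).congr_fun fun τ => ?_
    simp
  | succ n ih =>
    refine ((ih.mul hf).congr_exp (by push_cast; ring)).congr_fun fun τ => ?_
    rw [pow_succ]

theorem Asymp.zpow {f : ℍ → ℂ} {κ : ℝ} (hf : Asymp f κ) (a : ℤ) :
    Asymp (fun τ => f τ ^ a) (a * κ) := by
  obtain ⟨n, rfl | rfl⟩ := a.eq_nat_or_neg
  · refine ((hf.pow n).congr_exp (by push_cast; ring)).congr_fun fun τ => ?_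
    rw [zpow_natCast]
  · refine ((hf.pow n).inv.congr_exp (by push_cast; ring)).congr_fun fun τ => ?_
    rw [zpow_neg, zpow_natCast]

theorem Asymp.prod {ι : Type*} (s : Finset ι) {f : ι → ℍ → ℂ} {κ : ι → ℝ}
    (h : ∀ i ∈ s, Asymp (f i) (κ i)) :
    Asymp (fun τ => ∏ i ∈ s, f i τ) (∑ i ∈ s, κ i) := by
  classical
  induction s using Finset.induction_on with
  | empty =>
    refine ((Asymp.const one_ne_zero).congr_exp (by simp)).congr_fun fun τ => ?_
    simp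
  | insert i s hi ih =>
    have h1 := h i (Finset.mem_insert_self i s)
    have h2 := ih fun j hj => h j (Finset.mem_insert_of_mem hj)
    refine ((h1.mul h2).congr_exp (by rw [Finset.sum_insert hi])).congr_fun fun τ => ?_
    rw [Finset.prod_insert hi]

theorem Asymp.ne_zero {f : ℍ → ℂ} {κ : ℝ} (hf : Asymp f κ) :
    ∃ A : ℝ, ∀ τ : ℍ, A ≤ τ.im → f τ ≠ 0 := by
  obtain ⟨C₁, C₂, A, hC₁, hC₂, h⟩ := hf
  refine ⟨A, fun τ hτ => ?_⟩
  have h1 := (h τ hτ).1
  have hpos1 : 0 < C₁ * Real.exp (-(2 * π * κ * τ.im)) := by positivity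
  exact norm_pos_iff.mp (lt_of_lt_of_le hpos1 h1)

theorem Asymp.tendsto_zero {f : ℍ → ℂ} {κ : ℝ} (hf : Asymp f κ) (hκ : 0 < κ) :
    Tendsto f atImInfty (𝓝 0) := by
  obtain ⟨C₁, C₂, A, hC₁, hC₂, h⟩ := hf
  have h1 : Tendsto (fun y : ℝ => C₂ * Real.exp (-(2 * π * κ * y))) atTop (𝓝 0) := by
    have h2 : Tendsto (fun y : ℝ => -(2 * π * κ * y)) atTop atBot := by
      apply Filter.tendsto_neg_atTop_atBot.comp
      exact Filter.Tendsto.const_mul_atTop (by positivity) tendsto_id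
    have h3 := (Real.tendsto_exp_atBot.comp h2).const_mul C₂
    simpa using h3
  have h4 : Tendsto (fun τ : ℍ => C₂ * Real.exp (-(2 * π * κ * τ.im))) atImInfty (𝓝 0) :=
    h1.comp tendsto_comap
  refine squeeze_zero_norm' ?_ h4
  rw [Filter.Eventually, UpperHalfPlane.atImInfty_mem]
  exact ⟨A, fun τ hτ => (h τ hτ).2⟩

/-- `Δ` decays like `exp (-2π Im τ)`. -/
theorem asymp_discriminant : Asymp ModularForm.discriminant 1 := by
  obtain ⟨C₁, C₂, A, hC₁, hC₂, hb⟩ := S23.Scale.exists_discriminant_bounds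
  refine ⟨C₁⁻¹, C₂, A, inv_pos.mpr hC₁, hC₂, fun τ hτ => ?_⟩
  obtain ⟨h1, h2⟩ := hb τ hτ
  have e1 : -(2 * π * 1 * τ.im) = -2 * π * τ.im := by ring
  rw [e1]
  refine ⟨?_, h2⟩
  rw [inv_mul_le_iff₀ hC₁]
  exact h1

/-- `Δ((eτ + B)/D)` decays like `exp (-2π (e/D) Im τ)`. -/
theorem asymp_discriminant_UT {e B D : ℝ} (he : 0 < e) (hD : 0 < D) :
    Asymp (fun τ => ModularForm.discriminant (upperTriangularGL e B D (mul_pos he hD).ne' • τ))
      (e / D) := by
  obtain ⟨C₁, C₂, A, hC₁, hC₂, hb⟩ := asymp_discriminant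
  refine ⟨C₁, C₂, A * D / e, hC₁, hC₂, fun τ hτ => ?_⟩
  have h1 : A ≤ (upperTriangularGL e B D (mul_pos he hD).ne' • τ : ℍ).im := by
    rw [S23.Scale.im_upperTriangularGL_smul he hD, le_div_iff₀ hD]
    rw [div_le_iff₀ he] at hτ
    linarith
  have h2 := hb _ h1
  rw [S23.Scale.im_upperTriangularGL_smul he hD] at h2
  have e1 : -(2 * π * 1 * (e * τ.im / D)) = -(2 * π * (e / D) * τ.im) := by ring
  rw [e1] at h2
  exact h2

/-- The translates of `Δ/Δ(d·)` have order `1 - gcd (d, c)² / d` at `i∞`. -/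
theorem asymp_wS_smul (d : ℕ) [NeZero d] (γ : SL(2, ℤ)) :
    Asymp (fun τ => wS d (γ • τ)) (1 - ((Int.gcd (d : ℤ) (γ 1 0) : ℕ) : ℝ) ^ 2 / d) := by
  obtain ⟨e, B, D, he, hD, heD, heg, had, h⟩ := wS_smul_gcd d γ
  have heR : (0 : ℝ) < e := by exact_mod_cast he
  have hDR : (0 : ℝ) < D := by exact_mod_cast hD
  have hDC : (D : ℂ) ^ (12 : ℕ) ≠ 0 := pow_ne_zero _ (by exact_mod_cast hD.ne')
  have h1 := ((Asymp.const hDC).mul asymp_discriminant).div
    (asymp_discriminant_UT (B := (B : ℝ)) heR hDR)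
  refine (h1.congr_exp ?_).congr_fun fun τ => (h τ).symm
  have hdR : (d : ℝ) = e * D := by exact_mod_cast heD.symm
  have hgR : (((Int.gcd (d : ℤ) (γ 1 0) : ℕ) : ℝ)) = (e : ℝ) := by
    rw [heg]; push_cast; rfl
  rw [hgR, hdR]
  field_simp
  ring

/-! ### The local parameter `q = exp (2πiτ)` -/

/-- `q = exp (2πiτ)`. -/
def qq (τ : ℍ) : ℂ := cexp (2 * π * I * τ)

theorem qq_ne_zero (τ : ℍ) : qq τ ≠ 0 := Complex.exp_ne_zero _

theorem norm_qq (τ : ℍ) : ‖qq τ‖ = Real.exp (-(2 * π * τ.im)) := by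
  unfold qq
  rw [Complex.norm_exp]
  congr 1
  simp [Complex.mul_re, mul_comm]

theorem tendsto_qq : Tendsto qq atImInfty (𝓝 0) := by
  have h1 : Tendsto (fun y : ℝ => Real.exp (-(2 * π * y))) atTop (𝓝 0) := by
    have h2 : Tendsto (fun y : ℝ => -(2 * π * y)) atTop atBot := by
      apply Filter.tendsto_neg_atTop_atBot.comp
      exact Filter.Tendsto.const_mul_atTop (by positivity) tendsto_id
    exact Real.tendsto_exp_atBot.comp h2
  have h4 : Tendsto (fun τ : ℍ => Real.exp (-(2 * π * τ.im))) atImInfty (𝓝 0) :=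
    h1.comp tendsto_comap
  refine squeeze_zero_norm (fun τ => ?_) h4
  rw [norm_qq]

theorem tendsto_heckeDiagMatrix_smul (d : ℕ) [NeZero d] :
    Tendsto (fun τ : ℍ => heckeDiagMatrix d • τ) atImInfty atImInfty := by
  rw [UpperHalfPlane.atImInfty, tendsto_comap_iff]
  have h1 : (UpperHalfPlane.im ∘ fun τ : ℍ => heckeDiagMatrix d • τ) =
      fun τ : ℍ => (d : ℝ) * τ.im := by
    funext τ
    exact S23.Scale.im_heckeDiagMatrix_smul (NeZero.ne d) τ
  rw [h1]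
  exact Filter.Tendsto.const_mul_atTop (by exact_mod_cast Nat.pos_of_ne_zero (NeZero.ne d))
    tendsto_comap

theorem qq_heckeDiagMatrix_smul (d : ℕ) [NeZero d] (τ : ℍ) :
    qq (heckeDiagMatrix d • τ) = qq τ ^ d := by
  unfold qq
  rw [coe_heckeDiagMatrix_smul (NeZero.ne d), ← Complex.exp_nat_mul]
  congr 1
  ring

theorem tendsto_discriminant_div_qq :
    Tendsto (fun τ : ℍ => ModularForm.discriminant τ / qq τ) atImInfty (𝓝 1) := by
  refine ES.lweight_tendsto_discriminant.congr fun τ => ?_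
  unfold qq
  rw [Complex.exp_neg, div_eq_mul_inv]

theorem tendsto_dS_div_qq (d : ℕ) [NeZero d] :
    Tendsto (fun τ : ℍ => dS d τ / qq τ ^ d) atImInfty (𝓝 1) := by
  refine (tendsto_discriminant_div_qq.comp (tendsto_heckeDiagMatrix_smul d)).congr fun τ => ?_
  rw [Function.comp_apply, qq_heckeDiagMatrix_smul]
  rfl

/-- `Δ(τ)/Δ(dτ) ∼ q^(1-d)` at `i∞`. -/
theorem tendsto_wS_mul_qq (d : ℕ) [NeZero d] :
    Tendsto (fun τ : ℍ => wS d τ * qq τ ^ ((d : ℤ) - 1)) atImInfty (𝓝 1) := by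
  have h := tendsto_discriminant_div_qq.div (tendsto_dS_div_qq d) one_ne_zero
  rw [div_one] at h
  refine h.congr fun τ => ?_
  have hq := qq_ne_zero τ
  have hd := dS_ne_zero d τ
  unfold wS
  rw [zpow_sub₀ hq, zpow_one, zpow_natCast]
  simp only [Pi.div_apply]
  field_simp

/-! ### Products of powers of the units -/

/-- `∏ i ∈ s, (Δ(τ)/Δ(d i τ)) ^ a i`. -/
def etaQ {ι : Type} (s : Finset ι) (d : ι → ℕ) (a : ι → ℤ) (τ : ℍ) : ℂ :=
  ∏ i ∈ s, wS (d i) τ ^ a i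

section etaQ

variable {ι : Type} (s : Finset ι) (d : ι → ℕ) (a : ι → ℤ)

theorem etaQ_ne_zero (τ : ℍ) : etaQ s d a τ ≠ 0 :=
  Finset.prod_ne_zero_iff.mpr fun _ _ => zpow_ne_zero _ (wS_ne_zero _ _)

theorem etaQ_neg (τ : ℍ) : etaQ s d (fun i => -a i) τ = (etaQ s d a τ)⁻¹ := by
  unfold etaQ
  rw [← Finset.prod_inv_distrib]
  exact Finset.prod_congr rfl fun i _ => zpow_neg _ _

theorem etaQ_mul_neg (τ : ℍ) : etaQ s d a τ * etaQ s d (fun i => -a i) τ = 1 := by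
  rw [etaQ_neg, mul_inv_cancel₀ (etaQ_ne_zero s d a τ)]

theorem modFun_wS_zpow {N d : ℕ} [NeZero N] (hd : d ∣ N) (a : ℤ) :
    ModFun N (fun τ => wS d τ ^ a) := by
  obtain ⟨n, rfl | rfl⟩ := a.eq_nat_or_neg
  · have h := (modFun_wS hd).pow n
    have e : (fun τ => wS d τ ^ ((n : ℕ) : ℤ)) = fun τ => wS d τ ^ n := by
      funext τ; rw [zpow_natCast]
    rw [e]; exact h
  · have h := (modFun_wSinv hd).pow n
    have e : (fun τ => wS d τ ^ (-((n : ℕ) : ℤ))) = fun τ => wSinv d τ ^ n := by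
      funext τ; rw [zpow_neg, zpow_natCast, wSinv_eq_inv, inv_pow]
    rw [e]; exact h

theorem modFun_finset_prod {N : ℕ} {κ : Type} (t : Finset κ) (f : κ → ℍ → ℂ)
    (h : ∀ i ∈ t, ModFun N (f i)) : ModFun N (fun τ => ∏ i ∈ t, f i τ) := by
  classical
  induction t using Finset.induction_on with
  | empty =>
    have e : (fun τ : ℍ => ∏ i ∈ (∅ : Finset κ), f i τ) = fun _ => (1 : ℂ) := by
      funext τ; simp
    rw [e]; exact ModFun.const N 1
  | insert i t hi ih =>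
    have h1 := h i (Finset.mem_insert_self i t)
    have h2 := ih fun j hj => h j (Finset.mem_insert_of_mem hj)
    have e : (fun τ : ℍ => ∏ j ∈ insert i t, f j τ) = fun τ => f i τ * ∏ j ∈ t, f j τ := by
      funext τ; rw [Finset.prod_insert hi]
    rw [e]; exact h1.mul h2

variable {s d}

theorem modFun_etaQ {N : ℕ} [NeZero N] (hd : ∀ i ∈ s, d i ∣ N) : ModFun N (etaQ s d a) :=
  modFun_finset_prod s _ fun i hi => modFun_wS_zpow (hd i hi) (a i)

/-- the order at `i∞` of the translate by `γ` of an eta quotient -/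
theorem asymp_etaQ_smul (hd : ∀ i ∈ s, d i ≠ 0) (γ : SL(2, ℤ)) :
    Asymp (fun τ => etaQ s d a (γ • τ))
      (∑ i ∈ s, (a i : ℝ) * (1 - ((Int.gcd (d i : ℤ) (γ 1 0) : ℕ) : ℝ) ^ 2 / d i)) := by
  refine Asymp.prod s fun i hi => ?_
  haveI : NeZero (d i) := ⟨hd i hi⟩
  exact (asymp_wS_smul (d i) γ).zpow (a i)

theorem zpow_finset_sum {κ : Type} (t : Finset κ) (k : κ → ℤ) {x : ℂ} (hx : x ≠ 0) :
    ∏ i ∈ t, x ^ k i = x ^ (∑ i ∈ t, k i) := by
  classical
  induction t using Finset.induction_on with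
  | empty => simp
  | insert i t hi ih => rw [Finset.prod_insert hi, Finset.sum_insert hi, zpow_add₀ hx, ih]

/-- the exact leading term at `i∞` of an eta quotient -/
theorem tendsto_etaQ_mul_qq (hd : ∀ i ∈ s, d i ≠ 0) :
    Tendsto (fun τ => etaQ s d a τ * qq τ ^ (∑ i ∈ s, a i * ((d i : ℤ) - 1))) atImInfty
      (𝓝 1) := by
  have h1 : ∀ i ∈ s, Tendsto (fun τ : ℍ => (wS (d i) τ * qq τ ^ ((d i : ℤ) - 1)) ^ a i) atImInfty
      (𝓝 ((1 : ℂ) ^ a i)) := by
    intro i hi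
    haveI : NeZero (d i) := ⟨hd i hi⟩
    exact (tendsto_wS_mul_qq (d i)).zpow₀ (a i) (Or.inl one_ne_zero)
  have h2 := tendsto_finsetProd s h1
  simp only [one_zpow, Finset.prod_const_one] at h2
  refine h2.congr fun τ => ?_
  unfold etaQ
  rw [← zpow_finset_sum s _ (qq_ne_zero τ), ← Finset.prod_mul_distrib]
  refine Finset.prod_congr rfl fun i _ => ?_
  rw [mul_zpow, ← zpow_mul, mul_comm (a i)]

end etaQ

/-! ### Degrees of polynomials in `j` from the growth at `i∞` -/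

theorem qq_eq (τ : ℍ) : cexp (2 * π * I * τ) = qq τ := rfl

theorem tendsto_poly_jA_mul_qq (P : Polynomial ℂ) :
    Tendsto (fun τ => P.eval (jA τ) * qq τ ^ P.natDegree) atImInfty (𝓝 P.leadingCoeff) := by
  set m := P.natDegree with hm
  have h1 : ∀ k ∈ Finset.range (m + 1),
      Tendsto (fun τ : ℍ => P.coeff k * ((jA τ * qq τ) ^ k * qq τ ^ (m - k))) atImInfty
        (𝓝 (P.coeff k * ((1 : ℂ) ^ k * (0 : ℂ) ^ (m - k)))) := by
    intro k _
    exact ((tendsto_jA_mul_q.pow k).mul (tendsto_qq.pow (m - k))).const_mul _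
  have h2 := tendsto_finsetSum (Finset.range (m + 1)) h1
  have e1 : (∑ k ∈ Finset.range (m + 1), P.coeff k * ((1 : ℂ) ^ k * (0 : ℂ) ^ (m - k))) =
      P.leadingCoeff := by
    rw [Finset.sum_eq_single m]
    · rw [Nat.sub_self, pow_zero, one_pow, mul_one, mul_one, hm, Polynomial.coeff_natDegree]
    · intro k hk hkm
      have : m - k ≠ 0 := by
        have := Finset.mem_range.mp hk
        omega
      simp [this]
    · intro h
      exact absurd (Finset.mem_range.mpr (Nat.lt_succ_self m)) h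
  rw [e1] at h2
  refine h2.congr fun τ => ?_
  rw [Polynomial.eval_eq_sum_range, Finset.sum_mul]
  refine Finset.sum_congr rfl fun k hk => ?_
  have hk' : k ≤ m := Nat.lt_succ_iff.mp (Finset.mem_range.mp hk)
  rw [mul_pow, mul_assoc (jA τ ^ k), ← pow_add, Nat.add_sub_cancel' hk', mul_assoc]

theorem poly_jA_natDegree_of_tendsto {P : Polynomial ℂ} {n : ℕ} {L : ℂ}
    (h : Tendsto (fun τ => P.eval (jA τ) * qq τ ^ n) atImInfty (𝓝 L)) (hL : L ≠ 0) :
    P.natDegree = n ∧ P.leadingCoeff = L := by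
  have h1 := tendsto_poly_jA_mul_qq P
  rcases lt_trichotomy P.natDegree n with hlt | heq | hgt
  · exfalso
    have h2 := h1.mul (tendsto_qq.pow (n - P.natDegree))
    have h3 : Tendsto (fun τ => P.eval (jA τ) * qq τ ^ n) atImInfty
        (𝓝 (P.leadingCoeff * 0 ^ (n - P.natDegree))) := by
      refine h2.congr fun τ => ?_
      rw [mul_assoc, ← pow_add, Nat.add_sub_cancel' hlt.le]
    have h4 := tendsto_nhds_unique h h3
    rw [zero_pow (by omega), mul_zero] at h4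
    exact hL h4
  · rw [heq] at h1
    exact ⟨heq, tendsto_nhds_unique h1 h⟩
  · exfalso
    have h2 := h.mul (tendsto_qq.pow (P.natDegree - n))
    have h3 : Tendsto (fun τ => P.eval (jA τ) * qq τ ^ P.natDegree) atImInfty
        (𝓝 (L * 0 ^ (P.natDegree - n))) := by
      refine h2.congr fun τ => ?_
      rw [mul_assoc, ← pow_add, Nat.add_sub_cancel' hgt.le]
    have h4 := tendsto_nhds_unique h1 h3
    rw [zero_pow (by omega), mul_zero, Polynomial.leadingCoeff_eq_zero] at h4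
    rw [h4, Polynomial.natDegree_zero] at hgt
    omega

theorem poly_jA_natDegree_lt_of_tendsto {P : Polynomial ℂ} {n : ℕ} (hn : 1 ≤ n)
    (h : Tendsto (fun τ => P.eval (jA τ) * qq τ ^ n) atImInfty (𝓝 0)) : P.natDegree < n := by
  have h1 := tendsto_poly_jA_mul_qq P
  by_contra hge
  rw [not_lt] at hge
  have h2 := h.mul (tendsto_qq.pow (P.natDegree - n))
  have h3 : Tendsto (fun τ => P.eval (jA τ) * qq τ ^ P.natDegree) atImInfty
      (𝓝 (0 * 0 ^ (P.natDegree - n))) := by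
    refine h2.congr fun τ => ?_
    rw [mul_assoc, ← pow_add, Nat.add_sub_cancel' hge]
  have h4 := tendsto_nhds_unique h1 h3
  rw [zero_mul, Polynomial.leadingCoeff_eq_zero] at h4
  rw [h4, Polynomial.natDegree_zero] at hge
  omega

/-- a polynomial vanishing on all values of `j` is zero -/
theorem poly_eq_of_eval_jA {P Q : Polynomial ℂ} (h : ∀ τ, P.eval (jA τ) = Q.eval (jA τ)) :
    P = Q := by
  apply Polynomial.funext
  intro z
  obtain ⟨τ, rfl⟩ := jA_surjective z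
  exact h τ

/-! ### Shape of the characteristic polynomial of a unit with a single pole -/

theorem coeff_prod_X_sub_C {κ : Type} [Fintype κ] (g : κ → ℂ) (i : ℕ)
    (hi : i ≤ Fintype.card κ) :
    (∏ x : κ, (Polynomial.X - Polynomial.C (g x))).coeff i =
      (-1) ^ (Fintype.card κ - i) *
        ∑ S ∈ (Finset.univ : Finset κ).powersetCard (Fintype.card κ - i), ∏ x ∈ S, g x := by
  have hcard : ((Finset.univ : Finset κ).val.map g).card = Fintype.card κ := by simp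
  have h1 := Multiset.prod_X_sub_C_coeff ((Finset.univ : Finset κ).val.map g) (k := i)
    (by rw [hcard]; exact hi)
  rw [hcard, Multiset.map_map, Finset.esymm_map_val] at h1
  exact h1

theorem coeff_zero_prod_X_sub_C {κ : Type} [Fintype κ] (g : κ → ℂ) :
    (∏ x : κ, (Polynomial.X - Polynomial.C (g x))).coeff 0 =
      (-1) ^ (Fintype.card κ) * ∏ x : κ, g x := by
  rw [coeff_prod_X_sub_C g 0 (Nat.zero_le _), Nat.sub_zero, ← Finset.card_univ,
    Finset.powersetCard_self, Finset.sum_singleton]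

theorem tendsto_finset_prod_zero {κ : Type} (t : Finset κ) (ht : t.Nonempty) (f : κ → ℍ → ℂ)
    (h : ∀ i ∈ t, Tendsto (f i) atImInfty (𝓝 0)) :
    Tendsto (fun τ => ∏ i ∈ t, f i τ) atImInfty (𝓝 0) := by
  have h1 := tendsto_finsetProd t h
  rw [Finset.prod_const, zero_pow (Finset.card_ne_zero.mpr ht)] at h1
  exact h1

theorem rep_mem_Gamma0_iff {N : ℕ} (x : X N) :
    (rep x)⁻¹ ∈ CongruenceSubgroup.Gamma0 N ↔ x = x0 N := by
  have h1 := mk_toSL_eq_iff (N := N) (rep x) 1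
  rw [mul_one, mk_rep, map_one] at h1
  exact h1.symm

/-- Let `u` be a modular unit of level `Γ₀(N)` with a pole of order `n ≥ 1` at `i∞` (leading
coefficient `1`) which tends to `0` at all the other cusps.  Then its characteristic polynomial
`χ` over `ℂ[j]` has the following shape: the coefficient of `X^(ψ-1)` has degree exactly `n` in
`j` and leading coefficient `-1`, all lower coefficients have degree `< n`, and the constant
coefficient is a nonzero constant. -/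
theorem exists_charpoly_shape {N : ℕ} [NeZero N] {u v : ℍ → ℂ} (Hu : ModFun N u)
    (Hv : ModFun N v) (huv : ∀ τ, u τ * v τ = 1) {n : ℕ} (hn : 1 ≤ n)
    (hinf : Tendsto (fun τ => u τ * qq τ ^ n) atImInfty (𝓝 1))
    (h0 : ∀ γ : SL(2, ℤ), γ ∉ CongruenceSubgroup.Gamma0 N →
      Tendsto (fun τ => u (γ • τ)) atImInfty (𝓝 0)) :
    ∃ χ : Polynomial (Polynomial ℂ), χ.Monic ∧ χ.natDegree = Fintype.card (X N) ∧
      (∀ τ : ℍ, χ.map (Polynomial.evalRingHom (jA τ)) =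
        ∏ x : X N, (Polynomial.X - Polynomial.C (conjF x u τ))) ∧
      (∀ τ : ℍ, (χ.map (Polynomial.evalRingHom (jA τ))).eval (u τ) = 0) ∧
      (χ.coeff (Fintype.card (X N) - 1)).natDegree = n ∧
      (χ.coeff (Fintype.card (X N) - 1)).leadingCoeff = -1 ∧
      (∀ i, i + 1 < Fintype.card (X N) → (χ.coeff i).natDegree < n) ∧
      ∃ c : ℂ, c ≠ 0 ∧ χ.coeff 0 = Polynomial.C c := by
  classical
  obtain ⟨χ, hmonic, hdeg, hχ⟩ := Hu.exists_charpoly_conjF
  obtain ⟨χ', -, -, hχ'⟩ := Hv.exists_charpoly_conjF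
  set ψ := Fintype.card (X N) with hψ
  have hψpos : 0 < ψ := Fintype.card_pos_iff.mpr ⟨x0 N⟩
  -- the conjugates
  have hconj0 : ∀ x : X N, x ≠ x0 N → Tendsto (conjF x u) atImInfty (𝓝 0) := by
    intro x hx
    exact h0 _ (fun hmem => hx ((rep_mem_Gamma0_iff x).mp hmem))
  have hconj1 : Tendsto (fun τ => conjF (x0 N) u τ * qq τ ^ n) atImInfty (𝓝 1) := by
    rw [Hu.conjF_x0]
    exact hinf
  -- products over subsets
  have hprod : ∀ S : Finset (X N), S.Nonempty →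
      Tendsto (fun τ => (∏ x ∈ S, conjF x u τ) * qq τ ^ n) atImInfty
        (𝓝 (if S = {x0 N} then 1 else 0)) := by
    intro S hS
    by_cases hx : x0 N ∈ S
    · by_cases hS1 : S = {x0 N}
      · rw [if_pos hS1, hS1]
        simpa using hconj1
      · rw [if_neg hS1]
        have hne : (S.erase (x0 N)).Nonempty := by
          rw [Finset.nonempty_iff_ne_empty]
          intro he
          apply hS1
          rw [← Finset.insert_erase hx, he]
          rfl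
        have h2 := tendsto_finset_prod_zero (S.erase (x0 N)) hne (fun x => conjF x u)
          (fun x hx' => hconj0 x (Finset.ne_of_mem_erase hx'))
        have h3 := hconj1.mul h2
        rw [mul_zero] at h3
        refine h3.congr fun τ => ?_
        rw [← Finset.mul_prod_erase S _ hx]
        ring
    · have hS1 : S ≠ {x0 N} := fun h => hx (h ▸ Finset.mem_singleton_self _)
      rw [if_neg hS1]
      have h2 := tendsto_finset_prod_zero S hS (fun x => conjF x u)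
        (fun x hx' => hconj0 x (fun h => hx (h ▸ hx')))
      have h3 := h2.mul (tendsto_qq.pow n)
      rw [zero_mul] at h3
      exact h3
  -- the coefficients
  have hcoeff : ∀ (τ : ℍ) (i : ℕ), i ≤ ψ → (χ.coeff i).eval (jA τ) =
      (-1) ^ (ψ - i) * ∑ S ∈ (Finset.univ : Finset (X N)).powersetCard (ψ - i),
        ∏ x ∈ S, conjF x u τ := by
    intro τ i hi
    have h1 := congrArg (fun p => Polynomial.coeff p i) (hχ τ)
    simp only [Polynomial.coeff_map, Polynomial.coe_evalRingHom] at h1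
    rw [h1, coeff_prod_X_sub_C _ i hi]
  have hlim : ∀ i, i < ψ → Tendsto (fun τ => (χ.coeff i).eval (jA τ) * qq τ ^ n) atImInfty
      (𝓝 ((-1) ^ (ψ - i) * if ψ - i = 1 then 1 else 0)) := by
    intro i hi
    have h1 : ∀ S ∈ (Finset.univ : Finset (X N)).powersetCard (ψ - i),
        Tendsto (fun τ => (∏ x ∈ S, conjF x u τ) * qq τ ^ n) atImInfty
          (𝓝 (if S = {x0 N} then 1 else 0)) := by
      intro S hS
      apply hprod S
      rw [← Finset.card_pos, (Finset.mem_powersetCard.mp hS).2]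
      omega
    have h2 := (tendsto_finsetSum _ h1).const_mul ((-1 : ℂ) ^ (ψ - i))
    have e1 : (∑ S ∈ (Finset.univ : Finset (X N)).powersetCard (ψ - i),
        (if S = {x0 N} then (1 : ℂ) else 0)) = if ψ - i = 1 then 1 else 0 := by
      rw [Finset.sum_ite_eq']
      simp [Finset.mem_powersetCard, eq_comm]
    rw [e1] at h2
    refine h2.congr fun τ => ?_
    rw [hcoeff τ i hi.le, mul_assoc, Finset.sum_mul]
  refine ⟨χ, hmonic, hdeg, hχ, fun τ => ?_, ?_, ?_, ?_, ?_⟩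
  · rw [hχ τ, Polynomial.eval_prod]
    refine Finset.prod_eq_zero (Finset.mem_univ (x0 N)) ?_
    rw [Hu.conjF_x0]
    simp
  · have h1 := hlim (ψ - 1) (by omega)
    have e : ψ - (ψ - 1) = 1 := by omega
    rw [e, if_pos rfl, pow_one, mul_one] at h1
    exact (poly_jA_natDegree_of_tendsto h1 (by norm_num)).1
  · have h1 := hlim (ψ - 1) (by omega)
    have e : ψ - (ψ - 1) = 1 := by omega
    rw [e, if_pos rfl, pow_one, mul_one] at h1
    exact (poly_jA_natDegree_of_tendsto h1 (by norm_num)).2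
  · intro i hi
    have h1 := hlim i (by omega)
    have e : ψ - i ≠ 1 := by omega
    rw [if_neg e, mul_zero] at h1
    exact poly_jA_natDegree_lt_of_tendsto hn h1
  · -- the constant coefficient is a unit
    have hcoeff' : ∀ (τ : ℍ), (χ'.coeff 0).eval (jA τ) =
        (-1) ^ ψ * ∏ x : X N, conjF x v τ := by
      intro τ
      have h1 := congrArg (fun p => Polynomial.coeff p 0) (hχ' τ)
      simp only [Polynomial.coeff_map, Polynomial.coe_evalRingHom] at h1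
      rw [h1, coeff_zero_prod_X_sub_C]
    have hcoeff0 : ∀ (τ : ℍ), (χ.coeff 0).eval (jA τ) =
        (-1) ^ ψ * ∏ x : X N, conjF x u τ := by
      intro τ
      have h1 := congrArg (fun p => Polynomial.coeff p 0) (hχ τ)
      simp only [Polynomial.coeff_map, Polynomial.coe_evalRingHom] at h1
      rw [h1, coeff_zero_prod_X_sub_C]
    have hone : χ.coeff 0 * χ'.coeff 0 = 1 := by
      apply poly_eq_of_eval_jA
      intro τ
      rw [Polynomial.eval_mul, hcoeff0, hcoeff', Polynomial.eval_one]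
      have h2 : (∏ x : X N, conjF x u τ) * ∏ x : X N, conjF x v τ = 1 := by
        rw [← Finset.prod_mul_distrib]
        exact Finset.prod_eq_one fun x _ => huv _
      have h3 : ((-1 : ℂ) ^ ψ) * (-1) ^ ψ = 1 := by
        rw [← mul_pow]; norm_num
      calc ((-1 : ℂ) ^ ψ * ∏ x : X N, conjF x u τ) * ((-1) ^ ψ * ∏ x : X N, conjF x v τ)
          = ((-1 : ℂ) ^ ψ * (-1) ^ ψ) * ((∏ x : X N, conjF x u τ) * ∏ x : X N, conjF x v τ) := by
            ring
        _ = 1 := by rw [h2, h3, mul_one]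
    have hunit : IsUnit (χ.coeff 0) := IsUnit.of_mul_eq_one _ hone
    obtain ⟨c, hc, hc'⟩ := Polynomial.isUnit_iff.mp hunit
    exact ⟨c, hc.ne_zero, hc'.symm⟩

/-! ### The units `∏ δ ∣ N, Δ(δτ) ^ r δ` of weight `0` -/

/-- `∏ δ ∣ N, Δ(δτ) ^ r δ`. -/
def unitFun (N : ℕ) (r : ℕ → ℤ) (τ : ℍ) : ℂ := ∏ δ ∈ N.divisors, dS δ τ ^ r δ

theorem unitFun_ne_zero (N : ℕ) (r : ℕ → ℤ) (τ : ℍ) : unitFun N r τ ≠ 0 :=
  Finset.prod_ne_zero_iff.mpr fun _ _ => zpow_ne_zero _ (dS_ne_zero _ _)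

theorem unitFun_neg (N : ℕ) (r : ℕ → ℤ) (τ : ℍ) :
    unitFun N (fun δ => -r δ) τ = (unitFun N r τ)⁻¹ := by
  unfold unitFun
  rw [← Finset.prod_inv_distrib]
  exact Finset.prod_congr rfl fun i _ => zpow_neg _ _

theorem unitFun_mul_neg (N : ℕ) (r : ℕ → ℤ) (τ : ℍ) :
    unitFun N r τ * unitFun N (fun δ => -r δ) τ = 1 := by
  rw [unitFun_neg, mul_inv_cancel₀ (unitFun_ne_zero N r τ)]

/-- in weight `0`, `unitFun` is an eta quotient in the units `Δ(τ)/Δ(δτ)` -/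
theorem unitFun_eq_etaQ (N : ℕ) (r : ℕ → ℤ) (hr : ∑ δ ∈ N.divisors, r δ = 0) (τ : ℍ) :
    unitFun N r τ = etaQ N.divisors id (fun δ => -r δ) τ := by
  have hΔ := discriminant_ne_zero τ
  have h1 : ∀ δ ∈ N.divisors, wS (id δ) τ ^ (-r δ) =
      dS δ τ ^ r δ * (ModularForm.discriminant τ ^ r δ)⁻¹ := by
    intro δ _
    unfold wS
    rw [id, zpow_neg, ← inv_zpow, inv_div, div_zpow, div_eq_mul_inv]
  unfold etaQ
  rw [Finset.prod_congr rfl h1, Finset.prod_mul_distrib, Finset.prod_inv_distrib,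
    zpow_finset_sum _ _ hΔ, hr, zpow_zero, inv_one, mul_one]
  rfl

theorem modFun_unitFun (N : ℕ) [NeZero N] (r : ℕ → ℤ) (hr : ∑ δ ∈ N.divisors, r δ = 0) :
    ModFun N (unitFun N r) := by
  have e : unitFun N r = etaQ N.divisors id (fun δ => -r δ) :=
    funext fun τ => unitFun_eq_etaQ N r hr τ
  rw [e]
  exact modFun_etaQ _ fun δ hδ => Nat.dvd_of_mem_divisors hδ

/-- the order at `i∞` of the translate by `γ` -/
theorem asymp_unitFun_smul (N : ℕ) (r : ℕ → ℤ) (hr : ∑ δ ∈ N.divisors, r δ = 0)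
    (γ : SL(2, ℤ)) :
    Asymp (fun τ => unitFun N r (γ • τ))
      (∑ δ ∈ N.divisors, (r δ : ℝ) * ((Int.gcd (δ : ℤ) (γ 1 0) : ℕ) : ℝ) ^ 2 / δ) := by
  have h := asymp_etaQ_smul (s := N.divisors) (d := id) (fun δ => -r δ)
    (fun δ hδ => (Nat.pos_of_mem_divisors hδ).ne') γ
  refine (h.congr_exp ?_).congr_fun fun τ => (unitFun_eq_etaQ N r hr _).symm
  have hr' : ∑ δ ∈ N.divisors, (r δ : ℝ) = 0 := by exact_mod_cast hr
  calc (∑ δ ∈ N.divisors, ((-r δ : ℤ) : ℝ) *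
        (1 - ((Int.gcd ((id δ : ℕ) : ℤ) (γ 1 0) : ℕ) : ℝ) ^ 2 / ((id δ : ℕ) : ℝ)))
      = ∑ δ ∈ N.divisors, ((r δ : ℝ) * ((Int.gcd (δ : ℤ) (γ 1 0) : ℕ) : ℝ) ^ 2 / δ - r δ) := by
        refine Finset.sum_congr rfl fun δ _ => ?_
        simp only [id]
        push_cast
        ring
    _ = _ := by rw [Finset.sum_sub_distrib, hr', sub_zero]

/-- the exact leading term at `i∞` -/
theorem tendsto_unitFun_mul_qq (N : ℕ) (r : ℕ → ℤ) (hr : ∑ δ ∈ N.divisors, r δ = 0) :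
    Tendsto (fun τ => unitFun N r τ * qq τ ^ (-∑ δ ∈ N.divisors, (δ : ℤ) * r δ)) atImInfty
      (𝓝 1) := by
  have h := tendsto_etaQ_mul_qq (s := N.divisors) (d := id) (fun δ => -r δ)
    (fun δ hδ => (Nat.pos_of_mem_divisors hδ).ne')
  have e : (∑ δ ∈ N.divisors, -r δ * (((id δ : ℕ) : ℤ) - 1)) =
      -∑ δ ∈ N.divisors, (δ : ℤ) * r δ := by
    calc (∑ δ ∈ N.divisors, -r δ * (((id δ : ℕ) : ℤ) - 1))
        = ∑ δ ∈ N.divisors, (r δ - (δ : ℤ) * r δ) := by
          refine Finset.sum_congr rfl fun δ _ => ?_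
          simp only [id]
          ring
      _ = _ := by rw [Finset.sum_sub_distrib, hr, zero_sub]
  rw [e] at h
  exact h.congr fun τ => by rw [unitFun_eq_etaQ N r hr]

/-- **Shape of the characteristic polynomial of the level-`N` unit.**  Hypotheses on the
exponents: weight `0`, a pole of order `n ≥ 1` at `i∞`, positive order at every cusp `a/c` with
`N ∤ c`. -/
theorem exists_charpoly_shape_unitFun (N : ℕ) [NeZero N] (r : ℕ → ℤ)
    (hr : ∑ δ ∈ N.divisors, r δ = 0) (n : ℕ) (hn : 1 ≤ n)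
    (hpole : ∑ δ ∈ N.divisors, (δ : ℤ) * r δ = -(n : ℤ))
    (hcusp : ∀ c : ℤ, ¬ (N : ℤ) ∣ c →
      0 < ∑ δ ∈ N.divisors, (r δ : ℝ) * ((Int.gcd (δ : ℤ) c : ℕ) : ℝ) ^ 2 / δ) :
    ∃ χ : Polynomial (Polynomial ℂ), χ.Monic ∧ χ.natDegree = Fintype.card (X N) ∧
      (∀ τ : ℍ, χ.map (Polynomial.evalRingHom (jA τ)) =
        ∏ x : X N, (Polynomial.X - Polynomial.C (conjF x (unitFun N r) τ))) ∧
      (∀ τ : ℍ, (χ.map (Polynomial.evalRingHom (jA τ))).eval (unitFun N r τ) = 0) ∧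
      (χ.coeff (Fintype.card (X N) - 1)).natDegree = n ∧
      (χ.coeff (Fintype.card (X N) - 1)).leadingCoeff = -1 ∧
      (∀ i, i + 1 < Fintype.card (X N) → (χ.coeff i).natDegree < n) ∧
      ∃ c : ℂ, c ≠ 0 ∧ χ.coeff 0 = Polynomial.C c := by
  have hr' : ∑ δ ∈ N.divisors, (fun δ => -r δ) δ = 0 := by
    rw [Finset.sum_neg_distrib, hr, neg_zero]
  refine exists_charpoly_shape (modFun_unitFun N r hr) (modFun_unitFun N _ hr')
    (unitFun_mul_neg N r) hn ?_ ?_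
  · have h := tendsto_unitFun_mul_qq N r hr
    rw [hpole, neg_neg] at h
    refine h.congr fun τ => ?_
    rw [zpow_natCast]
  · intro γ hγ
    refine (asymp_unitFun_smul N r hr γ).tendsto_zero (hcusp _ ?_)
    intro hdvd
    apply hγ
    rw [CongruenceSubgroup.Gamma0_mem]
    exact (ZMod.intCast_zmod_eq_zero_iff_dvd _ _).mpr hdvd

end

end Fermat.Agent.S28A
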