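import Fermat.Agent.S28.DegQ
import Fermat.Agent.S24.LocalCusp

/-!
# S28: modular functions of level `Γ₀(N)` with rational `q`-expansion lie in `ℚ(j(q^d) : d ∣ N)`

* `jN_relation_natDegree` : `j(q^N)` satisfies no relation of degree `< ψ(N)` over `ℚ[j]`;
* `relation_of_mem_adjoin` : every element of `ℚ[j(q^d), x]` satisfies one of degree `≤ ψ(N)`,
  if `x` is the expansion of a modular function of level `N`;
* `mem_full_of_modFun` : hence `x ∈ ℚ(j, j(q^N))`.
-/

set_option autoImplicit false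

namespace Fermat.Agent.S28A

open ModularCurve Polynomial IntermediateField UpperHalfPlane
open Fermat.Agent.S24

noncomputable section

/-! ### `j(q^N)` has degree at least `ψ(N)` over `ℚ(j)` -/

/-- the local embeddings at the cusp separate on `j(q^N)` -/
theorem theta_JN_injective (N : ℕ) [NeZero N] :
    Function.Injective
      (fun x : ES.X N => (cuspInput N).θ x ⟨Jd N, Jd_mem_RN (dvd_refl N)⟩) := by
  intro x y hxy
  have h1 := ((cuspInput N).θ_eq_iff x y _).mp hxy
  apply conjF_jS_injective N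
  change conjF x (ev N ⟨Jd N, Jd_mem_RN (dvd_refl N)⟩) =
    conjF y (ev N ⟨Jd N, Jd_mem_RN (dvd_refl N)⟩) at h1
  rw [ev_Jd (dvd_refl N)] at h1
  have e : (fun τ => jA (scaleH N τ)) = jS N := funext fun τ => (jS_eq_scaleH N τ).symm
  rw [e] at h1
  exact h1

/-- `ℚ[T] → RN N`, `T ↦ j`. -/
def kap0 (N : ℕ) [NeZero N] : ℚ[X] →+* RN N :=
  Polynomial.eval₂RingHom
    ((algebraMap (AlgebraicClosure ℚ) (RN N)).comp (algebraMap ℚ (AlgebraicClosure ℚ)))
    (cuspInput N).jR

theorem coeffEmb_injective' :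
    Function.Injective (coeffEmb (AlgebraicClosure ℚ)) := by
  intro a b hab
  ext k
  have h := congrArg (fun s : LaurentSeries (AlgebraicClosure ℚ) => s.coeff k) hab
  simp only [coeffEmb_coeff] at h
  exact (algebraMap ℚ (AlgebraicClosure ℚ)).injective h

theorem val_comp_kap0 (N : ℕ) [NeZero N] :
    ((RN N).val : RN N →+* LaurentSeries (AlgebraicClosure ℚ)).comp (kap0 N) =
      (coeffEmb (AlgebraicClosure ℚ)).comp (Polynomial.eval₂RingHom HahnSeries.C jq) := by
  refine Polynomial.ringHom_ext (fun c => ?_) ?_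
  · simp only [RingHom.comp_apply, kap0, Polynomial.coe_eval₂RingHom, Polynomial.eval₂_C]
    have h := S24B.coeffEmb_algebraMap (AlgebraicClosure ℚ) c
    rw [algebraMap_laurentSeries_eq_single] at h
    exact h.symm
  · simp only [RingHom.comp_apply, kap0, Polynomial.coe_eval₂RingHom, Polynomial.eval₂_X]
    show Jd 1 = coeffEmb (AlgebraicClosure ℚ) jq
    rw [Jd, qExpand_one_apply]

theorem kap0_injective (N : ℕ) [NeZero N] : Function.Injective (kap0 N) := by
  rw [injective_iff_map_eq_zero]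
  intro p hp
  have h1 := congrArg (fun r : RN N => (r : LaurentSeries (AlgebraicClosure ℚ))) hp
  have h2 := RingHom.congr_fun (val_comp_kap0 N) p
  simp only [RingHom.comp_apply] at h2
  have h3 : coeffEmb (AlgebraicClosure ℚ) (Polynomial.eval₂RingHom HahnSeries.C jq p) = 0 := by
    rw [← h2]
    exact h1
  have h4 : Polynomial.eval₂RingHom HahnSeries.C jq p = 0 := by
    apply coeffEmb_injective'
    rw [h3, map_zero]
  by_contra hp0
  have h5 : Polynomial.aeval (jqModC ℚ) p = 0 := by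
    rw [jqModC_rat, Polynomial.aeval_def]
    have e : (algebraMap ℚ (LaurentSeries ℚ)) = HahnSeries.C := by
      refine RingHom.ext fun c => ?_
      rw [algebraMap_laurentSeries_eq_single]
      rfl
    rw [e]
    exact h4
  exact aeval_jqModC_ne_zero hp0 h5

/-- `ℚ[T] → MGerm 0`, `T ↦ germ of j` (independent of the coset). -/
theorem theta_comp_kap0 (N : ℕ) [NeZero N] (x y : ES.X N) :
    ((cuspInput N).θ x).comp (kap0 N) = ((cuspInput N).θ y).comp (kap0 N) := by
  refine Polynomial.ringHom_ext (fun c => ?_) ?_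
  · have h : (((cuspInput N).θ x).comp (kap0 N)).comp Polynomial.C =
        (((cuspInput N).θ y).comp (kap0 N)).comp Polynomial.C := Subsingleton.elim _ _
    exact RingHom.congr_fun h c
  · simp only [RingHom.comp_apply, kap0, Polynomial.coe_eval₂RingHom, Polynomial.eval₂_X]
    rw [(cuspInput N).θ_eq_iff, (cuspInput N).c_j, (cuspInput N).c_j]

/-- **`j(q^N)` has degree at least `ψ(N)` over `ℚ(j)`**: bivariate form. -/
theorem jN_relation_natDegree (N : ℕ) [NeZero N] (Q : ℚ[X][X]) (hQ : Q ≠ 0)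
    (h : Q.eval₂ (Polynomial.eval₂RingHom HahnSeries.C jq) (qExpand ℚ N jq) = 0) :
    Fintype.card (ES.X N) ≤ Q.natDegree := by
  classical
  set JN : RN N := ⟨Jd N, Jd_mem_RN (dvd_refl N)⟩ with hJN
  -- the relation in `RN N`
  have h1 : Q.eval₂ (kap0 N) JN = 0 := by
    apply Subtype.ext
    have h2 := Polynomial.hom_eval₂ Q (kap0 N)
      ((RN N).val : RN N →+* LaurentSeries (AlgebraicClosure ℚ)) JN
    have h3 := Polynomial.hom_eval₂ Q (Polynomial.eval₂RingHom HahnSeries.C jq)
      (coeffEmb (AlgebraicClosure ℚ)) (qExpand ℚ N jq)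
    rw [val_comp_kap0] at h2
    rw [h] at h3
    rw [map_zero] at h3
    exact h2.trans h3.symm
  set κ := ((cuspInput N).θ (ES.x0 N)).comp (kap0 N) with hκ
  have hκinj : Function.Injective κ :=
    ((cuspInput N).θ_injective (ES.x0 N)).comp (kap0_injective N)
  have hroot : ∀ x : ES.X N, (Q.map κ).IsRoot ((cuspInput N).θ x JN) := by
    intro x
    rw [Polynomial.IsRoot, Polynomial.eval_map, hκ, theta_comp_kap0 N (ES.x0 N) x,
      ← Polynomial.hom_eval₂, h1, map_zero]
  have hne : Q.map κ ≠ 0 := (Polynomial.map_ne_zero_iff hκinj).mpr hQ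
  have hsub : (Finset.univ.image fun x : ES.X N => (cuspInput N).θ x JN).val ⊆ (Q.map κ).roots := by
    intro a ha
    rw [Finset.mem_val, Finset.mem_image] at ha
    obtain ⟨x, -, rfl⟩ := ha
    exact (Polynomial.mem_roots hne).mpr (hroot x)
  have hcard := Polynomial.card_le_degree_of_subset_roots hsub
  rw [Finset.card_image_of_injective _ (theta_JN_injective N), Finset.card_univ] at hcard
  exact hcard.trans Polynomial.natDegree_map_le

/-! ### Relations of degree `≤ ψ(N)` for expansions of modular functions -/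

theorem coeffMap_phiQ_eq (r : LaurentSeries ℚ) :
    coeffMap iotaK (coeffEmb (AlgebraicClosure ℚ) r) = coeffMap phiQ r := by
  rw [coeffEmb, coeffMap_coeffMap]
  rfl

/-- `j(q^d)` is the expansion of `j(dτ)`. -/
theorem isLaurentOf_jS (d : ℕ) [NeZero d] :
    S24B.IsLaurentOf (coeffMap phiQ (qExpand ℚ d jq)) (jS d) := by
  have h1 := ev_isLaurentOf d ⟨Jd d, Jd_mem_RN (dvd_refl d)⟩
  have h2 : ev d ⟨Jd d, Jd_mem_RN (dvd_refl d)⟩ = jS d := by
    rw [ev_Jd (dvd_refl d)]
    funext τ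
    exact (jS_eq_scaleH d τ).symm
  rw [h2] at h1
  have h3 : coeffMap iotaK (Jd d) = coeffMap phiQ (qExpand ℚ d jq) := coeffMap_phiQ_eq _
  rw [← h3]
  exact h1

theorem isLaurentOf_jA_phiQ : S24B.IsLaurentOf (coeffMap phiQ jq) jA := by
  have h := isLaurentOf_jS 1
  rw [qExpand_one_apply] at h
  have e : jS 1 = jA := funext fun τ => jS_one τ
  rwa [e] at h

theorem isLaurentOf_phiQ_algebraMap (c : ℚ) :
    S24B.IsLaurentOf (coeffMap phiQ (algebraMap ℚ (LaurentSeries ℚ) c))
      (fun _ : ℍ => phiQ c) := by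
  have h := S24B.IsLaurentOf.const (phiQ c)
  have e : coeffMap phiQ (algebraMap ℚ (LaurentSeries ℚ) c) = HahnSeries.C (phiQ c) := by
    rw [algebraMap_apply_eq_single, coeffMap_single]
    rfl
  rw [e]
  exact h

/-- Every element of `ℚ[j(q^d), xq]` is the expansion of a modular function of level `N`. -/
theorem exists_modFun_of_mem_adjoin (N : ℕ) [NeZero N] {xq : LaurentSeries ℚ} {f : ℍ → ℂ}
    (hx : S24B.IsLaurentOf (coeffMap phiQ xq) f) (Hf : ModFun N f) {r : LaurentSeries ℚ}
    (hr : r ∈ Algebra.adjoin ℚ (insert xq (divisorExpansions N))) :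
    ∃ g : ℍ → ℂ, S24B.IsLaurentOf (coeffMap phiQ r) g ∧ ModFun N g := by
  induction hr using Algebra.adjoin_induction with
  | mem x hx' =>
    rcases hx' with rfl | ⟨d, hd, hdN, rfl⟩
    · exact ⟨f, hx, Hf⟩
    · exact ⟨jS d, isLaurentOf_jS d, ModFun.jS hdN⟩
  | algebraMap c => exact ⟨_, isLaurentOf_phiQ_algebraMap c, ModFun.const N _⟩
  | add x y _ _ hx' hy' =>
    obtain ⟨g₁, h₁, H₁⟩ := hx'
    obtain ⟨g₂, h₂, H₂⟩ := hy'
    refine ⟨fun τ => g₁ τ + g₂ τ, ?_, H₁.add H₂⟩
    rw [map_add]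
    exact h₁.add h₂
  | mul x y _ _ hx' hy' =>
    obtain ⟨g₁, h₁, H₁⟩ := hx'
    obtain ⟨g₂, h₂, H₂⟩ := hy'
    refine ⟨fun τ => g₁ τ * g₂ τ, ?_, H₁.mul H₂⟩
    rw [map_mul]
    exact h₁.mul h₂

/-- Every element of `ℚ[j(q^d), xq]` satisfies a nontrivial relation over `ℚ[j]` of degree at most
`|X N|`. -/
theorem relation_of_mem_adjoin (N : ℕ) [NeZero N] {xq : LaurentSeries ℚ} {f : ℍ → ℂ}
    (hx : S24B.IsLaurentOf (coeffMap phiQ xq) f) (Hf : ModFun N f) {r : LaurentSeries ℚ}
    (hr : r ∈ Algebra.adjoin ℚ (insert xq (divisorExpansions N))) :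
    ∃ Q : ℚ[X][X], Q ≠ 0 ∧ Q.natDegree ≤ Fintype.card (ES.X N) ∧
      Q.eval₂ (Polynomial.eval₂RingHom HahnSeries.C jq) r = 0 := by
  obtain ⟨g, hg, Hg⟩ := exists_modFun_of_mem_adjoin N hx Hf hr
  obtain ⟨P, hP1, hP2, hP3⟩ := Hg.exists_monic_relation
  have h := ((isLaurentOf_jA_phiQ.bivariate hg P).eq_zero_iff).mpr (funext hP3)
  obtain ⟨Q, hQ0, hQd, hQ⟩ := ld_bivariate phiQ jq r P hP1.ne_zero h
  exact ⟨Q, hQ0, hQd.trans hP2.le, hQ⟩

/-! ### Clearing denominators -/

/-- From a relation over `K(j)` to a bivariate relation over `K[j]` of the same degree. -/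
theorem exists_bivariate_of_root {K F : Type} [Field K] [Field F] [Algebra K F] (j : F) (r : F)
    (p : Polynomial K⟮j⟯) (hp : p ≠ 0) (hr : Polynomial.aeval r p = 0) :
    ∃ Q : K[X][X], Q ≠ 0 ∧ Q.natDegree ≤ p.natDegree ∧
      Q.eval₂ ((Polynomial.aeval j : K[X] →ₐ[K] F) : K[X] →+* F) r = 0 := by
  classical
  have hcoef : ∀ i : ℕ, ∃ a s : K[X], aeval j s ≠ 0 ∧
      ((p.coeff i : K⟮j⟯) : F) * aeval j s = aeval j a := by
    intro i
    obtain ⟨a, s, has⟩ := (mem_adjoin_simple_iff K ((p.coeff i : K⟮j⟯) : F)).mp (p.coeff i).2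
    by_cases hs : aeval j s = 0
    · refine ⟨0, 1, by simp, ?_⟩
      rw [has, hs, div_zero]
      simp
    · exact ⟨a, s, hs, by rw [has, div_mul_cancel₀ _ hs]⟩
  choose a s hs has using hcoef
  set n := p.natDegree with hn
  set φ : K[X] →+* F := ((Polynomial.aeval j : K[X] →ₐ[K] F) : K[X] →+* F) with hφ
  have hφs : ∀ i, φ (s i) ≠ 0 := hs
  have hφa : ∀ i, ((p.coeff i : K⟮j⟯) : F) * φ (s i) = φ (a i) := has
  set c : ℕ → K[X] := fun i => a i * ∏ k ∈ (Finset.range (n + 1)).erase i, s k with hc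
  set Sd : F := φ (∏ k ∈ Finset.range (n + 1), s k) with hSd
  have hS : Sd ≠ 0 := by
    rw [hSd, map_prod]
    exact Finset.prod_ne_zero_iff.mpr fun k _ => hφs k
  have hφc : ∀ i ∈ Finset.range (n + 1), φ (c i) = ((p.coeff i : K⟮j⟯) : F) * Sd := by
    intro i hi
    rw [hc, hSd, ← Finset.mul_prod_erase _ _ hi]
    simp only [map_mul]
    rw [← hφa i]
    ring
  refine ⟨∑ i ∈ Finset.range (n + 1), Polynomial.C (c i) * Polynomial.X ^ i, ?_, ?_, ?_⟩
  · intro h0
    have h1 := congrArg (fun q : K[X][X] => q.coeff n) h0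
    simp only [Polynomial.finset_sum_coeff, Polynomial.coeff_C_mul_X_pow, Polynomial.coeff_zero]
      at h1
    rw [Finset.sum_ite_eq (Finset.range (n + 1)) n c, if_pos (Finset.self_mem_range_succ n)] at h1
    have h2 := hφc n (Finset.self_mem_range_succ n)
    rw [h1, map_zero] at h2
    have h3 : ((p.coeff n : K⟮j⟯) : F) ≠ 0 := by
      have : p.coeff n ≠ 0 := by
        rw [hn]
        exact Polynomial.leadingCoeff_ne_zero.mpr hp
      exact fun h => this (Subtype.ext h)
    exact (mul_ne_zero h3 hS) h2.symm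
  · refine Polynomial.natDegree_sum_le_of_forall_le _ _ fun i hi => ?_
    exact (Polynomial.natDegree_C_mul_X_pow_le _ _).trans
      (Nat.lt_succ_iff.mp (Finset.mem_range.mp hi))
  · rw [Polynomial.eval₂_finset_sum]
    have h1 : ∀ i ∈ Finset.range (n + 1),
        (Polynomial.C (c i) * Polynomial.X ^ i).eval₂ φ r =
          Sd * (((p.coeff i : K⟮j⟯) : F) * r ^ i) := by
      intro i hi
      rw [Polynomial.eval₂_mul, Polynomial.eval₂_C, Polynomial.eval₂_X_pow, hφc i hi]
      ring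
    rw [Finset.sum_congr rfl h1, ← Finset.mul_sum]
    have h2 : Polynomial.aeval r p = ∑ i ∈ Finset.range (n + 1), ((p.coeff i : K⟮j⟯) : F) * r ^ i := by
      rw [Polynomial.aeval_eq_sum_range]
      refine Finset.sum_congr rfl fun i _ => ?_
      rw [Algebra.smul_def]
      rfl
    rw [← h2, hr, mul_zero]

/-! ### Intermediate fields of `ℚ((q))` -/

section generic

variable (E : IntermediateField ℚ (LaurentSeries ℚ))

/-- The inclusion of an intermediate field into Laurent series, as a ring hom. -/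
def incE : ↥E →+* LaurentSeries ℚ := algebraMap ↥E (LaurentSeries ℚ)

theorem incE_apply (y : ↥E) : incE E y = (y : LaurentSeries ℚ) := rfl

theorem incE_algebraMap (c : ℚ) :
    ((algebraMap ℚ ↥E c : ↥E) : LaurentSeries ℚ) = algebraMap ℚ (LaurentSeries ℚ) c := by
  have h : (incE E).comp (algebraMap ℚ ↥E) = algebraMap ℚ (LaurentSeries ℚ) :=
    Subsingleton.elim _ _
  exact RingHom.congr_fun h c

theorem incE_comp_aeval (jE : ↥E) (hj : (jE : LaurentSeries ℚ) = jq) :
    (incE E).comp ((Polynomial.aeval jE : ℚ[X] →ₐ[ℚ] ↥E) : ℚ[X] →+* ↥E) =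
      Polynomial.eval₂RingHom HahnSeries.C jq := by
  refine Polynomial.ringHom_ext (fun c => ?_) ?_
  · simp only [RingHom.comp_apply, RingHom.coe_coe, Polynomial.aeval_C,
      Polynomial.coe_eval₂RingHom, Polynomial.eval₂_C]
    rw [incE_apply, incE_algebraMap, algebraMap_laurentSeries_eq_single]
    rfl
  · simp only [RingHom.comp_apply, RingHom.coe_coe, Polynomial.aeval_X,
      Polynomial.coe_eval₂RingHom, Polynomial.eval₂_X]
    exact hj

theorem transcendental_of_coe_eq_jq (jE : ↥E) (hj : (jE : LaurentSeries ℚ) = jq) :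
    Transcendental ℚ jE := by
  rintro ⟨p, hp, hp0⟩
  have h1 := congrArg (incE E) hp0
  rw [map_zero] at h1
  have h2 : incE E (Polynomial.aeval jE p) = (Polynomial.eval₂RingHom HahnSeries.C jq) p := by
    rw [← incE_comp_aeval E jE hj]
    rfl
  rw [h2] at h1
  have h3 : Polynomial.aeval (jqModC ℚ) p = 0 := by
    rw [jqModC_rat, Polynomial.aeval_def]
    have e : (algebraMap ℚ (LaurentSeries ℚ)) = HahnSeries.C := by
      refine RingHom.ext fun c => ?_
      rw [algebraMap_laurentSeries_eq_single]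
      rfl
    rw [e]
    exact h1
  exact aeval_jqModC_ne_zero hp h3

/-- The elements of `E` lying in a given subalgebra of Laurent series. -/
def subE (A : Subalgebra ℚ (LaurentSeries ℚ)) : Subalgebra ℚ ↥E where
  carrier := {y | (y : LaurentSeries ℚ) ∈ A}
  mul_mem' := fun ha hb => A.mul_mem ha hb
  add_mem' := fun ha hb => A.add_mem ha hb
  algebraMap_mem' := fun c => by
    show ((algebraMap ℚ ↥E c : ↥E) : LaurentSeries ℚ) ∈ A
    rw [incE_algebraMap]
    exact A.algebraMap_mem c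

theorem mem_subE (A : Subalgebra ℚ (LaurentSeries ℚ)) (y : ↥E) :
    y ∈ subE E A ↔ (y : LaurentSeries ℚ) ∈ A := Iff.rfl

end generic

/-! ### The main theorem -/

/-- **A modular function of level `Γ₀(N)` whose `q`-expansion has rational coefficients lies in
the function field `ℚ(j(q^d) : d ∣ N)`.** -/
theorem mem_full_of_isLaurentOf (N : ℕ) [NeZero N] (xq : LaurentSeries ℚ) (f : ℍ → ℂ)
    (h1 : S24B.IsLaurentOf (coeffMap phiQ xq) f) (h2 : ModFun N f) :
    xq ∈ modularFunctionFieldFull N := by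
  classical
  set S' : Set (LaurentSeries ℚ) := insert xq (divisorExpansions N) with hS'
  set E : IntermediateField ℚ (LaurentSeries ℚ) := IntermediateField.adjoin ℚ S' with hE
  have hjS : jq ∈ S' := by
    refine Set.mem_insert_of_mem _ ?_
    have := mem_divisorExpansions N (one_dvd N)
    rwa [qExpand_one_apply] at this
  have hθS : qExpand ℚ N jq ∈ S' := Set.mem_insert_of_mem _ (mem_divisorExpansions N (dvd_refl N))
  set jE : ↥E := ⟨jq, IntermediateField.subset_adjoin ℚ S' hjS⟩ with hjE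
  set θE : ↥E := ⟨qExpand ℚ N jq, IntermediateField.subset_adjoin ℚ S' hθS⟩ with hθE
  set xE : ↥E := ⟨xq, IntermediateField.subset_adjoin ℚ S' (Set.mem_insert _ _)⟩ with hxE
  have hjcoe : (jE : LaurentSeries ℚ) = jq := rfl
  have htr : Transcendental ℚ jE := transcendental_of_coe_eq_jq E jE hjcoe
  set ψ := Fintype.card (ES.X N) with hψ
  -- the degree bound for `E`
  have hdeg : FiniteDimensional ℚ⟮jE⟯ ↥E ∧ Module.finrank ℚ⟮jE⟯ ↥E ≤ ψ := by
    refine deg_le_of_forall_algebraic jE (subE E (Algebra.adjoin ℚ S'))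
      (Algebra.subset_adjoin hjS) ?_ ψ (Fintype.card_pos_iff.mpr ⟨ES.x0 N⟩) ?_
    · rw [eq_top_iff]
      intro y _
      have hy : (y : LaurentSeries ℚ) ∈ IntermediateField.adjoin ℚ S' := y.2
      rw [IntermediateField.mem_adjoin_iff_div] at hy
      obtain ⟨r, hr, s, hs, hyrs⟩ := hy
      have hrE : r ∈ E := IntermediateField.algebra_adjoin_le_adjoin ℚ S' hr
      have hsE : s ∈ E := IntermediateField.algebra_adjoin_le_adjoin ℚ S' hs
      have e : y = (⟨r, hrE⟩ : ↥E) / ⟨s, hsE⟩ := by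
        apply Subtype.ext
        rw [hyrs]
        rfl
      rw [e]
      have hr' : (⟨r, hrE⟩ : ↥E) ∈ subE E (Algebra.adjoin ℚ S') := hr
      have hs' : (⟨s, hsE⟩ : ↥E) ∈ subE E (Algebra.adjoin ℚ S') := hs
      exact div_mem (IntermediateField.subset_adjoin _ _ hr')
        (IntermediateField.subset_adjoin _ _ hs')
    · intro y hy
      obtain ⟨Q, hQ0, hQd, hQ⟩ := relation_of_mem_adjoin N h1 h2 hy
      have h : Q.eval₂ ((Polynomial.aeval jE : ℚ[X] →ₐ[ℚ] _) : ℚ[X] →+* ↥E) y = 0 := by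
        apply Subtype.ext
        have h3 := Polynomial.hom_eval₂ Q
          ((Polynomial.aeval jE : ℚ[X] →ₐ[ℚ] _) : ℚ[X] →+* ↥E) (incE E) y
        rw [incE_comp_aeval E jE hjcoe] at h3
        exact h3.trans hQ
      obtain ⟨p, hp0, hpd, hp⟩ := db_poly_of_bivariate jE htr y Q hQ0 h
      exact ⟨p, hp0, hpd.trans hQd, hp⟩
  haveI : FiniteDimensional ℚ⟮jE⟯ ↥E := hdeg.1
  -- the minimal polynomial of `j(q^N)`
  have hint : IsIntegral ℚ⟮jE⟯ θE := IsIntegral.of_finite ℚ⟮jE⟯ θE
  obtain ⟨Q, hQ0, hQd, hQ⟩ := exists_bivariate_of_root jE θE (minpoly ℚ⟮jE⟯ θE)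
    (minpoly.ne_zero hint) (minpoly.aeval _ _)
  have hQ' : Q.eval₂ (Polynomial.eval₂RingHom HahnSeries.C jq) (qExpand ℚ N jq) = 0 := by
    have h3 := Polynomial.hom_eval₂ Q
      ((Polynomial.aeval jE : ℚ[X] →ₐ[ℚ] _) : ℚ[X] →+* ↥E) (incE E) θE
    rw [incE_comp_aeval E jE hjcoe, hQ, map_zero] at h3
    exact h3.symm
  have hlow := jN_relation_natDegree N Q hQ0 hQ'
  have hup : (minpoly ℚ⟮jE⟯ θE).natDegree ≤ Module.finrank ℚ⟮jE⟯ ↥E := minpoly.natDegree_le θE
  have hprim : ℚ⟮jE⟯⟮θE⟯ = ⊤ := by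
    rw [Field.primitive_element_iff_minpoly_natDegree_eq]
    have := hdeg.2
    omega
  -- conclusion
  have hx : xE ∈ (ℚ⟮jE⟯⟮θE⟯).restrictScalars ℚ := by
    rw [IntermediateField.mem_restrictScalars, hprim]
    trivial
  have hx2 : xE ∈ IntermediateField.adjoin ℚ (({jE} : Set ↥E) ∪ {θE}) := by
    have e := IntermediateField.adjoin_adjoin_left ℚ ({jE} : Set ↥E) ({θE} : Set ↥E)
    rw [← e]
    exact hx
  have key : ∀ y : ↥E, y ∈ IntermediateField.adjoin ℚ (({jE} : Set ↥E) ∪ {θE}) →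
      (y : LaurentSeries ℚ) ∈ modularFunctionFieldFull N := by
    intro y hy
    induction hy using IntermediateField.adjoin_induction with
    | mem z hz =>
      rcases hz with hz | hz
      · rw [Set.mem_singleton_iff] at hz
        subst hz
        have := jqd_mem_full N (one_dvd N)
        rwa [qExpand_one_apply] at this
      · rw [Set.mem_singleton_iff] at hz
        subst hz
        exact jqd_mem_full N (dvd_refl N)
    | algebraMap c =>
      rw [incE_algebraMap]
      exact (modularFunctionFieldFull N).algebraMap_mem c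
    | add u v _ _ hu hv => exact add_mem hu hv
    | inv u _ hu => exact inv_mem hu
    | mul u v _ _ hu hv => exact mul_mem hu hv
  exact key xE hx2

end

end Fermat.Agent.S28A
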