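import Fermat.Agent.S28.Formal
import Fermat.Agent.S28.LevelN
import Fermat.Agent.S28.MemFull

/-!
# S28, leaf L4: analytic inputs in the blueprint's shapes

* `dFun_smul_eq`, `modFun_unitFun`, `mem_full_of_modFun` (from `LevelN.lean`, `MemFull.lean`);
* `isLaurentOf_unitFun` : the formal unit is the `q`-expansion of the analytic unit;
* `exists_conj_expansion` : expansions of all translates of the unit in the variable `τ/N`.
-/

set_option autoImplicit false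

namespace Fermat.Agent.S28

open ModularCurve UpperHalfPlane ModularForm
open Fermat.Agent
open scoped MatrixGroups Real

noncomputable section

/-! ### A1', A2, A4 -/

theorem dFun_smul_eq (d : ℕ) [NeZero d] (γ : SL(2, ℤ)) :
    ∃ (e B D : ℤ), 0 < e ∧ 0 < D ∧ e * D = d ∧ e = (Int.gcd (d : ℤ) (γ 1 0) : ℤ) ∧
      ∃ had : ((e : ℝ) * (D : ℝ)) ≠ 0, ∀ τ : ℍ,
        (D : ℂ) ^ (12 : ℕ) * dFun d (γ • τ) = denom γ τ ^ (12 : ℤ) *
          ModularForm.discriminant (upperTriangularGL (e : ℝ) (B : ℝ) (D : ℝ) had • τ) :=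
  S28A.dS_smul_gcd d γ

theorem modFun_unitFun (N : ℕ) [NeZero N] (r : ℕ → ℤ) (hr : ∑ δ ∈ N.divisors, r δ = 0) :
    S24.ModFun N (unitFun N r) :=
  S28A.modFun_unitFun N r hr

theorem mem_full_of_modFun (N : ℕ) [NeZero N] (xq : LaurentSeries ℚ) (f : ℍ → ℂ)
    (h1 : S24B.IsLaurentOf (coeffMap S28A.phiQ xq) f) (h2 : S24.ModFun N f) :
    xq ∈ modularFunctionFieldFull N :=
  S28A.mem_full_of_isLaurentOf N xq f h1 h2

/-! ### Products and integer powers of Laurent expansions -/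

theorem isLaurentOf_finset_prod {ι : Type} (s : Finset ι) (S : ι → LaurentSeries ℂ)
    (F : ι → ℍ → ℂ) (h : ∀ i ∈ s, S24B.IsLaurentOf (S i) (F i)) :
    S24B.IsLaurentOf (∏ i ∈ s, S i) (fun τ => ∏ i ∈ s, F i τ) := by
  classical
  induction s using Finset.induction_on with
  | empty =>
    have e : (fun τ : ℍ => ∏ i ∈ (∅ : Finset ι), F i τ) = (1 : ℍ → ℂ) := by
      funext τ; simp
    rw [e, Finset.prod_empty]
    exact S24B.IsLaurentOf.one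
  | insert i s hi ih =>
    have h1 := h i (Finset.mem_insert_self i s)
    have h2 := ih fun j hj => h j (Finset.mem_insert_of_mem hj)
    have e : (fun τ : ℍ => ∏ j ∈ insert i s, F j τ) = F i * fun τ => ∏ j ∈ s, F j τ := by
      funext τ; rw [Finset.prod_insert hi]; rfl
    rw [e, Finset.prod_insert hi]
    exact h1.mul h2

/-- integer powers: the expansion of `f ^ a` from those of `f` and `f⁻¹` -/
theorem isLaurentOf_zpow {s s' : LaurentSeries ℂ} {f : ℍ → ℂ} (h1 : S24B.IsLaurentOf s f)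
    (h2 : S24B.IsLaurentOf s' (fun τ => (f τ)⁻¹)) (a : ℤ) :
    ∃ S : LaurentSeries ℂ, S24B.IsLaurentOf S (fun τ => f τ ^ a) ∧
      S = if 0 ≤ a then s ^ a.toNat else s' ^ (-a).toNat := by
  refine ⟨_, ?_, rfl⟩
  by_cases ha : 0 ≤ a
  · rw [if_pos ha]
    have h := h1.pow a.toNat
    have e : (fun τ => f τ ^ a) = f ^ a.toNat := by
      funext τ
      rw [Pi.pow_apply, ← zpow_natCast, Int.toNat_of_nonneg ha]
    rw [e]
    exact h
  · rw [if_neg ha]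
    have h := h2.pow (-a).toNat
    have e : (fun τ => f τ ^ a) = (fun τ => (f τ)⁻¹) ^ (-a).toNat := by
      funext τ
      rw [Pi.pow_apply, ← zpow_natCast, Int.toNat_of_nonneg (by omega), inv_zpow, zpow_neg,
        inv_inv]
    rw [e]
    exact h

/-! ### `isLaurentOf_unitFun` -/

theorem coe_dFun (δ : ℕ) [NeZero δ] (τ : ℍ) :
    ((heckeDiagMatrix δ • τ : ℍ) : ℂ) = (δ : ℂ) * τ :=
  coe_heckeDiagMatrix_smul (NeZero.ne δ) τ

theorem isLaurentOf_dFun (δ : ℕ) [NeZero δ] :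
    S24B.IsLaurentOf (iotaC (dUnitZ δ : LaurentSeries ℤ)) (dFun δ) := by
  have h := isLaurentOf_discriminant.scale (d := δ) (D := fun τ => heckeDiagMatrix δ • τ)
    (coe_dFun δ)
  rw [coe_dUnitZ, iotaC, coeffMap_qExpand]
  exact h

theorem coe_dUnitZ_inv (δ : ℕ) [NeZero δ] :
    (((dUnitZ δ)⁻¹ : (LaurentSeries ℤ)ˣ) : LaurentSeries ℤ) =
      qExpand ℤ δ ((deltaZ⁻¹ : (LaurentSeries ℤ)ˣ) : LaurentSeries ℤ) := by
  rw [dUnitZ, dif_neg (NeZero.ne δ), ← map_inv]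
  rfl

theorem isLaurentOf_dFun_inv (δ : ℕ) [NeZero δ] :
    S24B.IsLaurentOf (iotaC (((dUnitZ δ)⁻¹ : (LaurentSeries ℤ)ˣ) : LaurentSeries ℤ))
      (fun τ => (dFun δ τ)⁻¹) := by
  have h := isLaurentOf_discriminant_inv.scale (d := δ) (D := fun τ => heckeDiagMatrix δ • τ)
    (coe_dFun δ)
  rw [coe_dUnitZ_inv, iotaC, coeffMap_qExpand]
  exact h

theorem isLaurentOf_dFun_zpow (δ : ℕ) [NeZero δ] (a : ℤ) :
    S24B.IsLaurentOf (iotaC ((dUnitZ δ ^ a : (LaurentSeries ℤ)ˣ) : LaurentSeries ℤ))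
      (fun τ => dFun δ τ ^ a) := by
  obtain ⟨S, hS, hSeq⟩ := isLaurentOf_zpow (isLaurentOf_dFun δ) (isLaurentOf_dFun_inv δ) a
  have e : iotaC ((dUnitZ δ ^ a : (LaurentSeries ℤ)ˣ) : LaurentSeries ℤ) = S := by
    rw [hSeq]
    by_cases ha : 0 ≤ a
    · rw [if_pos ha, ← map_pow, ← Units.val_pow_eq_pow_val, ← zpow_natCast,
        Int.toNat_of_nonneg ha]
    · rw [if_neg ha, ← map_pow, ← Units.val_pow_eq_pow_val, ← zpow_natCast,
        Int.toNat_of_nonneg (by omega), inv_zpow, zpow_neg, inv_inv]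
  rw [e]
  exact hS

/-- The formal unit is the `q`-expansion of the analytic unit. -/
theorem isLaurentOf_unitFun (N : ℕ) [NeZero N] (r : ℕ → ℤ) :
    S24B.IsLaurentOf (iotaC (unitZ N r : LaurentSeries ℤ)) (unitFun N r) := by
  have h := isLaurentOf_finset_prod N.divisors
    (fun δ => iotaC ((dUnitZ δ ^ r δ : (LaurentSeries ℤ)ˣ) : LaurentSeries ℤ))
    (fun δ τ => dFun δ τ ^ r δ) (fun δ hδ => by
      haveI : NeZero δ := ⟨(Nat.pos_of_mem_divisors hδ).ne'⟩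
      exact isLaurentOf_dFun_zpow δ (r δ))
  have e : iotaC (unitZ N r : LaurentSeries ℤ) =
      ∏ δ ∈ N.divisors, iotaC ((dUnitZ δ ^ r δ : (LaurentSeries ℤ)ˣ) : LaurentSeries ℤ) := by
    rw [unitZ, Units.coe_prod, map_prod]
  rw [e]
  exact h

/-! ### Lower bounds for the order of a Laurent series -/

/-- all coefficients of index `< m` vanish -/
def OrdGE (s : LaurentSeries ℂ) (m : ℤ) : Prop := ∀ k : ℤ, k < m → s.coeff k = 0

theorem OrdGE.mul {s t : LaurentSeries ℂ} {m n : ℤ} (hs : OrdGE s m) (ht : OrdGE t n) :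
    OrdGE (s * t) (m + n) := by
  intro k hk
  rw [HahnSeries.coeff_mul]
  refine Finset.sum_eq_zero fun ij hij => ?_
  rw [Finset.mem_addAntidiagonal] at hij
  obtain ⟨-, -, hsum⟩ := hij
  by_cases h1 : ij.1 < m
  · rw [hs _ h1, zero_mul]
  · have h2 : ij.2 < n := by omega
    rw [ht _ h2, mul_zero]

theorem OrdGE.one : OrdGE 1 0 := by
  intro k hk
  rw [HahnSeries.coeff_one, if_neg hk.ne]

theorem OrdGE.C (c : ℂ) : OrdGE (HahnSeries.C c) 0 := by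
  intro k hk
  rw [HahnSeries.C_apply, HahnSeries.coeff_single_of_ne hk.ne]

theorem OrdGE.pow {s : LaurentSeries ℂ} {m : ℤ} (hs : OrdGE s m) (n : ℕ) :
    OrdGE (s ^ n) (n * m) := by
  induction n with
  | zero => simpa using OrdGE.one
  | succ n ih =>
    have h := ih.mul hs
    rw [pow_succ]
    have e : ((n + 1 : ℕ) : ℤ) * m = n * m + m := by push_cast; ring
    rw [e]
    exact h

theorem OrdGE.prod {ι : Type} (t : Finset ι) (S : ι → LaurentSeries ℂ) (m : ι → ℤ)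
    (h : ∀ i ∈ t, OrdGE (S i) (m i)) : OrdGE (∏ i ∈ t, S i) (∑ i ∈ t, m i) := by
  classical
  induction t using Finset.induction_on with
  | empty => simpa using OrdGE.one
  | insert i t hi ih =>
    rw [Finset.prod_insert hi, Finset.sum_insert hi]
    exact (h i (Finset.mem_insert_self i t)).mul
      (ih fun j hj => h j (Finset.mem_insert_of_mem hj))

theorem OrdGE.qExpand {s : LaurentSeries ℂ} {m : ℤ} (hs : OrdGE s m) (M : ℕ) [NeZero M] :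
    OrdGE (qExpand ℂ M s) (M * m) := by
  intro k hk
  by_cases hdvd : (M : ℤ) ∣ k
  · obtain ⟨j, rfl⟩ := hdvd
    rw [qExpand_coeff_mul]
    apply hs
    have hM : (0 : ℤ) < M := by exact_mod_cast Nat.pos_of_ne_zero (NeZero.ne M)
    exact lt_of_mul_lt_mul_left hk hM.le
  · exact qExpand_coeff_of_not_dvd _ _ hdvd

theorem OrdGE.twistL {s : LaurentSeries ℂ} {m : ℤ} (hs : OrdGE s m) (ζ : ℂ) :
    OrdGE (twistL ζ s) m := by
  intro k hk
  rw [twistL_coeff, hs k hk, mul_zero]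

theorem ordGE_iotaC_deltaZ : OrdGE (iotaC (deltaZ : LaurentSeries ℤ)) 1 := by
  intro k hk
  rw [iotaC_coeff, coe_deltaZ]
  have e : k = (k - 1) + 1 := by ring
  rw [e, HahnSeries.coeff_single_mul_add, ofPowerSeries_coeff_of_neg _ (by omega)]
  simp

theorem ordGE_iotaC_deltaZ_inv :
    OrdGE (iotaC ((deltaZ⁻¹ : (LaurentSeries ℤ)ˣ) : LaurentSeries ℤ)) (-1) := by
  intro k hk
  have e3 : ((deltaZ⁻¹ : (LaurentSeries ℤ)ˣ) : LaurentSeries ℤ) =
      HahnSeries.single (-1 : ℤ) 1 * HahnSeries.ofPowerSeries ℤ ℤ dedekindEtaUnitInv := rfl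
  rw [iotaC_coeff, e3]
  have e : k = (k + 1) + (-1) := by ring
  rw [e, HahnSeries.coeff_single_mul_add, ofPowerSeries_coeff_of_neg _ (by omega)]
  simp

theorem OrdGE.congr {s : LaurentSeries ℂ} {m m' : ℤ} (hs : OrdGE s m) (e : m = m') :
    OrdGE s m' := e ▸ hs

/-! ### Membership in `OO ℓ` -/

theorem isIntegral_mem_OO {ℓ : ℕ} {z : ℂ} (hz : IsIntegral ℤ z) : z ∈ OO ℓ :=
  ⟨1, Nat.coprime_one_left _, one_ne_zero, by simpa using hz⟩

theorem inv_natCast_mem_OO {ℓ D : ℕ} (hD : D ≠ 0) (hcop : D.Coprime ℓ) :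
    ((D : ℂ))⁻¹ ∈ OO ℓ :=
  ⟨D, hcop, hD, by
    rw [mul_inv_cancel₀ (Nat.cast_ne_zero.mpr hD)]
    exact isIntegral_one⟩

theorem root_of_unity_mem_OO {ℓ : ℕ} {ζ : ℂ} {n : ℕ} (hn : 0 < n) (h : ζ ^ n = 1) :
    ζ ∈ OO ℓ :=
  isIntegral_mem_OO (IsIntegral.of_pow hn (h ▸ isIntegral_one))

/-! ### Hermite form, in natural numbers and coordinates -/

theorem dFun_smul_nat (δ : ℕ) [NeZero δ] (γ : SL(2, ℤ)) :
    ∃ (B : ℤ) (D : ℕ), 0 < D ∧ Int.gcd (δ : ℤ) (γ 1 0) * D = δ ∧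
      0 < Int.gcd (δ : ℤ) (γ 1 0) ∧
      ∀ τ : ℍ, ∃ τ' : ℍ,
        (τ' : ℂ) = ((Int.gcd (δ : ℤ) (γ 1 0) : ℂ) * τ + B) / D ∧
        (D : ℂ) ^ (12 : ℕ) * dFun δ (γ • τ) =
          denom γ τ ^ (12 : ℤ) * ModularForm.discriminant τ' := by
  obtain ⟨e, B, D, he, hD, heD, heg, had, h⟩ := dFun_smul_eq δ γ
  lift D to ℕ using hD.le
  subst heg
  have hD' : 0 < D := by exact_mod_cast hD
  have hg : 0 < Int.gcd (δ : ℤ) (γ 1 0) := by exact_mod_cast he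
  refine ⟨B, D, hD', by exact_mod_cast heD, hg, fun τ => ⟨_, ?_, h τ⟩⟩
  have heR : (0 : ℝ) < ((Int.gcd (δ : ℤ) (γ 1 0) : ℕ) : ℤ) := by exact_mod_cast hg
  have hDR : (0 : ℝ) < ((D : ℕ) : ℤ) := by exact_mod_cast hD'
  rw [S23.Scale.coe_upperTriangularGL_smul (b := (B : ℝ)) heR hDR τ]
  push_cast
  rfl

/-! ### The expansion of one factor -/

theorem exists_factor_expansion (N ℓ : ℕ) [NeZero N] [Fact ℓ.Prime] (hℓ : ¬ ℓ ∣ N) (δ : ℕ)
    (hδ : δ ∣ N) (γ : SL(2, ℤ)) (a : ℤ) :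
    ∃ S : LaurentSeries ℂ, S ∈ LSO (OO ℓ) ∧
      S24B.IsLaurentOf S (fun τ : ℍ => (dFun δ (γ • (heckeDiagMatrix N • τ)) /
        denom γ (heckeDiagMatrix N • τ : ℍ) ^ (12 : ℤ)) ^ a) ∧
      OrdGE S (a * ((N / δ : ℕ) : ℤ) * ((Int.gcd (δ : ℤ) (γ 1 0) : ℕ) : ℤ) ^ 2) := by
  have hN : N ≠ 0 := NeZero.ne N
  have hδ0 : δ ≠ 0 := ne_zero_of_dvd_ne_zero hN hδ
  haveI : NeZero δ := ⟨hδ0⟩
  obtain ⟨B, D, hD, hgD, hg, h⟩ := dFun_smul_nat δ γ
  set g := Int.gcd (δ : ℤ) (γ 1 0) with hgdef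
  obtain ⟨k, hk⟩ := hδ
  have hk0 : k ≠ 0 := by
    rintro rfl
    exact hN (by rw [hk, mul_zero])
  have hNδ : N / δ = k := by rw [hk]; exact Nat.mul_div_cancel_left k (Nat.pos_of_ne_zero hδ0)
  have hND : N / D = g * k := by
    have : N = D * (g * k) := by rw [hk, ← hgD]; ring
    rw [this]
    exact Nat.mul_div_cancel_left _ hD
  have hDN : D ∣ N := ⟨g * k, by rw [hk, ← hgD]; ring⟩
  have hcop : D.Coprime ℓ := by
    have hp : ℓ.Prime := Fact.out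
    exact ((Nat.Prime.coprime_iff_not_dvd hp).mpr fun hd => hℓ (hd.trans hDN)).symm
  have hDC : (D : ℂ) ≠ 0 := Nat.cast_ne_zero.mpr hD.ne'
  -- the scaling factor and the shift
  set M : ℕ := g * (g * k) with hM
  haveI : NeZero M := ⟨by positivity⟩
  set t : ℝ := (B : ℝ) / D with ht
  choose G hG1 hG2 using fun τ : ℍ => h (heckeDiagMatrix N • τ)
  have hG : ∀ τ : ℍ, (G τ : ℂ) = M * τ + t := by
    intro τ
    rw [hG1, coe_heckeDiagMatrix_smul hN, hM, ht, hk, ← hgD]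
    push_cast
    field_simp
  set ζ : ℂ := Complex.exp (2 * π * Complex.I * t) with hζ
  have hζD : ζ ^ D = 1 := by
    rw [hζ, ← Complex.exp_nat_mul]
    have e : (D : ℂ) * (2 * π * Complex.I * t) = (B : ℂ) * (2 * π * Complex.I) := by
      rw [ht]
      push_cast
      field_simp
    rw [e]
    exact Complex.exp_int_mul_two_pi_mul_I B
  have hζmem : ζ ∈ OO ℓ := root_of_unity_mem_OO hD hζD
  have hζmem' : ζ⁻¹ ∈ OO ℓ := root_of_unity_mem_OO hD (by rw [inv_pow, hζD, inv_one])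
  have hplus := isLaurentOf_shiftScale isLaurentOf_discriminant M t G hG
  have hminus := isLaurentOf_shiftScale isLaurentOf_discriminant_inv M t G hG
  set Sp : LaurentSeries ℂ := qExpand ℂ M (twistL ζ (iotaC (deltaZ : LaurentSeries ℤ))) with hSp
  set Sm : LaurentSeries ℂ :=
    qExpand ℂ M (twistL ζ (iotaC ((deltaZ⁻¹ : (LaurentSeries ℤ)ˣ) : LaurentSeries ℤ))) with hSm
  set f : ℍ → ℂ := fun τ => dFun δ (γ • (heckeDiagMatrix N • τ)) /
    denom γ (heckeDiagMatrix N • τ : ℍ) ^ (12 : ℤ) with hf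
  have hden : ∀ τ : ℍ, denom γ (heckeDiagMatrix N • τ : ℍ) ^ (12 : ℤ) ≠ 0 := fun τ =>
    zpow_ne_zero _ (denom_ne_zero _ _)
  have hD12 : ((D : ℂ) ^ (12 : ℕ)) ≠ 0 := pow_ne_zero _ hDC
  have hfeq : ∀ τ, f τ = ((D : ℂ) ^ (12 : ℕ))⁻¹ * ModularForm.discriminant (G τ) := by
    intro τ
    have h2 := hG2 τ
    rw [hf]
    simp only
    rw [div_eq_iff (hden τ), inv_mul_eq_div, div_mul_eq_mul_div, eq_div_iff hD12]
    rw [mul_comm, h2, mul_comm]
  have h1 : S24B.IsLaurentOf (HahnSeries.C ((D : ℂ) ^ (12 : ℕ))⁻¹ * Sp) f := by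
    have h3 := (S24B.IsLaurentOf.const ((D : ℂ) ^ (12 : ℕ))⁻¹).mul hplus
    have e : f = (fun _ : ℍ => ((D : ℂ) ^ (12 : ℕ))⁻¹) *
        ((fun τ : ℍ => ModularForm.discriminant τ) ∘ G) := by
      funext τ
      rw [hfeq τ]
      rfl
    rw [e]
    exact h3
  have h2 : S24B.IsLaurentOf (HahnSeries.C ((D : ℂ) ^ (12 : ℕ)) * Sm) (fun τ => (f τ)⁻¹) := by
    have h3 := (S24B.IsLaurentOf.const ((D : ℂ) ^ (12 : ℕ))).mul hminus
    have e : (fun τ => (f τ)⁻¹) = (fun _ : ℍ => ((D : ℂ) ^ (12 : ℕ))) *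
        ((fun τ : ℍ => (ModularForm.discriminant τ)⁻¹) ∘ G) := by
      funext τ
      rw [hfeq τ, mul_inv, inv_inv]
      rfl
    rw [e]
    exact h3
  obtain ⟨S, hS, hSeq⟩ := isLaurentOf_zpow h1 h2 a
  -- integrality
  have hc1 : ((D : ℂ) ^ (12 : ℕ))⁻¹ ∈ OO ℓ := by
    rw [← inv_pow]
    exact (OO ℓ).pow_mem (inv_natCast_mem_OO hD.ne' hcop) 12
  have hc2 : ((D : ℂ) ^ (12 : ℕ)) ∈ OO ℓ := (OO ℓ).pow_mem (natCast_mem _ D) 12
  have hSpmem : Sp ∈ LSO (OO ℓ) :=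
    qExpand_mem_LSO M (twistL_mem_LSO hζmem hζmem' (iotaC_mem_LSO _ _))
  have hSmmem : Sm ∈ LSO (OO ℓ) :=
    qExpand_mem_LSO M (twistL_mem_LSO hζmem hζmem' (iotaC_mem_LSO _ _))
  -- orders
  have hSpord : OrdGE (HahnSeries.C ((D : ℂ) ^ (12 : ℕ))⁻¹ * Sp) (M : ℤ) := by
    have h3 := (OrdGE.C ((D : ℂ) ^ (12 : ℕ))⁻¹).mul ((ordGE_iotaC_deltaZ.twistL ζ).qExpand M)
    exact h3.congr (by ring)
  have hSmord : OrdGE (HahnSeries.C ((D : ℂ) ^ (12 : ℕ)) * Sm) (-(M : ℤ)) := by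
    have h3 := (OrdGE.C ((D : ℂ) ^ (12 : ℕ))).mul ((ordGE_iotaC_deltaZ_inv.twistL ζ).qExpand M)
    exact h3.congr (by ring)
  have htarget : a * ((N / δ : ℕ) : ℤ) * ((g : ℕ) : ℤ) ^ 2 = a * (M : ℤ) := by
    rw [hNδ, hM]
    push_cast
    ring
  refine ⟨S, ?_, hS, ?_⟩
  · rw [hSeq]
    split_ifs
    · exact Subring.pow_mem _ (Subring.mul_mem _ (C_mem_LSO hc1) hSpmem) _
    · exact Subring.pow_mem _ (Subring.mul_mem _ (C_mem_LSO hc2) hSmmem) _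
  · rw [htarget, hSeq]
    by_cases ha : 0 ≤ a
    · rw [if_pos ha]
      refine (hSpord.pow a.toNat).congr ?_
      rw [Int.toNat_of_nonneg ha]
    · rw [if_neg ha]
      refine (hSmord.pow (-a).toNat).congr ?_
      rw [Int.toNat_of_nonneg (by omega)]
      ring

/-- Expansion of the translates of the unit at level `N` (variable `τ' = τ / N`), with a lower
bound for the order. -/
theorem exists_conj_expansion_ord (N ℓ : ℕ) [NeZero N] [Fact ℓ.Prime] (hℓ : ¬ ℓ ∣ N) (r : ℕ → ℤ)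
    (hr : ∑ δ ∈ N.divisors, r δ = 0) (γ : SL(2, ℤ)) :
    ∃ S : LaurentSeries ℂ, S ∈ LSO (OO ℓ) ∧
      S24B.IsLaurentOf S (fun τ : ℍ => unitFun N r (γ • (heckeDiagMatrix N • τ))) ∧
      ∀ k : ℤ, k < ∑ δ ∈ N.divisors,
          r δ * ((N / δ : ℕ) : ℤ) * ((Int.gcd (δ : ℤ) (γ 1 0) : ℕ) : ℤ) ^ 2 → S.coeff k = 0 := by
  have h : ∀ δ ∈ N.divisors, ∃ S : LaurentSeries ℂ, S ∈ LSO (OO ℓ) ∧
      S24B.IsLaurentOf S (fun τ : ℍ => (dFun δ (γ • (heckeDiagMatrix N • τ)) /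
        denom γ (heckeDiagMatrix N • τ : ℍ) ^ (12 : ℤ)) ^ r δ) ∧
      OrdGE S (r δ * ((N / δ : ℕ) : ℤ) * ((Int.gcd (δ : ℤ) (γ 1 0) : ℕ) : ℤ) ^ 2) :=
    fun δ hδ => exists_factor_expansion N ℓ hℓ δ (Nat.dvd_of_mem_divisors hδ) γ (r δ)
  choose! S hS1 hS2 hS3 using h
  refine ⟨∏ δ ∈ N.divisors, S δ, Subring.prod_mem _ hS1, ?_, OrdGE.prod _ _ _ hS3⟩
  have h2 := isLaurentOf_finset_prod N.divisors S _ hS2
  have e : (fun τ : ℍ => ∏ δ ∈ N.divisors, (dFun δ (γ • (heckeDiagMatrix N • τ)) /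
      denom γ (heckeDiagMatrix N • τ : ℍ) ^ (12 : ℤ)) ^ r δ) =
      fun τ : ℍ => unitFun N r (γ • (heckeDiagMatrix N • τ)) := by
    funext τ
    unfold unitFun
    simp only [div_zpow]
    rw [Finset.prod_div_distrib,
      S28A.zpow_finset_sum _ _ (zpow_ne_zero _ (denom_ne_zero _ _)), hr, zpow_zero, div_one]
  rw [e] at h2
  exact h2

/-- Expansion of the translates of the unit at level `N` (variable `τ' = τ / N`). -/
theorem exists_conj_expansion (N ℓ : ℕ) [NeZero N] [Fact ℓ.Prime] (hℓ : ¬ ℓ ∣ N) (r : ℕ → ℤ)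
    (hr : ∑ δ ∈ N.divisors, r δ = 0) (γ : SL(2, ℤ)) :
    ∃ S : LaurentSeries ℂ, S ∈ LSO (OO ℓ) ∧
      S24B.IsLaurentOf S (fun τ : ℍ => unitFun N r (γ • (heckeDiagMatrix N • τ))) := by
  obtain ⟨S, hS1, hS2, -⟩ := exists_conj_expansion_ord N ℓ hℓ r hr γ
  exact ⟨S, hS1, hS2⟩

end

end Fermat.Agent.S28
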