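import Mathlib
import Fermat.Agent.S28.ConjExp

/-!
# S28, leaf C3: the coefficients of the characteristic polynomial of the unit lie in `OO ℓ`
-/

set_option autoImplicit false

noncomputable section

namespace Fermat.Agent.S28

open UpperHalfPlane hiding I
open ModularForm Function ModularCurve Polynomial
open Fermat.Agent Fermat.Agent.S24B Fermat.Agent.S24
open scoped Real MatrixGroups

/-- The coefficients of `∏ (X - S x)` are the Laurent expansions of the coefficients of
`∏ (X - F x τ)`, and lie in `LSO A` if the `S x` do. -/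
theorem isLaurentOf_coeff_prod_X_sub_C {ι : Type*} (A : Subring ℂ) (t : Finset ι)
    {S : ι → LaurentSeries ℂ} {F : ι → ℍ → ℂ} (hS : ∀ x ∈ t, S x ∈ LSO A)
    (h : ∀ x ∈ t, IsLaurentOf (S x) (F x)) (i : ℕ) :
    (∏ x ∈ t, (X - C (S x))).coeff i ∈ LSO A ∧
      IsLaurentOf ((∏ x ∈ t, (X - C (S x))).coeff i)
        (fun τ => (∏ x ∈ t, (X - C (F x τ))).coeff i) := by
  classical
  induction t using Finset.induction_on generalizing i with
  | empty =>
    simp only [Finset.prod_empty, Polynomial.coeff_one]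
    split_ifs
    · exact ⟨(LSO A).one_mem, IsLaurentOf.one⟩
    · exact ⟨(LSO A).zero_mem, IsLaurentOf.zero⟩
  | insert a t ha ih =>
    have hSa := hS a (Finset.mem_insert_self a t)
    have hLa := h a (Finset.mem_insert_self a t)
    have ih' := ih (fun x hx => hS x (Finset.mem_insert_of_mem hx))
      (fun x hx => h x (Finset.mem_insert_of_mem hx))
    have e1 : ∀ (R : Type) [CommRing R] (s : R) (P : R[X]),
        ((X - C s) * P).coeff i = (if i = 0 then 0 else P.coeff (i - 1)) - s * P.coeff i := by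
      intro R _ s P
      rw [sub_mul, Polynomial.coeff_sub, Polynomial.coeff_C_mul]
      congr 1
      rcases i with _ | k
      · simp
      · simp [Polynomial.coeff_X_mul]
    rw [Finset.prod_insert ha, e1]
    have e2 : (fun τ => (∏ x ∈ insert a t, (X - C (F x τ))).coeff i) =
        (fun τ => if i = 0 then 0 else (∏ x ∈ t, (X - C (F x τ))).coeff (i - 1)) -
          F a * fun τ => (∏ x ∈ t, (X - C (F x τ))).coeff i := by
      funext τ
      rw [Finset.prod_insert ha, e1]
      rfl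
    rw [e2]
    by_cases hi : i = 0
    · simp only [hi, if_true]
      refine ⟨(LSO A).sub_mem (LSO A).zero_mem ((LSO A).mul_mem hSa (ih' 0).1), ?_⟩
      exact IsLaurentOf.zero.sub (hLa.mul (ih' 0).2)
    · simp only [hi, if_false]
      refine ⟨(LSO A).sub_mem (ih' (i - 1)).1 ((LSO A).mul_mem hSa (ih' i).1), ?_⟩
      exact (ih' (i - 1)).2.sub (hLa.mul (ih' i).2)

/-- **C3.** The coefficients of the characteristic polynomial of the unit lie in `OO ℓ`. -/
theorem coeff_mem_OO_of_charpoly (N ℓ : ℕ) [NeZero N] [Fact ℓ.Prime] (hℓ : ¬ ℓ ∣ N)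
    (r : ℕ → ℤ) (hr : ∑ δ ∈ N.divisors, r δ = 0) (χ : Polynomial (Polynomial ℂ))
    (hχ : ∀ τ : ℍ, χ.map (Polynomial.evalRingHom (S24.jA τ)) =
      ∏ x : ES.X N, (Polynomial.X - Polynomial.C (S24.conjF x (unitFun N r) τ))) :
    ∀ i j, (χ.coeff i).coeff j ∈ OO ℓ := by
  intro i j
  have H : ∀ x : ES.X N, ∃ S : LaurentSeries ℂ, S ∈ LSO (OO ℓ) ∧
      IsLaurentOf S (fun τ : ℍ => unitFun N r ((S24.rep x)⁻¹ • (heckeDiagMatrix N • τ))) :=
    fun x => exists_conj_expansion N ℓ hℓ r hr (S24.rep x)⁻¹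
  choose S hS hL using H
  have h1 := isLaurentOf_coeff_prod_X_sub_C (OO ℓ) Finset.univ (S := S)
    (F := fun x τ => unitFun N r ((S24.rep x)⁻¹ • (heckeDiagMatrix N • τ)))
    (fun x _ => hS x) (fun x _ => hL x) i
  have hj : IsLaurentOf (jqModC ℂ) S24.jA := isLaurentOf_jFun
  have hjN : IsLaurentOf (qExpand ℂ N (jqModC ℂ)) (S24.jA ∘ fun τ => heckeDiagMatrix N • τ) :=
    hj.scale (fun τ => coe_heckeDiagMatrix_smul (NeZero.ne N) τ)
  have h2 := hjN.polynomial (χ.coeff i)
  have e : (fun τ => (χ.coeff i).eval ((S24.jA ∘ fun τ => heckeDiagMatrix N • τ) τ)) =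
      fun τ => (∏ x : ES.X N,
        (X - C (unitFun N r ((S24.rep x)⁻¹ • (heckeDiagMatrix N • τ))))).coeff i := by
    funext τ
    have h3 := congrArg (fun p => p.coeff i) (hχ (heckeDiagMatrix N • τ))
    simp only [Polynomial.coeff_map, Polynomial.coe_evalRingHom] at h3
    exact h3
  rw [e] at h2
  have h3 := h2.unique_left h1.2
  have h4 : (χ.coeff i).eval₂ HahnSeries.C (qExpand ℂ N (jqModC ℂ)) ∈ LSO (OO ℓ) := by
    rw [h3]
    exact h1.1
  exact coeff_mem_of_eval₂_mem_LSO N (χ.coeff i) h4 j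

end Fermat.Agent.S28
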