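import Mathlib
import Fermat.Prelude.Def_ModularCurve_LaurentCoeff
import Fermat.Prelude.Def_ModularCurve_X0
import Fermat.Prelude.Def_ModularCurve_JqCoeff
import Fermat.Prelude.Thm_ModularCurve_coeffMap_qExpand

set_option autoImplicit false

/-!
# Project S28, module [Gauss]: the `ℓ`-adic Gauss valuation ring inside `ℚ((q))`

`gaussRing ℓ` is the subring of `ℚ((q))` of all `x` with `x * b = a` for integral Laurent series
`a, b` with `b ≢ 0 mod ℓ`; `gaussRed ℓ` is the reduction map to `𝔽_ℓ((q))`.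
-/

namespace Fermat.Agent.S28

open ModularCurve Polynomial

noncomputable section

/-- Integral Laurent series inside rational ones. -/
def iotaQ : LaurentSeries ℤ →+* LaurentSeries ℚ := coeffMap (Int.castRingHom ℚ)

theorem iotaQ_coeff (a : LaurentSeries ℤ) (k : ℤ) : (iotaQ a).coeff k = (a.coeff k : ℚ) := rfl

theorem iotaQ_injective : Function.Injective iotaQ := by
  intro a b h
  ext k
  have := congrArg (fun s : LaurentSeries ℚ => s.coeff k) h
  simpa [iotaQ_coeff] using this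

theorem iotaQ_eq_zero {a : LaurentSeries ℤ} : iotaQ a = 0 ↔ a = 0 := by
  rw [← map_zero iotaQ]
  exact iotaQ_injective.eq_iff

theorem iotaQ_C (c : ℤ) : iotaQ (HahnSeries.C c) = HahnSeries.C (c : ℚ) := by
  change coeffMap _ (HahnSeries.single 0 c) = HahnSeries.single 0 (c : ℚ)
  rw [coeffMap_single]
  rfl

variable (ℓ : ℕ) [Fact ℓ.Prime]

/-- Reduction mod `ℓ` of integral Laurent series. -/
def redL : LaurentSeries ℤ →+* LaurentSeries (ZMod ℓ) := coeffMap (Int.castRingHom (ZMod ℓ))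

theorem redL_coeff (a : LaurentSeries ℤ) (k : ℤ) : (redL ℓ a).coeff k = (a.coeff k : ZMod ℓ) := rfl

theorem redL_C (c : ℤ) : redL ℓ (HahnSeries.C c) = HahnSeries.C (c : ZMod ℓ) := by
  change coeffMap _ (HahnSeries.single 0 c) = HahnSeries.single 0 (c : ZMod ℓ)
  rw [coeffMap_single]
  rfl

theorem redL_C_self : redL ℓ (HahnSeries.C (ℓ : ℤ)) = 0 := by
  rw [redL_C]
  simp

/-- An integral Laurent series which vanishes mod `ℓ` is divisible by `ℓ`. -/
theorem exists_eq_C_mul_of_redL_eq_zero {a : LaurentSeries ℤ} (h : redL ℓ a = 0) :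
    ∃ a' : LaurentSeries ℤ, a = HahnSeries.C (ℓ : ℤ) * a' := by
  have hdvd : ∀ k, (ℓ : ℤ) ∣ a.coeff k := by
    intro k
    have := congrArg (fun s : LaurentSeries (ZMod ℓ) => s.coeff k) h
    simp only [redL_coeff, HahnSeries.coeff_zero] at this
    exact (ZMod.intCast_zmod_eq_zero_iff_dvd _ _).mp this
  refine ⟨a.map (⟨fun c : ℤ => c / ℓ, by simp⟩ : ZeroHom ℤ ℤ), ?_⟩
  ext k
  rw [HahnSeries.C_mul_eq_smul, HahnSeries.coeff_smul, HahnSeries.map_coeff]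
  simp only [ZeroHom.coe_mk, smul_eq_mul]
  rw [Int.mul_ediv_cancel' (hdvd k)]

/-- Primitive part of a nonzero integral Laurent series. -/
theorem exists_primitive {a : LaurentSeries ℤ} (ha : a ≠ 0) :
    ∃ (m : ℕ) (a' : LaurentSeries ℤ), a = HahnSeries.C ((ℓ : ℤ) ^ m) * a' ∧ redL ℓ a' ≠ 0 := by
  have hℓ : 2 ≤ ℓ := (Fact.out : ℓ.Prime).two_le
  obtain ⟨k, hk⟩ : ∃ k, a.coeff k ≠ 0 := by
    by_contra hcon
    push Not at hcon
    exact ha (HahnSeries.ext (funext hcon))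
  suffices H : ∀ n : ℕ, ∀ a : LaurentSeries ℤ, (a.coeff k).natAbs = n → a.coeff k ≠ 0 →
      ∃ (m : ℕ) (a' : LaurentSeries ℤ), a = HahnSeries.C ((ℓ : ℤ) ^ m) * a' ∧ redL ℓ a' ≠ 0 from
    H _ a rfl hk
  intro n
  induction n using Nat.strong_induction_on with
  | _ n ih =>
    intro a hn hk
    by_cases hr : redL ℓ a = 0
    · obtain ⟨a', rfl⟩ := exists_eq_C_mul_of_redL_eq_zero ℓ hr
      have hc : (HahnSeries.C (ℓ : ℤ) * a').coeff k = (ℓ : ℤ) * a'.coeff k := by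
        rw [HahnSeries.C_mul_eq_smul, HahnSeries.coeff_smul, smul_eq_mul]
      rw [hc] at hn hk
      have hk' : a'.coeff k ≠ 0 := fun h0 => hk (by rw [h0, mul_zero])
      have hlt : (a'.coeff k).natAbs < n := by
        rw [← hn, Int.natAbs_mul, Int.natAbs_natCast]
        have : 0 < (a'.coeff k).natAbs := Int.natAbs_pos.mpr hk'
        nlinarith
      obtain ⟨m, a'', h1, h2⟩ := ih _ hlt a' rfl hk'
      refine ⟨m + 1, a'', ?_, h2⟩
      rw [h1, ← mul_assoc, ← map_mul, pow_succ']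
    · exact ⟨0, a, by simp, hr⟩

/-- The Gauss valuation ring. -/
def gaussRing : Subring (LaurentSeries ℚ) where
  carrier := {x | ∃ a b : LaurentSeries ℤ, redL ℓ b ≠ 0 ∧ x * iotaQ b = iotaQ a}
  mul_mem' := by
    rintro x y ⟨a, b, hb, h⟩ ⟨a', b', hb', h'⟩
    refine ⟨a * a', b * b', ?_, ?_⟩
    · rw [map_mul]; exact mul_ne_zero hb hb'
    · rw [map_mul, map_mul, ← h, ← h']; ring
  one_mem' := ⟨1, 1, by simp, by simp⟩
  add_mem' := by
    rintro x y ⟨a, b, hb, h⟩ ⟨a', b', hb', h'⟩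
    refine ⟨a * b' + a' * b, b * b', ?_, ?_⟩
    · rw [map_mul]; exact mul_ne_zero hb hb'
    · simp only [map_mul, map_add]; rw [← h, ← h']; ring
  zero_mem' := ⟨0, 1, by simp, by simp⟩
  neg_mem' := by
    rintro x ⟨a, b, hb, h⟩
    exact ⟨-a, b, hb, by rw [map_neg, ← h]; ring⟩

theorem mem_gaussRing {x : LaurentSeries ℚ} :
    x ∈ gaussRing ℓ ↔ ∃ a b : LaurentSeries ℤ, redL ℓ b ≠ 0 ∧ x * iotaQ b = iotaQ a := Iff.rfl

theorem redL_ne_zero_imp {b : LaurentSeries ℤ} (hb : redL ℓ b ≠ 0) : iotaQ b ≠ 0 := by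
  intro h
  rw [iotaQ_eq_zero] at h
  exact hb (by rw [h, map_zero])

theorem iotaQ_mem_gaussRing (a : LaurentSeries ℤ) : iotaQ a ∈ gaussRing ℓ :=
  ⟨a, 1, by simp, by simp⟩

/-- The reduction map (as a function). -/
def gaussRedFun (x : gaussRing ℓ) : LaurentSeries (ZMod ℓ) :=
  redL ℓ (Classical.choose x.2) / redL ℓ (Classical.choose (Classical.choose_spec x.2))

theorem gaussRedFun_eq (x : gaussRing ℓ) (a b : LaurentSeries ℤ) (hb : redL ℓ b ≠ 0)
    (h : (x : LaurentSeries ℚ) * iotaQ b = iotaQ a) :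
    gaussRedFun ℓ x = redL ℓ a / redL ℓ b := by
  obtain ⟨hb₀, h₀⟩ := Classical.choose_spec (Classical.choose_spec x.2)
  set a₀ := Classical.choose x.2
  set b₀ := Classical.choose (Classical.choose_spec x.2)
  change redL ℓ a₀ / redL ℓ b₀ = _
  rw [div_eq_div_iff hb₀ hb, ← map_mul, ← map_mul]
  congr 1
  apply iotaQ_injective
  rw [map_mul, map_mul, ← h, ← h₀]
  ring

/-- The reduction map `gaussRing ℓ → 𝔽_ℓ((q))`. -/
def gaussRed : gaussRing ℓ →+* LaurentSeries (ZMod ℓ) where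
  toFun := gaussRedFun ℓ
  map_one' := by
    rw [gaussRedFun_eq ℓ 1 1 1 (by simp) (by simp)]
    simp
  map_mul' x y := by
    obtain ⟨a, b, hb, h⟩ := x.2
    obtain ⟨a', b', hb', h'⟩ := y.2
    rw [gaussRedFun_eq ℓ x a b hb h, gaussRedFun_eq ℓ y a' b' hb' h',
      gaussRedFun_eq ℓ (x * y) (a * a') (b * b') (by rw [map_mul]; exact mul_ne_zero hb hb')
        (by rw [map_mul, map_mul, ← h, ← h']; push_cast; ring)]
    rw [map_mul, map_mul, div_mul_div_comm]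
  map_zero' := by
    rw [gaussRedFun_eq ℓ 0 0 1 (by simp) (by simp)]
    simp
  map_add' x y := by
    obtain ⟨a, b, hb, h⟩ := x.2
    obtain ⟨a', b', hb', h'⟩ := y.2
    rw [gaussRedFun_eq ℓ x a b hb h, gaussRedFun_eq ℓ y a' b' hb' h',
      gaussRedFun_eq ℓ (x + y) (a * b' + a' * b) (b * b')
        (by rw [map_mul]; exact mul_ne_zero hb hb')
        (by simp only [map_mul, map_add]; rw [← h, ← h']; push_cast; ring)]
    rw [map_add, map_mul, map_mul, map_mul, div_add_div _ _ hb hb']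
    congr 1
    ring

theorem gaussRed_eq (x : gaussRing ℓ) (a b : LaurentSeries ℤ) (hb : redL ℓ b ≠ 0)
    (h : (x : LaurentSeries ℚ) * iotaQ b = iotaQ a) :
    gaussRed ℓ x = redL ℓ a / redL ℓ b :=
  gaussRedFun_eq ℓ x a b hb h

theorem gaussRed_iotaQ (a : LaurentSeries ℤ) :
    gaussRed ℓ ⟨iotaQ a, iotaQ_mem_gaussRing ℓ a⟩ = redL ℓ a := by
  rw [gaussRed_eq ℓ _ a 1 (by simp) (by simp)]
  simp

/-- The kernel of the reduction map is `ℓ • gaussRing`. -/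
theorem exists_eq_mul_of_gaussRed_eq_zero (x : gaussRing ℓ) (h : gaussRed ℓ x = 0) :
    ∃ y : gaussRing ℓ, (x : LaurentSeries ℚ) =
      (HahnSeries.C (ℓ : ℚ) : LaurentSeries ℚ) * (y : LaurentSeries ℚ) := by
  obtain ⟨a, b, hb, hx⟩ := x.2
  rw [gaussRed_eq ℓ x a b hb hx, div_eq_zero_iff] at h
  have ha : redL ℓ a = 0 := h.resolve_right hb
  obtain ⟨a', rfl⟩ := exists_eq_C_mul_of_redL_eq_zero ℓ ha
  have hℓ : (HahnSeries.C (ℓ : ℚ) : LaurentSeries ℚ) ≠ 0 :=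
    HahnSeries.C_ne_zero (by exact_mod_cast (Fact.out : ℓ.Prime).ne_zero)
  have hC : iotaQ (HahnSeries.C (ℓ : ℤ)) = (HahnSeries.C (ℓ : ℚ) : LaurentSeries ℚ) := by
    rw [iotaQ_C]; norm_cast
  refine ⟨⟨(HahnSeries.C (ℓ : ℚ) : LaurentSeries ℚ)⁻¹ * (x : LaurentSeries ℚ), a', b, hb, ?_⟩, ?_⟩
  · rw [mul_assoc, hx, map_mul, hC, ← mul_assoc, inv_mul_cancel₀ hℓ, one_mul]
  · change (x : LaurentSeries ℚ) = (HahnSeries.C (ℓ : ℚ) : LaurentSeries ℚ) *
      ((HahnSeries.C (ℓ : ℚ) : LaurentSeries ℚ)⁻¹ * (x : LaurentSeries ℚ))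
    rw [← mul_assoc, mul_inv_cancel₀ hℓ, one_mul]

/-- Dichotomy: a quotient of integral Laurent series is in the Gauss ring, or a negative power of
`ℓ` times a unit of the Gauss ring. -/
theorem gauss_dichotomy (x : LaurentSeries ℚ) (a b : LaurentSeries ℤ) (hb : b ≠ 0)
    (h : x * iotaQ b = iotaQ a) :
    x ∈ gaussRing ℓ ∨ ∃ (m : ℕ) (u : gaussRing ℓ), 1 ≤ m ∧ gaussRed ℓ u ≠ 0 ∧
      (HahnSeries.C ((ℓ : ℚ) ^ m) : LaurentSeries ℚ) * x = (u : LaurentSeries ℚ) ∧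
      (u : LaurentSeries ℚ)⁻¹ ∈ gaussRing ℓ := by
  have hℓ0 : ((ℓ : ℚ)) ≠ 0 := by exact_mod_cast (Fact.out : ℓ.Prime).ne_zero
  by_cases ha : a = 0
  · left
    rw [ha, map_zero, mul_eq_zero] at h
    rcases h with h | h
    · rw [h]; exact zero_mem _
    · exact absurd (iotaQ_eq_zero.mp h) hb
  obtain ⟨s, a₁, rfl, ha₁⟩ := exists_primitive ℓ ha
  obtain ⟨t, b₁, rfl, hb₁⟩ := exists_primitive ℓ hb
  have hCs : iotaQ (HahnSeries.C ((ℓ : ℤ) ^ s)) = (HahnSeries.C ((ℓ : ℚ) ^ s) : LaurentSeries ℚ) := by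
    rw [iotaQ_C]; norm_cast
  have hCt : iotaQ (HahnSeries.C ((ℓ : ℤ) ^ t)) = (HahnSeries.C ((ℓ : ℚ) ^ t) : LaurentSeries ℚ) := by
    rw [iotaQ_C]; norm_cast
  rw [map_mul, map_mul, hCs, hCt] at h
  have hCt0 : (HahnSeries.C ((ℓ : ℚ) ^ t) : LaurentSeries ℚ) ≠ 0 :=
    HahnSeries.C_ne_zero (pow_ne_zero _ hℓ0)
  rcases le_or_gt t s with hts | hst
  · left
    refine ⟨HahnSeries.C ((ℓ : ℤ) ^ (s - t)) * a₁, b₁, hb₁, ?_⟩
    have hCst : iotaQ (HahnSeries.C ((ℓ : ℤ) ^ (s - t))) =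
        (HahnSeries.C ((ℓ : ℚ) ^ (s - t)) : LaurentSeries ℚ) := by
      rw [iotaQ_C]; norm_cast
    rw [map_mul, hCst]
    apply mul_left_cancel₀ hCt0
    rw [← mul_assoc _ _ (iotaQ a₁), ← map_mul, ← pow_add, Nat.add_sub_cancel' hts, ← h]
    ring
  · right
    have hCts0 : (HahnSeries.C ((ℓ : ℚ) ^ s) : LaurentSeries ℚ) ≠ 0 :=
      HahnSeries.C_ne_zero (pow_ne_zero _ hℓ0)
    have hu : ((HahnSeries.C ((ℓ : ℚ) ^ (t - s)) : LaurentSeries ℚ) * x) * iotaQ b₁ = iotaQ a₁ := by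
      apply mul_left_cancel₀ hCts0
      rw [← h]
      have : (HahnSeries.C ((ℓ : ℚ) ^ t) : LaurentSeries ℚ) =
          HahnSeries.C ((ℓ : ℚ) ^ s) * HahnSeries.C ((ℓ : ℚ) ^ (t - s)) := by
        rw [← map_mul, ← pow_add, Nat.add_sub_cancel' hst.le]
      rw [this]
      ring
    have hu0 : (HahnSeries.C ((ℓ : ℚ) ^ (t - s)) : LaurentSeries ℚ) * x ≠ 0 := by
      intro h0
      rw [h0, zero_mul] at hu
      exact ha₁ (by rw [iotaQ_eq_zero.mp hu.symm, map_zero])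
    have hmem : (HahnSeries.C ((ℓ : ℚ) ^ (t - s)) : LaurentSeries ℚ) * x ∈ gaussRing ℓ :=
      ⟨a₁, b₁, hb₁, hu⟩
    have hred : gaussRed ℓ ⟨_, hmem⟩ ≠ 0 := by
      rw [gaussRed_eq ℓ ⟨_, hmem⟩ a₁ b₁ hb₁ hu]
      exact div_ne_zero ha₁ hb₁
    have hinv : ((HahnSeries.C ((ℓ : ℚ) ^ (t - s)) : LaurentSeries ℚ) * x)⁻¹ ∈ gaussRing ℓ := by
      refine ⟨b₁, a₁, ha₁, ?_⟩
      rw [← hu, ← mul_assoc, inv_mul_cancel₀ hu0, one_mul]
    exact ⟨t - s, ⟨_, hmem⟩, by omega, hred, rfl, hinv⟩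

/-- The field of fractions of the integral Laurent series inside `ℚ((q))`. -/
def fracField : IntermediateField ℚ (LaurentSeries ℚ) where
  carrier := {x | ∃ a b : LaurentSeries ℤ, b ≠ 0 ∧ x * iotaQ b = iotaQ a}
  mul_mem' := by
    rintro x y ⟨a, b, hb, h⟩ ⟨a', b', hb', h'⟩
    exact ⟨a * a', b * b', mul_ne_zero hb hb', by rw [map_mul, map_mul, ← h, ← h']; ring⟩
  one_mem' := ⟨1, 1, one_ne_zero, by simp⟩
  add_mem' := by
    rintro x y ⟨a, b, hb, h⟩ ⟨a', b', hb', h'⟩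
    exact ⟨a * b' + a' * b, b * b', mul_ne_zero hb hb',
      by simp only [map_mul, map_add]; rw [← h, ← h']; ring⟩
  zero_mem' := ⟨0, 1, one_ne_zero, by simp⟩
  algebraMap_mem' := by
    intro r
    refine ⟨HahnSeries.C r.num, HahnSeries.C (r.den : ℤ), ?_, ?_⟩
    · exact HahnSeries.C_ne_zero (by exact_mod_cast r.den_ne_zero)
    · rw [iotaQ_C, iotaQ_C, ModularCurve.algebraMap_apply_eq_single]
      change HahnSeries.C r * HahnSeries.C _ = HahnSeries.C _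
      rw [← map_mul]
      congr 1
      push_cast
      exact Rat.mul_den_eq_num r
  inv_mem' := by
    rintro x ⟨a, b, hb, h⟩
    by_cases ha : a = 0
    · rw [ha, map_zero, mul_eq_zero] at h
      rcases h with h | h
      · rw [h, inv_zero]; exact ⟨0, 1, one_ne_zero, by simp⟩
      · exact absurd (iotaQ_eq_zero.mp h) hb
    · have hx : x ≠ 0 := by
        rintro rfl
        rw [zero_mul] at h
        exact ha (iotaQ_eq_zero.mp h.symm)
      refine ⟨b, a, ha, ?_⟩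
      rw [← h, ← mul_assoc, inv_mul_cancel₀ hx, one_mul]

theorem mem_fracField {x : LaurentSeries ℚ} :
    x ∈ fracField ↔ ∃ a b : LaurentSeries ℤ, b ≠ 0 ∧ x * iotaQ b = iotaQ a := Iff.rfl

theorem iotaQ_mem_fracField (a : LaurentSeries ℤ) : iotaQ a ∈ fracField :=
  ⟨a, 1, one_ne_zero, by simp⟩

/-- An element of the fraction field lies in the Gauss ring or its inverse does. -/
theorem mem_or_inv_mem_gaussRing {x : LaurentSeries ℚ} (hx : x ∈ fracField) :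
    x ∈ gaussRing ℓ ∨ x⁻¹ ∈ gaussRing ℓ := by
  obtain ⟨a, b, hb, h⟩ := hx
  rcases gauss_dichotomy ℓ x a b hb h with h1 | ⟨m, u, -, -, hu, huinv⟩
  · exact Or.inl h1
  · right
    have hℓ0 : ((ℓ : ℚ)) ≠ 0 := by exact_mod_cast (Fact.out : ℓ.Prime).ne_zero
    have hC0 : (HahnSeries.C ((ℓ : ℚ) ^ m) : LaurentSeries ℚ) ≠ 0 :=
      HahnSeries.C_ne_zero (pow_ne_zero _ hℓ0)
    have hC : (HahnSeries.C ((ℓ : ℚ) ^ m) : LaurentSeries ℚ) ∈ gaussRing ℓ := by
      have := iotaQ_mem_gaussRing ℓ (HahnSeries.C ((ℓ : ℤ) ^ m))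
      rw [iotaQ_C] at this
      exact_mod_cast this
    have : x⁻¹ = (HahnSeries.C ((ℓ : ℚ) ^ m) : LaurentSeries ℚ) * (u : LaurentSeries ℚ)⁻¹ := by
      rw [← hu, mul_inv, ← mul_assoc, mul_inv_cancel₀ hC0, one_mul]
    rw [this]
    exact mul_mem hC huinv

/-- The integral `j`-series with coefficients mapped to `ℚ` is `jq`. -/
theorem iotaQ_jqModC : iotaQ (jqModC ℤ) = jq := by
  have := map_jqModC (K := ℤ) (Int.castRingHom ℚ)
  rw [jqModC_rat] at this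
  exact this

theorem redL_jqModC : redL ℓ (jqModC ℤ) = jqModC (ZMod ℓ) :=
  map_jqModC (K := ℤ) (Int.castRingHom (ZMod ℓ))

theorem iotaQ_qExpand (d : ℕ) [NeZero d] (a : LaurentSeries ℤ) :
    iotaQ (qExpand ℤ d a) = qExpand ℚ d (iotaQ a) :=
  ModularCurve.coeffMap_qExpand _ d a

theorem redL_qExpand (d : ℕ) [NeZero d] (a : LaurentSeries ℤ) :
    redL ℓ (qExpand ℤ d a) = qExpand (ZMod ℓ) d (redL ℓ a) :=
  ModularCurve.coeffMap_qExpand _ d a

/-- The full modular function field consists of quotients of integral Laurent series. -/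
theorem modularFunctionFieldFull_le_fracField (N : ℕ) [NeZero N] :
    modularFunctionFieldFull N ≤ fracField := by
  rw [modularFunctionFieldFull, IntermediateField.adjoin_le_iff]
  rintro x ⟨d, hd, -, rfl⟩
  have : qExpand ℚ d jq = iotaQ (qExpand ℤ d (jqModC ℤ)) := by
    rw [iotaQ_qExpand, iotaQ_jqModC]
  rw [this]
  exact iotaQ_mem_fracField _

end

end Fermat.Agent.S28
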