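import Mathlib
import Fermat.Prelude.Def_ModularCurve_IgusaScheme
import Fermat.Prelude.Def_ModularCurve_ModularUnit
import Fermat.Prelude.Def_ModularForm_HeckeOperator
import Fermat.Agent.S28.Gauss

/-!
# S28: shared definitions (owner: helper2)

* `iotaC` : coefficient embedding `ℤ((q)) → ℂ((q))`;
* `OO ℓ` : the subring of `ℂ` of numbers integral over `ℤ` up to a denominator prime to `ℓ`;
* `LSO A` : Laurent series over `ℂ` with all coefficients in the subring `A`;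
* `rad`, `rN` : radical and the exponent vector of the level-`N` unit;
* `dFun`, `unitFun` : `Δ(δτ)` and the analytic unit `∏_{δ ∣ N} Δ(δτ)^{r δ}`;
* `deltaZ`, `dUnitZ`, `unitZ` : the integral `Δ`-series, `Δ(q^δ)`, and the formal unit, as
  units of `ℤ((q))`.
-/

set_option autoImplicit false

namespace Fermat.Agent.S28

open ModularCurve UpperHalfPlane ModularForm

noncomputable section

/-- Coefficient embedding `ℤ((q)) → ℂ((q))`. -/
def iotaC : LaurentSeries ℤ →+* LaurentSeries ℂ := coeffMap (Int.castRingHom ℂ)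

theorem iotaC_coeff (a : LaurentSeries ℤ) (k : ℤ) : (iotaC a).coeff k = (a.coeff k : ℂ) := rfl

/-- Complex numbers `z` such that `d * z` is an algebraic integer for some `d` prime to `ℓ`. -/
def OO (ℓ : ℕ) : Subring ℂ where
  carrier := {z | ∃ d : ℕ, d.Coprime ℓ ∧ d ≠ 0 ∧ IsIntegral ℤ ((d : ℂ) * z)}
  mul_mem' := by
    rintro a b ⟨d, hd, hd0, ha⟩ ⟨e, he, he0, hb⟩
    refine ⟨d * e, Nat.Coprime.mul_left hd he, mul_ne_zero hd0 he0, ?_⟩
    have h : ((d * e : ℕ) : ℂ) * (a * b) = ((d : ℂ) * a) * ((e : ℂ) * b) := by push_cast; ring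
    rw [h]
    exact ha.mul hb
  one_mem' := ⟨1, Nat.coprime_one_left _, one_ne_zero, by simpa using isIntegral_one⟩
  add_mem' := by
    rintro a b ⟨d, hd, hd0, ha⟩ ⟨e, he, he0, hb⟩
    refine ⟨d * e, Nat.Coprime.mul_left hd he, mul_ne_zero hd0 he0, ?_⟩
    have h : ((d * e : ℕ) : ℂ) * (a + b) = (e : ℂ) * ((d : ℂ) * a) + (d : ℂ) * ((e : ℂ) * b) := by
      push_cast; ring
    rw [h]
    have he' : IsIntegral ℤ ((e : ℂ)) := by
      simpa using (isIntegral_algebraMap (R := ℤ) (A := ℂ) (x := (e : ℤ)))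
    have hd' : IsIntegral ℤ ((d : ℂ)) := by
      simpa using (isIntegral_algebraMap (R := ℤ) (A := ℂ) (x := (d : ℤ)))
    exact (he'.mul ha).add (hd'.mul hb)
  zero_mem' := ⟨1, Nat.coprime_one_left _, one_ne_zero, by simpa using isIntegral_zero⟩
  neg_mem' := by
    rintro a ⟨d, hd, hd0, ha⟩
    refine ⟨d, hd, hd0, ?_⟩
    rw [mul_neg]
    exact ha.neg

theorem mem_OO {ℓ : ℕ} {z : ℂ} :
    z ∈ OO ℓ ↔ ∃ d : ℕ, d.Coprime ℓ ∧ d ≠ 0 ∧ IsIntegral ℤ ((d : ℂ) * z) := Iff.rfl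

/-- Laurent series over `ℂ` all of whose coefficients lie in the subring `A`. -/
def LSO (A : Subring ℂ) : Subring (LaurentSeries ℂ) where
  carrier := {s | ∀ n : ℤ, s.coeff n ∈ A}
  mul_mem' := by
    intro a b ha hb n
    rw [HahnSeries.coeff_mul]
    exact Subring.sum_mem _ fun p _ => A.mul_mem (ha _) (hb _)
  one_mem' := by
    intro n
    rw [HahnSeries.coeff_one]
    split_ifs
    · exact A.one_mem
    · exact A.zero_mem
  add_mem' := by
    intro a b ha hb n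
    rw [HahnSeries.coeff_add]
    exact A.add_mem (ha n) (hb n)
  zero_mem' := by
    intro n
    rw [HahnSeries.coeff_zero]
    exact A.zero_mem
  neg_mem' := by
    intro a ha n
    rw [HahnSeries.coeff_neg]
    exact A.neg_mem (ha n)

theorem mem_LSO {A : Subring ℂ} {s : LaurentSeries ℂ} : s ∈ LSO A ↔ ∀ n : ℤ, s.coeff n ∈ A :=
  Iff.rfl

/-- The twist `s(q) ↦ s(ζ q)`: the coefficient of `q^n` is multiplied by `ζ ^ n`. -/
def twistL (ζ : ℂ) (s : LaurentSeries ℂ) : LaurentSeries ℂ where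
  coeff n := ζ ^ n * s.coeff n
  isPWO_support' := s.isPWO_support.mono fun n hn => by
    simp only [Function.mem_support] at hn ⊢
    exact right_ne_zero_of_mul hn

theorem twistL_coeff (ζ : ℂ) (s : LaurentSeries ℂ) (n : ℤ) :
    (twistL ζ s).coeff n = ζ ^ n * s.coeff n := rfl

/-- The radical of `N`. -/
def rad (N : ℕ) : ℕ := ∏ p ∈ N.primeFactors, p

/-- The exponent vector of the level-`N` unit
`x_N = Δ(τ)^{φ(rad N)} / ∏_{m ∣ rad N} Δ((N/m)τ)^{μ(m) · rad N / m}`. -/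
def rN (N : ℕ) (δ : ℕ) : ℤ :=
  (if δ = 1 then ((rad N).totient : ℤ) else 0) -
    ∑ m ∈ (rad N).divisors,
      if δ = N / m then ArithmeticFunction.moebius m * ((rad N / m : ℕ) : ℤ) else 0

/-- `τ ↦ Δ(δ τ)`. -/
def dFun (δ : ℕ) (τ : ℍ) : ℂ := ModularForm.discriminant (heckeDiagMatrix δ • τ)

/-- The analytic unit `∏_{δ ∣ N} Δ(δτ)^{r δ}`. -/
def unitFun (N : ℕ) (r : ℕ → ℤ) (τ : ℍ) : ℂ := ∏ δ ∈ N.divisors, dFun δ τ ^ r δ

/-- The integral `Δ`-series `q ∏ (1 - q^n)^24` as a unit of `ℤ((q))`. -/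
def deltaZ : (LaurentSeries ℤ)ˣ where
  val := HahnSeries.single (1 : ℤ) 1 * HahnSeries.ofPowerSeries ℤ ℤ dedekindEtaUnit
  inv := HahnSeries.single (-1 : ℤ) 1 * HahnSeries.ofPowerSeries ℤ ℤ dedekindEtaUnitInv
  val_inv := by
    rw [mul_mul_mul_comm, HahnSeries.single_mul_single, ← map_mul, dedekindEtaUnit_mul_inv]
    simp
  inv_val := by
    rw [mul_mul_mul_comm, HahnSeries.single_mul_single, ← map_mul, mul_comm dedekindEtaUnitInv,
      dedekindEtaUnit_mul_inv]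
    simp

theorem coe_deltaZ : (deltaZ : LaurentSeries ℤ) =
    HahnSeries.single (1 : ℤ) 1 * HahnSeries.ofPowerSeries ℤ ℤ dedekindEtaUnit := rfl

/-- `Δ(q^δ)` as a unit of `ℤ((q))` (junk value `1` for `δ = 0`). -/
def dUnitZ (δ : ℕ) : (LaurentSeries ℤ)ˣ :=
  if h : δ = 0 then 1 else
    haveI : NeZero δ := ⟨h⟩
    Units.map (qExpand ℤ δ).toMonoidHom deltaZ

theorem coe_dUnitZ (δ : ℕ) [NeZero δ] :
    (dUnitZ δ : LaurentSeries ℤ) = qExpand ℤ δ (deltaZ : LaurentSeries ℤ) := by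
  rw [dUnitZ, dif_neg (NeZero.ne δ)]
  rfl

/-- The formal unit `∏_{δ ∣ N} Δ(q^δ)^{r δ}` as a unit of `ℤ((q))`. -/
def unitZ (N : ℕ) (r : ℕ → ℤ) : (LaurentSeries ℤ)ˣ := ∏ δ ∈ N.divisors, dUnitZ δ ^ r δ

end

end Fermat.Agent.S28
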