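import Fermat.Agent.S28.Defs

/-!
# S28: arithmetic of the exponent vector `rN N` (owner: helper2)

* `sum_rN` : the weight is zero;
* `sum_rN_gcd` : the order of the unit at a cusp `c` with `N ∤ c` (in the variable `q_N`) is
  `N · φ(rad N)`;
* `sum_rN_mul` : the order at `∞` is negative for `N ≥ 2`.
-/

set_option autoImplicit false

namespace Fermat.Agent.S28

open ArithmeticFunction

theorem rad_ne_zero (N : ℕ) : rad N ≠ 0 :=
  Finset.prod_ne_zero_iff.mpr fun _ hp => (Nat.prime_of_mem_primeFactors hp).ne_zero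

theorem rad_dvd (N : ℕ) : rad N ∣ N := Nat.prod_primeFactors_dvd N

/-- Splitting the divisors of `p * M` for a prime `p ∤ M`. -/
theorem sum_divisors_prime_mul {p M : ℕ} (hp : p.Prime) (hpM : ¬ p ∣ M) (hM : M ≠ 0)
    (F : ℕ → ℤ) :
    ∑ m ∈ (p * M).divisors, F m = ∑ m ∈ M.divisors, (F m + F (p * m)) := by
  classical
  rw [Finset.sum_add_distrib]
  have h1 : (p * M).divisors = M.divisors ∪ M.divisors.image (p * ·) := by
    ext m
    simp only [Nat.mem_divisors, Finset.mem_union, Finset.mem_image]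
    constructor
    · rintro ⟨hm, -⟩
      by_cases hpm : p ∣ m
      · obtain ⟨m', rfl⟩ := hpm
        right
        exact ⟨m', ⟨Nat.dvd_of_mul_dvd_mul_left hp.pos hm, hM⟩, rfl⟩
      · left
        have hc : Nat.Coprime m p := ((Nat.Prime.coprime_iff_not_dvd hp).mpr hpm).symm
        exact ⟨hc.dvd_of_dvd_mul_left hm, hM⟩
    · rintro (⟨hm, -⟩ | ⟨m', ⟨hm', -⟩, rfl⟩)
      · exact ⟨Dvd.dvd.mul_left hm p, mul_ne_zero hp.ne_zero hM⟩
      · exact ⟨Nat.mul_dvd_mul_left p hm', mul_ne_zero hp.ne_zero hM⟩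
  have h2 : Disjoint M.divisors (M.divisors.image (p * ·)) := by
    rw [Finset.disjoint_left]
    rintro m hm hm'
    simp only [Finset.mem_image, Nat.mem_divisors] at hm hm'
    obtain ⟨m', -, rfl⟩ := hm'
    exact hpM ((dvd_mul_right p m').trans hm.1)
  rw [h1, Finset.sum_union h2, Finset.sum_image]
  intro a _ b _ h
  exact Nat.eq_of_mul_eq_mul_left hp.pos h

/-- The Möbius pairing `m ↔ p m`. -/
theorem sum_moebius_prime_mul {p M : ℕ} (hp : p.Prime) (hpM : ¬ p ∣ M) (hM : M ≠ 0)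
    (f : ℕ → ℤ) :
    ∑ m ∈ (p * M).divisors, moebius m * f m =
      ∑ m ∈ M.divisors, moebius m * (f m - f (p * m)) := by
  rw [sum_divisors_prime_mul hp hpM hM]
  refine Finset.sum_congr rfl fun m hm => ?_
  have hm' : m ∣ M := (Nat.mem_divisors.mp hm).1
  have hc : Nat.Coprime p m :=
    (Nat.Prime.coprime_iff_not_dvd hp).mpr fun h => hpM (h.trans hm')
  rw [isMultiplicative_moebius.map_mul_of_coprime hc, moebius_apply_prime hp]
  ring

/-- The radical of `N` as `p * M` with `p ∤ M`, for a prime `p ∣ N`. -/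
theorem rad_eq_prime_mul {N p : ℕ} (hN : N ≠ 0) (hp : p.Prime) (hpN : p ∣ N) :
    ∃ M : ℕ, rad N = p * M ∧ ¬ p ∣ M ∧ M ≠ 0 := by
  classical
  have hmem : p ∈ N.primeFactors := Nat.mem_primeFactors.mpr ⟨hp, hpN, hN⟩
  refine ⟨∏ q ∈ N.primeFactors.erase p, q, ?_, ?_, ?_⟩
  · rw [rad, Finset.mul_prod_erase N.primeFactors (fun q => q) hmem]
  · intro h
    rw [(Nat.Prime.prime hp).dvd_finsetProd_iff] at h
    obtain ⟨q, hq, hpq⟩ := h
    have hq' := Finset.mem_erase.mp hq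
    have hqp : Nat.Prime q := Nat.prime_of_mem_primeFactors hq'.2
    exact hq'.1 ((Nat.prime_dvd_prime_iff_eq hp hqp).mp hpq).symm
  · exact Finset.prod_ne_zero_iff.mpr fun q hq =>
      (Nat.prime_of_mem_primeFactors (Finset.mem_erase.mp hq).2).ne_zero

/-- Sums against the exponent vector. -/
theorem sum_rN_mul_fun (N : ℕ) (hN : N ≠ 0) (g : ℕ → ℤ) :
    ∑ δ ∈ N.divisors, rN N δ * g δ =
      ((rad N).totient : ℤ) * g 1 -
        ∑ m ∈ (rad N).divisors, moebius m * ((rad N / m : ℕ) : ℤ) * g (N / m) := by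
  classical
  simp only [rN, sub_mul, Finset.sum_sub_distrib, ite_mul, zero_mul, Finset.sum_mul]
  congr 1
  · rw [Finset.sum_ite_eq' N.divisors 1 (fun δ => ((rad N).totient : ℤ) * g δ),
      if_pos (Nat.one_mem_divisors.mpr hN)]
  · rw [Finset.sum_comm]
    refine Finset.sum_congr rfl fun m hm => ?_
    have hm' : m ∣ N := (Nat.mem_divisors.mp hm).1.trans (rad_dvd N)
    have hmem : N / m ∈ N.divisors := Nat.mem_divisors.mpr ⟨Nat.div_dvd_of_dvd hm', hN⟩
    rw [Finset.sum_ite_eq' N.divisors (N / m)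
      (fun δ => moebius m * ((rad N / m : ℕ) : ℤ) * g δ), if_pos hmem]

/-- Power sums over the divisors of a product of distinct primes. -/
theorem sum_moebius_pow (k : ℕ) (s : Finset ℕ) (hs : ∀ p ∈ s, p.Prime) :
    ∑ m ∈ (∏ p ∈ s, p).divisors, moebius m * (((∏ p ∈ s, p) / m : ℕ) : ℤ) ^ k =
      ∏ p ∈ s, ((p : ℤ) ^ k - 1) := by
  classical
  induction s using Finset.induction_on with
  | empty => simp
  | insert p s hps ih =>
    have hp : p.Prime := hs p (Finset.mem_insert_self p s)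
    have hs' : ∀ q ∈ s, q.Prime := fun q hq => hs q (Finset.mem_insert_of_mem hq)
    have hM : (∏ q ∈ s, q) ≠ 0 := Finset.prod_ne_zero_iff.mpr fun q hq => (hs' q hq).ne_zero
    have hpM : ¬ p ∣ ∏ q ∈ s, q := by
      intro h
      rw [(Nat.Prime.prime hp).dvd_finsetProd_iff] at h
      obtain ⟨q, hq, hpq⟩ := h
      exact hps (((Nat.prime_dvd_prime_iff_eq hp (hs' q hq)).mp hpq) ▸ hq)
    rw [Finset.prod_insert hps, Finset.prod_insert hps, sum_moebius_prime_mul hp hpM hM,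
      ← ih hs', Finset.mul_sum]
    refine Finset.sum_congr rfl fun m hm => ?_
    have hm' : m ∣ ∏ q ∈ s, q := (Nat.mem_divisors.mp hm).1
    have hm0 : 0 < m := Nat.pos_of_mem_divisors hm
    rw [Nat.mul_div_assoc p hm', Nat.mul_div_mul_left _ _ hp.pos]
    push_cast
    ring

theorem totient_prod_primes (s : Finset ℕ) (hs : ∀ p ∈ s, p.Prime) :
    (((∏ p ∈ s, p).totient : ℕ) : ℤ) = ∏ p ∈ s, ((p : ℤ) - 1) := by
  classical
  induction s using Finset.induction_on with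
  | empty => simp
  | insert p s hps ih =>
    have hp : p.Prime := hs p (Finset.mem_insert_self p s)
    have hs' : ∀ q ∈ s, q.Prime := fun q hq => hs q (Finset.mem_insert_of_mem hq)
    have hpM : ¬ p ∣ ∏ q ∈ s, q := by
      intro h
      rw [(Nat.Prime.prime hp).dvd_finsetProd_iff] at h
      obtain ⟨q, hq, hpq⟩ := h
      exact hps (((Nat.prime_dvd_prime_iff_eq hp (hs' q hq)).mp hpq) ▸ hq)
    rw [Finset.prod_insert hps, Finset.prod_insert hps,
      Nat.totient_mul ((Nat.Prime.coprime_iff_not_dvd hp).mpr hpM), Nat.totient_prime hp,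
      Nat.cast_mul, ih hs', Nat.cast_sub hp.one_le]
    simp

theorem sum_moebius_rad (N : ℕ) :
    ∑ m ∈ (rad N).divisors, moebius m * ((rad N / m : ℕ) : ℤ) = ((rad N).totient : ℤ) := by
  have h := sum_moebius_pow 1 N.primeFactors fun p hp => Nat.prime_of_mem_primeFactors hp
  simp only [pow_one] at h
  rw [rad, h, totient_prod_primes _ fun p hp => Nat.prime_of_mem_primeFactors hp]

/-- **Weight zero.** -/
theorem sum_rN (N : ℕ) (hN : N ≠ 0) : ∑ δ ∈ N.divisors, rN N δ = 0 := by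
  have h := sum_rN_mul_fun N hN (fun _ => 1)
  simp only [mul_one] at h
  rw [h, sum_moebius_rad, sub_self]

theorem gcd_prime_pow_pred {p k c : ℕ} (hp : p.Prime) (hk : 1 ≤ k) (hc : ¬ p ^ k ∣ c) :
    Nat.gcd c (p ^ k) = Nat.gcd c (p ^ (k - 1)) := by
  apply Nat.dvd_antisymm
  · obtain ⟨i, hi, hgi⟩ := (Nat.dvd_prime_pow hp).mp (Nat.gcd_dvd_right c (p ^ k))
    have hik : i ≠ k := by
      rintro rfl
      exact hc (hgi ▸ Nat.gcd_dvd_left c (p ^ i))
    refine Nat.dvd_gcd (Nat.gcd_dvd_left _ _) ?_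
    rw [hgi]
    exact pow_dvd_pow p (by omega)
  · exact Nat.gcd_dvd_gcd_of_dvd_right c (pow_dvd_pow p (Nat.sub_le k 1))

/-- The key cancellation: for `N ∤ c` the `gcd`-sum over the divisors of the radical vanishes. -/
theorem sum_moebius_gcd (N : ℕ) (hN : N ≠ 0) (c : ℕ) (hc : ¬ N ∣ c) :
    ∑ m ∈ (rad N).divisors, moebius m * ((Nat.gcd (N / m) c : ℕ) : ℤ) ^ 2 = 0 := by
  -- choose a prime `p` with `p ^ k ∥ N` and `p ^ k ∤ c`
  obtain ⟨p, j, hp, hjN, hjc⟩ : ∃ p j : ℕ, p.Prime ∧ p ^ j ∣ N ∧ ¬ p ^ j ∣ c := by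
    by_contra h
    push Not at h
    exact hc ((Nat.dvd_iff_prime_pow_dvd_dvd c N).mpr fun p k hp hk => h p k hp hk)
  obtain ⟨k, N', hpN', hNk⟩ := Nat.exists_eq_pow_mul_and_not_dvd hN p hp.ne_one
  have hcop : Nat.Coprime (p ^ j) N' := Nat.Coprime.pow_left j ((Nat.Prime.coprime_iff_not_dvd hp).mpr hpN')
  have hjk : j ≤ k := by
    have h1 : p ^ j ∣ p ^ k := hcop.dvd_of_dvd_mul_right (hNk ▸ hjN)
    exact (Nat.pow_dvd_pow_iff_le_right hp.one_lt).mp h1
  have hkc : ¬ p ^ k ∣ c := fun h => hjc ((pow_dvd_pow p hjk).trans h)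
  have hk1 : 1 ≤ k := by
    rcases Nat.eq_zero_or_pos k with rfl | h
    · simp at hkc
    · exact h
  have hpN : p ∣ N := by
    rw [hNk]
    exact Dvd.dvd.mul_right (dvd_pow_self p (by omega)) N'
  obtain ⟨M, hRM, hpM, hM⟩ := rad_eq_prime_mul hN hp hpN
  rw [hRM, sum_moebius_prime_mul hp hpM hM]
  refine Finset.sum_eq_zero fun m hm => ?_
  have hmM : m ∣ M := (Nat.mem_divisors.mp hm).1
  have hm0 : 0 < m := Nat.pos_of_mem_divisors hm
  have hpm : ¬ p ∣ m := fun h => hpM (h.trans hmM)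
  have hmN : m ∣ N := (hmM.trans (Dvd.intro_left p rfl)).trans (hRM ▸ rad_dvd N)
  have hmN' : m ∣ N' := by
    have hc' : Nat.Coprime m (p ^ k) :=
      (Nat.Coprime.pow_left k ((Nat.Prime.coprime_iff_not_dvd hp).mpr hpm)).symm
    exact hc'.dvd_of_dvd_mul_left (hNk ▸ hmN)
  obtain ⟨a, ha⟩ := hmN'
  have hpa : ¬ p ∣ a := fun h => hpN' (ha ▸ Dvd.dvd.mul_left h m)
  have e1 : N / m = p ^ k * a := by
    rw [hNk, ha]
    exact Nat.div_eq_of_eq_mul_right hm0 (by ring)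
  have e2 : N / (p * m) = p ^ (k - 1) * a := by
    rw [hNk, ha]
    refine Nat.div_eq_of_eq_mul_right (Nat.mul_pos hp.pos hm0) ?_
    obtain ⟨k', rfl⟩ : ∃ k', k = k' + 1 := ⟨k - 1, by omega⟩
    rw [Nat.add_sub_cancel, pow_succ]
    ring
  have hca : ∀ i : ℕ, Nat.Coprime (p ^ i) a := fun i =>
    Nat.Coprime.pow_left i ((Nat.Prime.coprime_iff_not_dvd hp).mpr hpa)
  have e3 : Nat.gcd (N / m) c = Nat.gcd (N / (p * m)) c := by
    rw [e1, e2, Nat.gcd_comm, Nat.Coprime.gcd_mul c (hca k), Nat.gcd_comm (p ^ (k - 1) * a),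
      Nat.Coprime.gcd_mul c (hca (k - 1)), gcd_prime_pow_pred hp hk1 hkc]
  rw [e3, sub_self, mul_zero]

/-- **Order at the other cusps** (natural-number form). -/
theorem sum_rN_gcd_nat (N : ℕ) (hN : N ≠ 0) (c : ℕ) (hc : ¬ N ∣ c) :
    ∑ δ ∈ N.divisors, rN N δ * ((N / δ : ℕ) : ℤ) * ((Nat.gcd δ c : ℕ) : ℤ) ^ 2
      = (N : ℤ) * ((rad N).totient : ℤ) := by
  have h := sum_rN_mul_fun N hN (fun δ => ((N / δ : ℕ) : ℤ) * ((Nat.gcd δ c : ℕ) : ℤ) ^ 2)
  simp only [← mul_assoc] at h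
  rw [h]
  have h2 : ∑ m ∈ (rad N).divisors, moebius m * ((rad N / m : ℕ) : ℤ) * ((N / (N / m) : ℕ) : ℤ) *
      ((Nat.gcd (N / m) c : ℕ) : ℤ) ^ 2 =
      (rad N : ℤ) * ∑ m ∈ (rad N).divisors, moebius m * ((Nat.gcd (N / m) c : ℕ) : ℤ) ^ 2 := by
    rw [Finset.mul_sum]
    refine Finset.sum_congr rfl fun m hm => ?_
    have hmR : m ∣ rad N := (Nat.mem_divisors.mp hm).1
    have hmN : m ∣ N := hmR.trans (rad_dvd N)
    have e1 : N / (N / m) = m := Nat.div_div_self hmN hN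
    have e2 : ((rad N / m : ℕ) : ℤ) * (m : ℤ) = (rad N : ℤ) := by
      rw [← Nat.cast_mul, Nat.div_mul_cancel hmR]
    rw [e1, ← e2]
    ring
  rw [h2, sum_moebius_gcd N hN c hc]
  simp [mul_comm]

/-- **Order at the other cusps.** -/
theorem sum_rN_gcd (N : ℕ) (hN : N ≠ 0) (c : ℤ) (hc : ¬ (N : ℤ) ∣ c) :
    ∑ δ ∈ N.divisors, rN N δ * ((N / δ : ℕ) : ℤ) * ((Int.gcd (δ : ℤ) c : ℕ) : ℤ) ^ 2
      = (N : ℤ) * ((rad N).totient : ℤ) := by
  have hc' : ¬ N ∣ c.natAbs := fun h => hc (Int.natCast_dvd.mpr h)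
  rw [← sum_rN_gcd_nat N hN c.natAbs hc']
  rfl

/-- **Order at `∞`.** -/
theorem sum_rN_mul (N : ℕ) (hN : 2 ≤ N) : ∑ δ ∈ N.divisors, rN N δ * (δ : ℤ) ≤ -1 := by
  classical
  have hN0 : N ≠ 0 := by omega
  have h := sum_rN_mul_fun N hN0 (fun δ => (δ : ℤ))
  rw [h]
  obtain ⟨Q, hQ⟩ := rad_dvd N
  have hQ1 : 1 ≤ Q := by
    rcases Nat.eq_zero_or_pos Q with rfl | h
    · simp at hQ; omega
    · exact h
  have hprime : ∀ p ∈ N.primeFactors, p.Prime := fun p hp => Nat.prime_of_mem_primeFactors hp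
  have h2 : ∑ m ∈ (rad N).divisors, moebius m * ((rad N / m : ℕ) : ℤ) * ((N / m : ℕ) : ℤ) =
      (Q : ℤ) * ∏ p ∈ N.primeFactors, ((p : ℤ) ^ 2 - 1) := by
    rw [← sum_moebius_pow 2 N.primeFactors hprime, Finset.mul_sum]
    refine Finset.sum_congr rfl fun m hm => ?_
    have hmR : m ∣ rad N := (Nat.mem_divisors.mp hm).1
    have e1 : N / m = rad N / m * Q := by
      conv_lhs => rw [hQ]
      exact Nat.mul_div_right_comm hmR Q |>.symm ▸ rfl
    have hr : rad N = ∏ p ∈ N.primeFactors, p := rfl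
    rw [e1, Nat.cast_mul, hr]
    ring
  rw [h2, rad, totient_prod_primes _ hprime]
  simp only [Nat.cast_one, mul_one]
  obtain ⟨p₀, hp₀⟩ := Nat.nonempty_primeFactors.mpr (by omega : 1 < N)
  have hA : (1 : ℤ) ≤ ∏ p ∈ N.primeFactors, ((p : ℤ) - 1) := by
    have : (0 : ℤ) < ∏ p ∈ N.primeFactors, ((p : ℤ) - 1) :=
      Finset.prod_pos fun p hp => by
        have := (hprime p hp).two_le
        have : (2 : ℤ) ≤ p := by exact_mod_cast this
        linarith
    linarith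
  have hB : (3 : ℤ) ≤ ∏ p ∈ N.primeFactors, ((p : ℤ) + 1) := by
    rw [← Finset.mul_prod_erase N.primeFactors (fun p => (p : ℤ) + 1) hp₀]
    have h1 : (3 : ℤ) ≤ (p₀ : ℤ) + 1 := by
      have := (hprime p₀ hp₀).two_le
      have : (2 : ℤ) ≤ p₀ := by exact_mod_cast this
      linarith
    have h3 : (1 : ℤ) ≤ ∏ p ∈ N.primeFactors.erase p₀, ((p : ℤ) + 1) := by
      have : (0 : ℤ) < ∏ p ∈ N.primeFactors.erase p₀, ((p : ℤ) + 1) :=
        Finset.prod_pos fun p _ => by positivity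
      linarith
    nlinarith
  have hAB : ∏ p ∈ N.primeFactors, ((p : ℤ) ^ 2 - 1) =
      (∏ p ∈ N.primeFactors, ((p : ℤ) - 1)) * ∏ p ∈ N.primeFactors, ((p : ℤ) + 1) := by
    rw [← Finset.prod_mul_distrib]
    refine Finset.prod_congr rfl fun p _ => by ring
  rw [hAB]
  have hQ' : (1 : ℤ) ≤ Q := by exact_mod_cast hQ1
  nlinarith [mul_le_mul hQ' (le_refl (∏ p ∈ N.primeFactors, ((p : ℤ) - 1))) (by linarith) (by linarith)]

end Fermat.Agent.S28
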