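import Mathlib
import Fermat.Agent.S24.DegBound
import Fermat.Prelude.Def_ModularCurve_IgusaScheme

/-!
# S28: `[ℚ(j(q^d) : d ∣ N) : ℚ(j)] ≤ [SL(2,ℤ) : Γ₀(N)]` over `ℚ`
-/

set_option autoImplicit false

namespace Fermat.Agent.S28A

open ModularCurve Polynomial IntermediateField UpperHalfPlane
open Fermat.Agent.S24

noncomputable section

/-- The `ℚ`-algebra generated by the `j(q^d)`, `d ∣ N`. -/
def RQ (N : ℕ) : Subalgebra ℚ (LaurentSeries ℚ) := Algebra.adjoin ℚ (divisorExpansions N)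

theorem RQ_le (N : ℕ) : RQ N ≤ (modularFunctionFieldFull N).toSubalgebra :=
  Algebra.adjoin_le (IntermediateField.subset_adjoin ℚ _)

theorem jd_mem_RQ {N d : ℕ} [NeZero d] (hd : d ∣ N) : qExpand ℚ d jq ∈ RQ N :=
  Algebra.subset_adjoin (mem_divisorExpansions N hd)

theorem jq_mem_RQ (N : ℕ) : jq ∈ RQ N := by
  have h := jd_mem_RQ (one_dvd N)
  rwa [qExpand_one_apply] at h

theorem coeffEmb_mem_RN (N : ℕ) {r : LaurentSeries ℚ} (hr : r ∈ RQ N) :
    coeffEmb (AlgebraicClosure ℚ) r ∈ RN N := by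
  induction hr using Algebra.adjoin_induction with
  | mem x hx =>
    obtain ⟨d, hd, hdN, rfl⟩ := hx
    exact Jd_mem_RN hdN
  | algebraMap c =>
    have h : coeffEmb (AlgebraicClosure ℚ) (algebraMap ℚ (LaurentSeries ℚ) c) =
        algebraMap (AlgebraicClosure ℚ) (LaurentSeries (AlgebraicClosure ℚ))
          (algebraMap ℚ (AlgebraicClosure ℚ) c) := by
      rw [algebraMap_laurentSeries_eq_single, algebraMap_laurentSeries_eq_single, coeffEmb,
        coeffMap_single]
    rw [h]
    exact Subalgebra.algebraMap_mem _ _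
  | add x y _ _ hx hy => rw [map_add]; exact add_mem hx hy
  | mul x y _ _ hx hy => rw [map_mul]; exact mul_mem hx hy

/-- The embedding `ℚ → ℂ` through `ℚ̄`. -/
def phiQ : ℚ →+* ℂ := iotaK.comp (algebraMap ℚ (AlgebraicClosure ℚ))

/-- Every element of `ℚ[j(q^d)]` satisfies a nontrivial relation over `ℚ[j]` of degree at most
`|X N|`. -/
theorem dq_relation (N : ℕ) [NeZero N] (r : LaurentSeries ℚ) (hr : r ∈ RQ N) :
    ∃ Q : ℚ[X][X], Q ≠ 0 ∧ Q.natDegree ≤ Fintype.card (ES.X N) ∧
      Q.eval₂ (Polynomial.eval₂RingHom HahnSeries.C jq) r = 0 := by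
  set r' : RN N := ⟨coeffEmb (AlgebraicClosure ℚ) r, coeffEmb_mem_RN N hr⟩ with hr'
  obtain ⟨P, hP1, hP2, hP3⟩ := (db_modFun N r').exists_monic_relation
  have h := (((db_isLaurentOf_jA N).bivariate (ev_isLaurentOf N r') P).eq_zero_iff).mpr
    (funext hP3)
  have e1 : coeffMap iotaK (Jd 1) = coeffMap phiQ jq := by
    rw [Jd, qExpand_one_apply, coeffEmb, coeffMap_coeffMap]
    rfl
  have e2 : coeffMap iotaK ((r' : RN N) : LaurentSeries (AlgebraicClosure ℚ)) =
      coeffMap phiQ r := by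
    rw [hr']
    show coeffMap iotaK (coeffEmb (AlgebraicClosure ℚ) r) = _
    rw [coeffEmb, coeffMap_coeffMap]
    rfl
  rw [e1, e2] at h
  obtain ⟨Q, hQ0, hQd, hQ⟩ := ld_bivariate phiQ jq r P hP1.ne_zero h
  exact ⟨Q, hQ0, hQd.trans hP2.le, hQ⟩

/-- The inclusion of the function field into Laurent series, as a ring hom. -/
def incF (N : ℕ) : modularFunctionFieldFull N →+* LaurentSeries ℚ :=
  algebraMap (modularFunctionFieldFull N) (LaurentSeries ℚ)

@[simp] theorem incF_apply (N : ℕ) (f : modularFunctionFieldFull N) :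
    incF N f = (f : LaurentSeries ℚ) := rfl

theorem incF_comp_algebraMap (N : ℕ) (g : ℚ →+* modularFunctionFieldFull N) :
    (incF N).comp g = algebraMap ℚ (LaurentSeries ℚ) := Subsingleton.elim _ _

open IgusaScheme in
theorem dq_comp_val (N : ℕ) [NeZero N] :
    (incF N).comp
      ((Polynomial.aeval (jFull N) : ℚ[X] →ₐ[ℚ] _) : ℚ[X] →+* modularFunctionFieldFull N)
      = Polynomial.eval₂RingHom HahnSeries.C jq := by
  refine Polynomial.ringHom_ext (fun c => ?_) ?_
  · simp only [RingHom.comp_apply, RingHom.coe_coe, Polynomial.aeval_C,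
      Polynomial.coe_eval₂RingHom, Polynomial.eval₂_C]
    have h := RingHom.congr_fun (incF_comp_algebraMap N
      (algebraMap ℚ (modularFunctionFieldFull N))) c
    rw [RingHom.comp_apply] at h
    rw [h, algebraMap_laurentSeries_eq_single]
    rfl
  · simp only [RingHom.comp_apply, RingHom.coe_coe, Polynomial.aeval_X,
      Polynomial.coe_eval₂RingHom, Polynomial.eval₂_X]
    rfl

open IgusaScheme in
theorem transcendental_jFull (N : ℕ) [NeZero N] : Transcendental ℚ (jFull N) := by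
  rintro ⟨p, hp, hp0⟩
  have h1 := congrArg (incF N) hp0
  rw [map_zero] at h1
  have h2 : incF N (Polynomial.aeval (jFull N) p) =
      (Polynomial.eval₂RingHom HahnSeries.C jq) p := by
    rw [← dq_comp_val N]
    rfl
  rw [h2] at h1
  have h3 : Polynomial.aeval (jqModC ℚ) p = 0 := by
    rw [jqModC_rat, Polynomial.aeval_def]
    have e : (algebraMap ℚ (LaurentSeries ℚ)) = HahnSeries.C := by
      refine RingHom.ext fun c => ?_
      rw [algebraMap_laurentSeries_eq_single]
      rfl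
    rw [e]
    exact h1
  exact aeval_jqModC_ne_zero hp h3

/-- The image of `RQ N` in the function field. -/
def dqR (N : ℕ) [NeZero N] : Subalgebra ℚ (modularFunctionFieldFull N) where
  carrier := {f | (f : LaurentSeries ℚ) ∈ RQ N}
  mul_mem' := fun ha hb => (RQ N).mul_mem ha hb
  add_mem' := fun ha hb => (RQ N).add_mem ha hb
  algebraMap_mem' := fun c => by
    have h := RingHom.congr_fun (incF_comp_algebraMap N
      (algebraMap ℚ (modularFunctionFieldFull N))) c
    rw [RingHom.comp_apply] at h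
    show incF N (algebraMap ℚ (modularFunctionFieldFull N) c) ∈ RQ N
    rw [h]
    exact Subalgebra.algebraMap_mem _ c

theorem mem_dqR (N : ℕ) [NeZero N] (f : modularFunctionFieldFull N) :
    f ∈ dqR N ↔ (f : LaurentSeries ℚ) ∈ RQ N := Iff.rfl

open IgusaScheme in
theorem dq_exists_poly (N : ℕ) [NeZero N] (f : modularFunctionFieldFull N) (hf : f ∈ dqR N) :
    ∃ p : Polynomial ℚ⟮jFull N⟯, p ≠ 0 ∧ p.natDegree ≤ Fintype.card (ES.X N) ∧
      Polynomial.aeval f p = 0 := by
  obtain ⟨Q, hQ0, hQd, hQ⟩ := dq_relation N f hf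
  have h : Q.eval₂ ((Polynomial.aeval (jFull N) : ℚ[X] →ₐ[ℚ] _) :
      ℚ[X] →+* modularFunctionFieldFull N) f = 0 := by
    apply Subtype.ext
    have h1 := Polynomial.hom_eval₂ Q
      ((Polynomial.aeval (jFull N) : ℚ[X] →ₐ[ℚ] _) : ℚ[X] →+* modularFunctionFieldFull N)
      (incF N) f
    rw [dq_comp_val] at h1
    exact h1.trans hQ
  obtain ⟨p, hp0, hpd, hp⟩ := db_poly_of_bivariate (jFull N) (transcendental_jFull N) f Q hQ0 h
  exact ⟨p, hp0, hpd.trans hQd, hp⟩

open IgusaScheme in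
/-- **Degree bound over `ℚ`.** -/
theorem finrank_full_le (N : ℕ) [NeZero N] :
    FiniteDimensional ℚ⟮jFull N⟯ (modularFunctionFieldFull N) ∧
      Module.finrank ℚ⟮jFull N⟯ (modularFunctionFieldFull N) ≤ Fintype.card (ES.X N) := by
  refine deg_le_of_forall_algebraic (jFull N) (dqR N) (jq_mem_RQ N) ?_ _
    (Fintype.card_pos_iff.mpr ⟨ES.x0 N⟩) (dq_exists_poly N)
  rw [eq_top_iff]
  intro f _
  have hf : (f : LaurentSeries ℚ) ∈ IntermediateField.adjoin ℚ (divisorExpansions N) := f.2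
  rw [IntermediateField.mem_adjoin_iff_div] at hf
  obtain ⟨r, hr, s, hs, hfrs⟩ := hf
  have hrF : r ∈ modularFunctionFieldFull N := RQ_le N hr
  have hsF : s ∈ modularFunctionFieldFull N := RQ_le N hs
  have e : f = (⟨r, hrF⟩ : modularFunctionFieldFull N) / ⟨s, hsF⟩ := by
    apply Subtype.ext
    rw [hfrs]
    rfl
  rw [e]
  have hr' : (⟨r, hrF⟩ : modularFunctionFieldFull N) ∈ dqR N := hr
  have hs' : (⟨s, hsF⟩ : modularFunctionFieldFull N) ∈ dqR N := hs
  exact div_mem (IntermediateField.subset_adjoin _ _ hr') (IntermediateField.subset_adjoin _ _ hs')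

end

end Fermat.Agent.S28A
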