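import Fermat.Agent.S28.Interface
import Fermat.Agent.S28.Arith
import Fermat.Agent.S28.DegQ
import Fermat.Agent.S28.CoeffOO

/-!
# S28: assembly of `UnitData` (owner: helper2)

`nonempty_unitData`: for `N ≥ 2` prime to `ℓ`, the level-`N` unit `unitFun N (rN N)` and its
characteristic polynomial give a `UnitData N ℓ`.
-/

set_option autoImplicit false

namespace Fermat.Agent.S28

open ModularCurve ModularCurve.IgusaScheme Polynomial UpperHalfPlane ModularForm
open Fermat.Agent IntermediateField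
open scoped MatrixGroups Real

noncomputable section

theorem isLaurentOf_jA : S24B.IsLaurentOf (jqModC ℂ) S24.jA := S24B.isLaurentOf_jFun

theorem coeffMap_phiQ_iotaQ (s : LaurentSeries ℤ) : coeffMap S28A.phiQ (iotaQ s) = iotaC s := by
  rw [iotaQ, iotaC, coeffMap_coeffMap]
  exact coeffMap_congr (RingHom.ext_int _ _) s

/-- Positivity of the cusp exponents (real form, as consumed by the analytic shape lemma). -/
theorem cusp_exponent_pos (N : ℕ) (hN : N ≠ 0) (c : ℤ) (hc : ¬ (N : ℤ) ∣ c) :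
    0 < ∑ δ ∈ N.divisors, (rN N δ : ℝ) * ((Int.gcd (δ : ℤ) c : ℕ) : ℝ) ^ 2 / δ := by
  have h := sum_rN_gcd N hN c hc
  have hNR : (N : ℝ) ≠ 0 := by exact_mod_cast hN
  have h2 : ∑ δ ∈ N.divisors, (rN N δ : ℝ) * ((Int.gcd (δ : ℤ) c : ℕ) : ℝ) ^ 2 / δ
      = ((rad N).totient : ℝ) := by
    have h' : (N : ℝ) * ∑ δ ∈ N.divisors, (rN N δ : ℝ) * ((Int.gcd (δ : ℤ) c : ℕ) : ℝ) ^ 2 / δ
        = (N : ℝ) * ((rad N).totient : ℝ) := by
      rw [Finset.mul_sum]
      have h3 := congrArg (fun z : ℤ => (z : ℝ)) h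
      simp only [Int.cast_sum, Int.cast_mul, Int.cast_pow, Int.cast_natCast] at h3
      rw [← h3]
      refine Finset.sum_congr rfl fun δ hδ => ?_
      have hδN : δ ∣ N := Nat.dvd_of_mem_divisors hδ
      have hδ0 : (δ : ℝ) ≠ 0 := by exact_mod_cast (Nat.pos_of_mem_divisors hδ).ne'
      rw [Nat.cast_div hδN hδ0]
      field_simp
    exact mul_left_cancel₀ hNR h'
  rw [h2]
  exact_mod_cast Nat.totient_pos.mpr (Nat.pos_of_ne_zero (rad_ne_zero N))

/-- The pole order of the unit at `∞`. -/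
theorem exists_pole_order (N : ℕ) (hN : 2 ≤ N) :
    ∃ n : ℕ, 1 ≤ n ∧ ∑ δ ∈ N.divisors, (δ : ℤ) * rN N δ = -(n : ℤ) := by
  have h := sum_rN_mul N hN
  have e : ∑ δ ∈ N.divisors, (δ : ℤ) * rN N δ = ∑ δ ∈ N.divisors, rN N δ * (δ : ℤ) :=
    Finset.sum_congr rfl fun δ _ => mul_comm _ _
  refine ⟨(-(∑ δ ∈ N.divisors, rN N δ * (δ : ℤ))).toNat, ?_, ?_⟩
  · omega
  · rw [e, Int.toNat_of_nonneg (by omega)]
    ring

theorem nonempty_unitData (N ℓ : ℕ) [NeZero N] [Fact ℓ.Prime] (hN : 2 ≤ N) (hℓ : ¬ ℓ ∣ N) :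
    Nonempty (UnitData N ℓ) := by
  classical
  have hN0 : N ≠ 0 := NeZero.ne N
  have hr : ∑ δ ∈ N.divisors, rN N δ = 0 := sum_rN N hN0
  have hr' : ∑ δ ∈ N.divisors, (fun δ => -rN N δ) δ = 0 := by
    rw [Finset.sum_neg_distrib, hr, neg_zero]
  obtain ⟨n, hn, hpole⟩ := exists_pole_order N hN
  obtain ⟨χ, hmonic, hdeg, hprod, hroot, htop, hlead, hlow, c, hc, hconst⟩ :=
    S28A.exists_charpoly_shape_unitFun N (rN N) hr n hn hpole (cusp_exponent_pos N hN0)
  -- the inverse unit: its charpoly has `ℓ`-integral coefficients, whence `c⁻¹ ∈ OO ℓ`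
  obtain ⟨χ', -, -, hprod'⟩ :=
    (S28A.modFun_unitFun N (fun δ => -rN N δ) hr').exists_charpoly_conjF
  have hcoeff' := coeff_mem_OO_of_charpoly N ℓ hℓ (fun δ => -rN N δ) hr' χ' hprod'
  have hc' : χ'.coeff 0 = Polynomial.C c⁻¹ := by
    apply S28A.poly_eq_of_eval_jA
    intro τ
    have h1 : (χ'.coeff 0).eval (S24.jA τ) =
        (χ'.map (Polynomial.evalRingHom (S24.jA τ))).coeff 0 := by
      rw [Polynomial.coeff_map, Polynomial.coe_evalRingHom]
    have h2 : (χ.coeff 0).eval (S24.jA τ) =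
        (χ.map (Polynomial.evalRingHom (S24.jA τ))).coeff 0 := by
      rw [Polynomial.coeff_map, Polynomial.coe_evalRingHom]
    rw [hprod' τ, S28A.coeff_zero_prod_X_sub_C] at h1
    rw [hprod τ, S28A.coeff_zero_prod_X_sub_C, hconst, Polynomial.eval_C] at h2
    have h3 : ∀ x : ES.X N, S24.conjF x (S28A.unitFun N fun δ => -rN N δ) τ =
        (S24.conjF x (S28A.unitFun N (rN N)) τ)⁻¹ := fun x => by
      rw [S24.conjF_apply, S24.conjF_apply, S28A.unitFun_neg]
    rw [Polynomial.eval_C, h1, h2]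
    simp only [h3, Finset.prod_inv_distrib]
    rw [mul_inv, ← inv_pow]
    norm_num
  refine ⟨{
    xZ := (unitZ N (rN N) : LaurentSeries ℤ)
    mem := ?_
    P := χ
    monic := hmonic
    root := ?_
    finrank_le := ?_
    coeff_mem := coeff_mem_OO_of_charpoly N ℓ hℓ (rN N) hr χ hprod
    m := n
    hm := hn
    hdeg := ?_
    top := by rw [hdeg]; exact htop
    top_coeff := ?_
    low := ?_
    c := c
    const := hconst
    hc := hc
    c_inv := ?_ }⟩
  · refine mem_full_of_modFun N _ (unitFun N (rN N)) ?_ (S28A.modFun_unitFun N (rN N) hr)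
    rw [coeffMap_phiQ_iotaQ]
    exact isLaurentOf_unitFun N (rN N)
  · exact ((isLaurentOf_jA.bivariate (isLaurentOf_unitFun N (rN N)) χ).eq_zero_iff).mpr
      (funext hroot)
  · obtain ⟨h1, h2⟩ := S28A.finrank_full_le N
    exact ⟨h1, hdeg ▸ h2⟩
  · rw [hdeg]
    exact Fintype.card_pos_iff.mpr ⟨ES.x0 N⟩
  · rw [hdeg, ← htop]
    exact hlead
  · intro i hi
    rw [hdeg] at hi
    have hcard : 0 < Fintype.card (ES.X N) := Fintype.card_pos_iff.mpr ⟨ES.x0 N⟩
    rcases Nat.lt_trichotomy (i + 1) (Fintype.card (ES.X N)) with h | h | h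
    · exact hlow i h
    · exact absurd (by omega) hi
    · rcases Nat.eq_or_lt_of_le (Nat.lt_succ_iff.mp h) with h' | h'
      · have : χ.coeff i = 1 := by
          have := hmonic.coeff_natDegree
          rwa [hdeg, h'] at this
        rw [this, Polynomial.natDegree_one]
        omega
      · rw [Polynomial.coeff_eq_zero_of_natDegree_lt (by rw [hdeg]; exact h'),
          Polynomial.natDegree_zero]
        omega
  · have h := hcoeff' 0 0
    rwa [hc', Polynomial.coeff_C_zero] at h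

end

end Fermat.Agent.S28
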