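import Fermat.Agent.S28.Defs

/-!
# S28: the two interface structures (owner: helper2; FROZEN)

* `ModInput N ℓ n` : what the algebra core (helper5) consumes;
* `UnitData N ℓ` : what the modular side produces (charpoly of the unit with its shape), consumed
  by the descent (`nonempty_modInput_of_unitData`).
-/

set_option autoImplicit false

namespace Fermat.Agent.S28

open ModularCurve ModularCurve.IgusaScheme Polynomial IntermediateField

noncomputable section

/-- The modular input of the algebra core: `n` integral `q`-expansions in the function field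
whose reductions mod `ℓ` are linearly independent over `𝔽_ℓ[j]`, with `[F : ℚ(j)] ≤ n`. -/
structure ModInput (N ℓ : ℕ) [NeZero N] [Fact ℓ.Prime] (n : ℕ) where
  t : Fin n → LaurentSeries ℤ
  mem : ∀ i, iotaQ (t i) ∈ modularFunctionFieldFull N
  finrank_le : FiniteDimensional ℚ⟮jFull N⟯ (modularFunctionFieldFull N) ∧
    Module.finrank ℚ⟮jFull N⟯ (modularFunctionFieldFull N) ≤ n
  indep : ∀ a : Fin n → (ZMod ℓ)[X],
    ∑ i, Polynomial.eval₂ HahnSeries.C (jqModC (ZMod ℓ)) (a i) * redL ℓ (t i) = 0 → ∀ i, a i = 0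

/-- The modular input in "charpoly" form: an integral `q`-expansion `xZ` in the function field
and a monic `P ∈ ℂ[T][X]` with `P(j, x) = 0`, coefficients in `OO ℓ`, of degree `≥ [F : ℚ(j)]`,
with the Eisenstein-at-`∞` shape and unit constant term. -/
structure UnitData (N ℓ : ℕ) [NeZero N] [Fact ℓ.Prime] where
  xZ : LaurentSeries ℤ
  mem : iotaQ xZ ∈ modularFunctionFieldFull N
  P : ℂ[X][X]
  monic : P.Monic
  root : P.eval₂ (Polynomial.eval₂RingHom HahnSeries.C (jqModC ℂ)) (iotaC xZ) = 0
  finrank_le : FiniteDimensional ℚ⟮jFull N⟯ (modularFunctionFieldFull N) ∧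
    Module.finrank ℚ⟮jFull N⟯ (modularFunctionFieldFull N) ≤ P.natDegree
  coeff_mem : ∀ i j, (P.coeff i).coeff j ∈ OO ℓ
  m : ℕ
  hm : 1 ≤ m
  hdeg : 1 ≤ P.natDegree
  top : (P.coeff (P.natDegree - 1)).natDegree = m
  top_coeff : (P.coeff (P.natDegree - 1)).coeff m = -1
  low : ∀ i, i ≠ P.natDegree - 1 → (P.coeff i).natDegree < m
  c : ℂ
  const : P.coeff 0 = Polynomial.C c
  hc : c ≠ 0
  c_inv : c⁻¹ ∈ OO ℓ

end

end Fermat.Agent.S28
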