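import Mathlib
import Fermat.Prelude.Def_ModularCurve_IgusaScheme
import Fermat.Agent.S28.Gauss

set_option autoImplicit false

/-!
# Project S28, module [Principle]: the `q`-expansion principle

For `T = j` or `T = j⁻¹`: if `θ₁, …, θ_n` have integral `q`-expansions, span the function field
over `ℚ(T)` and have reductions mod `ℓ` which are linearly independent over `𝔽_ℓ[T̄]`, then the
kernel of the reduction map on the integral closure of `ℤ_(ℓ)[T]` is generated by `ℓ`.
-/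

namespace Fermat.Agent.S28

open ModularCurve ModularCurve.IgusaScheme Polynomial IntermediateField

noncomputable section

variable (N : ℕ) [NeZero N] (ℓ : ℕ) [Fact ℓ.Prime]

/-- The Gauss valuation subring of the modular function field. -/
def gaussVal : ValuationSubring ↥(modularFunctionFieldFull N) where
  carrier := {x | (x : LaurentSeries ℚ) ∈ gaussRing ℓ}
  mul_mem' := fun {a b} ha hb => by
    change ((a * b : ↥(modularFunctionFieldFull N)) : LaurentSeries ℚ) ∈ gaussRing ℓ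
    push_cast
    exact mul_mem ha hb
  one_mem' := by
    change ((1 : ↥(modularFunctionFieldFull N)) : LaurentSeries ℚ) ∈ gaussRing ℓ
    push_cast
    exact one_mem _
  add_mem' := fun {a b} ha hb => by
    change ((a + b : ↥(modularFunctionFieldFull N)) : LaurentSeries ℚ) ∈ gaussRing ℓ
    push_cast
    exact add_mem ha hb
  zero_mem' := by
    change ((0 : ↥(modularFunctionFieldFull N)) : LaurentSeries ℚ) ∈ gaussRing ℓ
    push_cast
    exact zero_mem _
  neg_mem' := fun {a} ha => by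
    change ((-a : ↥(modularFunctionFieldFull N)) : LaurentSeries ℚ) ∈ gaussRing ℓ
    push_cast
    exact neg_mem ha
  mem_or_inv_mem' := fun x => by
    have h := mem_or_inv_mem_gaussRing ℓ (modularFunctionFieldFull_le_fracField N x.2)
    rcases h with h | h
    · exact Or.inl h
    · right
      change ((x⁻¹ : ↥(modularFunctionFieldFull N)) : LaurentSeries ℚ) ∈ gaussRing ℓ
      push_cast
      exact h

theorem mem_gaussVal {x : ↥(modularFunctionFieldFull N)} :
    x ∈ gaussVal N ℓ ↔ (x : LaurentSeries ℚ) ∈ gaussRing ℓ := Iff.rfl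

omit [NeZero N] [Fact ℓ.Prime] in
theorem coe_algebraMap_ratLoc (r : ↥(GaloisRep.ratLocalizedAt ℓ)) :
    ((algebraMap ↥(GaloisRep.ratLocalizedAt ℓ) ↥(modularFunctionFieldFull N) r :
      ↥(modularFunctionFieldFull N)) : LaurentSeries ℚ) = HahnSeries.C (r : ℚ) := by
  rw [RingHom.algebraMap_toAlgebra, RingHom.comp_apply]
  simp only [eq_ratCast, SubfieldClass.coe_ratCast]
  rw [show (algebraMap ↥(GaloisRep.ratLocalizedAt ℓ) ℚ r) = (r : ℚ) from rfl,
    ← eq_ratCast (algebraMap ℚ (LaurentSeries ℚ)) (r : ℚ), ModularCurve.algebraMap_apply_eq_single]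

/-- The image of `ℤ_(ℓ)` lies in the Gauss ring. -/
theorem algebraMap_mem_gaussVal (r : ↥(GaloisRep.ratLocalizedAt ℓ)) :
    algebraMap ↥(GaloisRep.ratLocalizedAt ℓ) ↥(modularFunctionFieldFull N) r ∈ gaussVal N ℓ := by
  rw [mem_gaussVal, coe_algebraMap_ratLoc]
  have hcop : (r : ℚ).den.Coprime ℓ := r.2
  refine ⟨HahnSeries.C (r : ℚ).num, HahnSeries.C ((r : ℚ).den : ℤ), ?_, ?_⟩
  · rw [redL_C]
    apply HahnSeries.C_ne_zero
    intro h0
    have h2 : ((((r : ℚ).den : ℕ) : ℤ) : ZMod ℓ) = (((r : ℚ).den : ℕ) : ZMod ℓ) := by push_cast; rfl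
    rw [h2, ZMod.natCast_eq_zero_iff] at h0
    have := Nat.Coprime.eq_one_of_dvd hcop.symm h0
    exact (Fact.out : ℓ.Prime).one_lt.ne' this
  · rw [iotaQ_C, iotaQ_C, ← map_mul]
    congr 1
    push_cast
    exact Rat.mul_den_eq_num (r : ℚ)

/-- Chart algebras generated by elements of the Gauss ring lie in the Gauss ring. -/
theorem chartAlg_le_gaussVal (S : Set ↥(modularFunctionFieldFull N))
    (hS : ∀ s ∈ S, s ∈ gaussVal N ℓ) {x : ↥(modularFunctionFieldFull N)}
    (hx : x ∈ chartAlg N ℓ S) : x ∈ gaussVal N ℓ := by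
  rw [mem_chartAlg_iff] at hx
  have hle : ∀ y ∈ Algebra.adjoin ↥(GaloisRep.ratLocalizedAt ℓ) S, y ∈ gaussVal N ℓ := by
    intro y hy
    induction hy using Algebra.adjoin_induction with
    | mem y hy => exact hS y hy
    | algebraMap r => exact algebraMap_mem_gaussVal N ℓ r
    | add y z _ _ hy hz => exact add_mem hy hz
    | mul y z _ _ hy hz => exact mul_mem hy hz
  let φ : ↥(Algebra.adjoin ↥(GaloisRep.ratLocalizedAt ℓ) S) →+* ↥(gaussVal N ℓ) :=
    { toFun := fun y => ⟨y.1, hle y.1 y.2⟩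
      map_one' := rfl
      map_mul' := fun _ _ => rfl
      map_zero' := rfl
      map_add' := fun _ _ => rfl }
  have h2 : IsIntegral ↥(gaussVal N ℓ) x :=
    hx.map_of_comp_eq φ (RingHom.id _) (by ext; rfl)
  obtain ⟨y, hy⟩ := IsIntegrallyClosed.isIntegral_iff.mp h2
  rw [← hy]
  exact y.2

/-! ### Integer polynomials mod `ℓ` -/

omit [NeZero N] in
theorem exists_eq_C_mul_of_map_eq_zero {p : ℤ[X]}
    (h : p.map (Int.castRingHom (ZMod ℓ)) = 0) : ∃ p' : ℤ[X], p = C (ℓ : ℤ) * p' := by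
  refine (Polynomial.C_dvd_iff_dvd_coeff _ _).mpr fun i => ?_
  have := congrArg (fun q : (ZMod ℓ)[X] => q.coeff i) h
  simp only [coeff_map, eq_intCast, coeff_zero] at this
  exact (ZMod.intCast_zmod_eq_zero_iff_dvd _ _).mp this

omit [NeZero N] in
theorem exists_primitive_poly {p : ℤ[X]} (hp : p ≠ 0) :
    ∃ (m : ℕ) (p' : ℤ[X]), p = C ((ℓ : ℤ) ^ m) * p' ∧
      p'.map (Int.castRingHom (ZMod ℓ)) ≠ 0 := by
  have hℓ : 2 ≤ ℓ := (Fact.out : ℓ.Prime).two_le
  suffices H : ∀ k : ℕ, ∀ p : ℤ[X], p.leadingCoeff.natAbs = k → p ≠ 0 →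
      ∃ (m : ℕ) (p' : ℤ[X]), p = C ((ℓ : ℤ) ^ m) * p' ∧
        p'.map (Int.castRingHom (ZMod ℓ)) ≠ 0 from H _ p rfl hp
  intro k
  induction k using Nat.strong_induction_on with
  | _ k ih =>
    intro p hk hp
    by_cases hr : p.map (Int.castRingHom (ZMod ℓ)) = 0
    · obtain ⟨p', rfl⟩ := exists_eq_C_mul_of_map_eq_zero ℓ hr
      have hp' : p' ≠ 0 := fun h0 => hp (by rw [h0, mul_zero])
      have hlc : (C (ℓ : ℤ) * p').leadingCoeff = (ℓ : ℤ) * p'.leadingCoeff := by
        rw [leadingCoeff_mul, leadingCoeff_C]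
      have hlt : p'.leadingCoeff.natAbs < k := by
        rw [← hk, hlc, Int.natAbs_mul, Int.natAbs_natCast]
        have : 0 < p'.leadingCoeff.natAbs := Int.natAbs_pos.mpr (leadingCoeff_ne_zero.mpr hp')
        nlinarith
      obtain ⟨m, p'', h1, h2⟩ := ih _ hlt p' rfl hp'
      refine ⟨m + 1, p'', ?_, h2⟩
      rw [h1, ← mul_assoc, ← C_mul, pow_succ']
    · exact ⟨0, p, by simp, hr⟩

/-! ### The main argument -/

section Main

variable {N ℓ}
variable (T : ↥(modularFunctionFieldFull N)) (tT : LaurentSeries ℤ)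
  {n : ℕ} (t : Fin n → LaurentSeries ℤ) (θ : Fin n → ↥(modularFunctionFieldFull N))

omit [NeZero N] in
theorem coe_eval₂_T (hT : (T : LaurentSeries ℚ) = iotaQ tT) (p : ℤ[X]) :
    ((p.eval₂ (Int.castRingHom ↥(modularFunctionFieldFull N)) T :
      ↥(modularFunctionFieldFull N)) : LaurentSeries ℚ)
      = iotaQ (p.eval₂ (Int.castRingHom (LaurentSeries ℤ)) tT) := by
  have h1 := Polynomial.hom_eval₂ p (Int.castRingHom ↥(modularFunctionFieldFull N))
    ((modularFunctionFieldFull N).val : ↥(modularFunctionFieldFull N) →+* LaurentSeries ℚ) T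
  have h2 := Polynomial.hom_eval₂ p (Int.castRingHom (LaurentSeries ℤ)) iotaQ tT
  rw [RingHom.ext_int (((modularFunctionFieldFull N).val :
      ↥(modularFunctionFieldFull N) →+* LaurentSeries ℚ).comp
      (Int.castRingHom ↥(modularFunctionFieldFull N))) (Int.castRingHom (LaurentSeries ℚ))] at h1
  rw [RingHom.ext_int (iotaQ.comp (Int.castRingHom (LaurentSeries ℤ)))
    (Int.castRingHom (LaurentSeries ℚ))] at h2
  rw [h2, ← hT]
  exact h1

omit [NeZero N] in
theorem redL_eval₂_T (p : ℤ[X]) :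
    redL ℓ (p.eval₂ (Int.castRingHom (LaurentSeries ℤ)) tT)
      = (p.map (Int.castRingHom (ZMod ℓ))).eval₂ HahnSeries.C (redL ℓ tT) := by
  rw [Polynomial.hom_eval₂, Polynomial.eval₂_map]
  congr 1
  exact RingHom.ext_int _ _

variable (htr : ∀ p : (ZMod ℓ)[X], p ≠ 0 → p.eval₂ HahnSeries.C (redL ℓ tT) ≠ 0)

include htr in
omit [NeZero N] in
theorem redL_eval₂_T_ne_zero {p : ℤ[X]} (hp : p.map (Int.castRingHom (ZMod ℓ)) ≠ 0) :
    redL ℓ (p.eval₂ (Int.castRingHom (LaurentSeries ℤ)) tT) ≠ 0 := by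
  rw [redL_eval₂_T]
  exact htr _ hp

include htr in
omit [NeZero N] in
theorem eval₂_T_ne_zero (hT : (T : LaurentSeries ℚ) = iotaQ tT) {p : ℤ[X]} (hp : p ≠ 0) :
    p.eval₂ (Int.castRingHom ↥(modularFunctionFieldFull N)) T ≠ 0 := by
  obtain ⟨m, p', rfl, hp'⟩ := exists_primitive_poly ℓ hp
  rw [eval₂_mul, eval₂_C]
  refine mul_ne_zero ?_ ?_
  · simp only [eq_intCast, Int.cast_pow, Int.cast_natCast]
    exact pow_ne_zero _ (Nat.cast_ne_zero.mpr (Fact.out : ℓ.Prime).ne_zero)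
  · intro h0
    have h1 := coe_eval₂_T T tT hT p'
    rw [h0] at h1
    have h2 : p'.eval₂ (Int.castRingHom (LaurentSeries ℤ)) tT = 0 :=
      iotaQ_eq_zero.mp (by rw [← h1]; rfl)
    exact redL_eval₂_T_ne_zero tT htr hp' (by rw [h2, map_zero])

include htr in
omit [NeZero N] in
/-- `T` is transcendental over `ℚ`. -/
theorem transcendental_T (hT : (T : LaurentSeries ℚ) = iotaQ tT) : Transcendental ℚ T := by
  intro halg
  obtain ⟨p, hp0, hp⟩ := halg
  have h1 := IsLocalization.integerNormalization_eval₂_eq_zero (nonZeroDivisors ℤ)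
    (algebraMap ℚ ↥(modularFunctionFieldFull N)) p (x := T) (by rwa [← Polynomial.aeval_def])
  rw [RingHom.ext_int ((algebraMap ℚ ↥(modularFunctionFieldFull N)).comp (algebraMap ℤ ℚ))
    (Int.castRingHom ↥(modularFunctionFieldFull N))] at h1
  have h2 : IsLocalization.integerNormalization (nonZeroDivisors ℤ) p ≠ 0 := by
    rw [Ne, IsFractionRing.integerNormalization_eq_zero_iff]
    exact hp0
  exact eval₂_T_ne_zero T tT htr hT h2 h1

omit [NeZero N] in
/-- Normalise a relation `b(T) z = ∑ a_i(T) θ_i` so that not all of `b, a_i` vanish mod `ℓ`. -/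
theorem qp_primitive (z : ↥(modularFunctionFieldFull N)) :
    ∀ (b : ℤ[X]) (a : Fin n → ℤ[X]), b ≠ 0 →
      b.eval₂ (Int.castRingHom ↥(modularFunctionFieldFull N)) T * z =
        ∑ i, (a i).eval₂ (Int.castRingHom ↥(modularFunctionFieldFull N)) T * θ i →
      ∃ (b' : ℤ[X]) (a' : Fin n → ℤ[X]), b' ≠ 0 ∧
        (b'.map (Int.castRingHom (ZMod ℓ)) ≠ 0 ∨
          ∃ i, (a' i).map (Int.castRingHom (ZMod ℓ)) ≠ 0) ∧
        b'.eval₂ (Int.castRingHom ↥(modularFunctionFieldFull N)) T * z =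
          ∑ i, (a' i).eval₂ (Int.castRingHom ↥(modularFunctionFieldFull N)) T * θ i := by
  have hℓ : 2 ≤ ℓ := (Fact.out : ℓ.Prime).two_le
  suffices H : ∀ k : ℕ, ∀ (b : ℤ[X]) (a : Fin n → ℤ[X]), b.leadingCoeff.natAbs = k → b ≠ 0 →
      b.eval₂ (Int.castRingHom ↥(modularFunctionFieldFull N)) T * z =
        ∑ i, (a i).eval₂ (Int.castRingHom ↥(modularFunctionFieldFull N)) T * θ i →
      ∃ (b' : ℤ[X]) (a' : Fin n → ℤ[X]), b' ≠ 0 ∧
        (b'.map (Int.castRingHom (ZMod ℓ)) ≠ 0 ∨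
          ∃ i, (a' i).map (Int.castRingHom (ZMod ℓ)) ≠ 0) ∧
        b'.eval₂ (Int.castRingHom ↥(modularFunctionFieldFull N)) T * z =
          ∑ i, (a' i).eval₂ (Int.castRingHom ↥(modularFunctionFieldFull N)) T * θ i from
    fun b a hb h => H _ b a rfl hb h
  intro k
  induction k using Nat.strong_induction_on with
  | _ k ih =>
    intro b a hk hb h
    by_cases hprim : b.map (Int.castRingHom (ZMod ℓ)) ≠ 0 ∨
        ∃ i, (a i).map (Int.castRingHom (ZMod ℓ)) ≠ 0
    · exact ⟨b, a, hb, hprim, h⟩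
    · push Not at hprim
      obtain ⟨hb0, ha0⟩ := hprim
      obtain ⟨b', rfl⟩ := exists_eq_C_mul_of_map_eq_zero ℓ hb0
      choose a' ha' using fun i => exists_eq_C_mul_of_map_eq_zero ℓ (ha0 i)
      have hb' : b' ≠ 0 := fun h0 => hb (by rw [h0, mul_zero])
      have hlc : (C (ℓ : ℤ) * b').leadingCoeff = (ℓ : ℤ) * b'.leadingCoeff := by
        rw [leadingCoeff_mul, leadingCoeff_C]
      have hlt : b'.leadingCoeff.natAbs < k := by
        rw [← hk, hlc, Int.natAbs_mul, Int.natAbs_natCast]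
        have : 0 < b'.leadingCoeff.natAbs := Int.natAbs_pos.mpr (leadingCoeff_ne_zero.mpr hb')
        nlinarith
      have hℓF : ((ℓ : ℤ) : ↥(modularFunctionFieldFull N)) ≠ 0 := by
        simp only [Int.cast_natCast]
        exact Nat.cast_ne_zero.mpr (Fact.out : ℓ.Prime).ne_zero
      refine ih _ hlt b' a' rfl hb' ?_
      apply mul_left_cancel₀ hℓF
      have e1 : ((ℓ : ℤ) : ↥(modularFunctionFieldFull N)) *
          (b'.eval₂ (Int.castRingHom ↥(modularFunctionFieldFull N)) T * z) =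
          (C (ℓ : ℤ) * b').eval₂ (Int.castRingHom ↥(modularFunctionFieldFull N)) T * z := by
        rw [eval₂_mul, eval₂_C, eq_intCast, mul_assoc]
      rw [e1, h, Finset.mul_sum]
      refine Finset.sum_congr rfl fun i _ => ?_
      rw [ha' i, eval₂_mul, eval₂_C, eq_intCast, mul_assoc]

variable (hT : (T : LaurentSeries ℚ) = iotaQ tT)
  (hθ : ∀ i, (θ i : LaurentSeries ℚ) = iotaQ (t i))
  (hspan : ∀ z : ↥(modularFunctionFieldFull N), ∃ (b : ℤ[X]) (a : Fin n → ℤ[X]), b ≠ 0 ∧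
    b.eval₂ (Int.castRingHom ↥(modularFunctionFieldFull N)) T * z =
      ∑ i, (a i).eval₂ (Int.castRingHom ↥(modularFunctionFieldFull N)) T * θ i)
  (hindep : ∀ a : Fin n → (ZMod ℓ)[X],
    ∑ i, (a i).eval₂ HahnSeries.C (redL ℓ tT) * redL ℓ (t i) = 0 → ∀ i, a i = 0)

include hT hθ hspan hindep in
omit [NeZero N] in
/-- Elements of the Gauss ring have coordinates with denominators prime to `ℓ`. -/
theorem qp_coeff (z : ↥(modularFunctionFieldFull N)) (hz : (z : LaurentSeries ℚ) ∈ gaussRing ℓ) :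
    ∃ (b : ℤ[X]) (a : Fin n → ℤ[X]), b.map (Int.castRingHom (ZMod ℓ)) ≠ 0 ∧
      b.eval₂ (Int.castRingHom ↥(modularFunctionFieldFull N)) T * z =
        ∑ i, (a i).eval₂ (Int.castRingHom ↥(modularFunctionFieldFull N)) T * θ i := by
  obtain ⟨b₀, a₀, hb₀, h₀⟩ := hspan z
  obtain ⟨b, a, -, hprim, h⟩ := qp_primitive (ℓ := ℓ) T θ z b₀ a₀ hb₀ h₀
  refine ⟨b, a, ?_, h⟩
  intro hb0
  obtain ⟨i₀, hi₀⟩ := hprim.resolve_left (not_not.mpr hb0)
  apply hi₀
  obtain ⟨u, v, hv, huv⟩ := hz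
  -- the relation in `ℚ((q))`
  have h1 : iotaQ (b.eval₂ (Int.castRingHom (LaurentSeries ℤ)) tT) * (z : LaurentSeries ℚ) =
      iotaQ (∑ i, (a i).eval₂ (Int.castRingHom (LaurentSeries ℤ)) tT * t i) := by
    have := congrArg (fun w : ↥(modularFunctionFieldFull N) => (w : LaurentSeries ℚ)) h
    simp only [MulMemClass.coe_mul, AddSubmonoidClass.coe_finsetSum] at this
    rw [coe_eval₂_T T tT hT] at this
    rw [this, map_sum]
    refine Finset.sum_congr rfl fun i _ => ?_
    rw [coe_eval₂_T T tT hT, hθ i, map_mul]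
  have h2 : b.eval₂ (Int.castRingHom (LaurentSeries ℤ)) tT * u =
      (∑ i, (a i).eval₂ (Int.castRingHom (LaurentSeries ℤ)) tT * t i) * v := by
    apply iotaQ_injective
    rw [map_mul, map_mul, ← h1, ← huv]
    ring
  have h3 := congrArg (redL ℓ) h2
  rw [map_mul, map_mul, redL_eval₂_T, hb0, eval₂_zero, zero_mul] at h3
  have h4 : redL ℓ (∑ i, (a i).eval₂ (Int.castRingHom (LaurentSeries ℤ)) tT * t i) = 0 :=
    (mul_eq_zero.mp h3.symm).resolve_right hv
  rw [map_sum] at h4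
  refine hindep (fun i => (a i).map (Int.castRingHom (ZMod ℓ))) ?_ i₀
  rw [← h4]
  refine Finset.sum_congr rfl fun i _ => ?_
  rw [map_mul, redL_eval₂_T]

end Main

end

end Fermat.Agent.S28
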