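import Mathlib
import Fermat.Prelude.Def_ModularCurve_IgusaScheme
import Fermat.Agent.S28.Principle

set_option autoImplicit false

/-!
# Project S28, module [QPrinciple]: the `q`-expansion principle (main statement `qp_main`)
-/

namespace Fermat.Agent.S28

open ModularCurve ModularCurve.IgusaScheme Polynomial IntermediateField

noncomputable section

section Main2

variable {N : ℕ} [NeZero N] {ℓ : ℕ} [Fact ℓ.Prime]
variable (T : ↥(modularFunctionFieldFull N)) (tT : LaurentSeries ℤ)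
  {n : ℕ} (t : Fin n → LaurentSeries ℤ) (θ : Fin n → ↥(modularFunctionFieldFull N))
variable (htr : ∀ p : (ZMod ℓ)[X], p ≠ 0 → p.eval₂ HahnSeries.C (redL ℓ tT) ≠ 0)

omit [NeZero N] [Fact ℓ.Prime] in
theorem eval₂_T_mem_adjoin (p : ℤ[X]) :
    p.eval₂ (Int.castRingHom ↥(modularFunctionFieldFull N)) T ∈
      Algebra.adjoin ↥(GaloisRep.ratLocalizedAt ℓ) {T} := by
  rw [Algebra.adjoin_singleton_eq_range_aeval]
  refine ⟨p.map (Int.castRingHom ↥(GaloisRep.ratLocalizedAt ℓ)), ?_⟩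
  change aeval T (Polynomial.map (Int.castRingHom ↥(GaloisRep.ratLocalizedAt ℓ)) p) = _
  rw [aeval_def, eval₂_map]
  congr 1

include htr in
omit [NeZero N] in
/-- Lemma D: a polynomial in `T` with rational coefficients lying in the Gauss ring is a
polynomial in `T` with `ℓ`-integral coefficients. -/
theorem mem_adjoin_of_gaussRing (hT : (T : LaurentSeries ℚ) = iotaQ tT)
    (w : ↥(modularFunctionFieldFull N)) (hw : (w : LaurentSeries ℚ) ∈ gaussRing ℓ) :
    ∀ (d : ℤ) (p : ℤ[X]), d ≠ 0 →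
      (d : ↥(modularFunctionFieldFull N)) * w =
        p.eval₂ (Int.castRingHom ↥(modularFunctionFieldFull N)) T →
      w ∈ Algebra.adjoin ↥(GaloisRep.ratLocalizedAt ℓ) {T} := by
  have hℓ : 2 ≤ ℓ := (Fact.out : ℓ.Prime).two_le
  suffices H : ∀ k : ℕ, ∀ (d : ℤ) (p : ℤ[X]), d.natAbs = k → d ≠ 0 →
      (d : ↥(modularFunctionFieldFull N)) * w =
        p.eval₂ (Int.castRingHom ↥(modularFunctionFieldFull N)) T →
      w ∈ Algebra.adjoin ↥(GaloisRep.ratLocalizedAt ℓ) {T} from fun d p hd h => H _ d p rfl hd h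
  intro k
  induction k using Nat.strong_induction_on with
  | _ k ih =>
    intro d p hk hd h
    by_cases hdvd : (ℓ : ℤ) ∣ d
    · obtain ⟨d', rfl⟩ := hdvd
      have hd' : d' ≠ 0 := fun h0 => hd (by rw [h0, mul_zero])
      have hp0 : p.map (Int.castRingHom (ZMod ℓ)) = 0 := by
        by_contra hne
        obtain ⟨u, v, hv, huv⟩ := hw
        have h1 := congrArg (fun z : ↥(modularFunctionFieldFull N) => (z : LaurentSeries ℚ)) h
        simp only [MulMemClass.coe_mul] at h1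
        rw [coe_eval₂_T T tT hT] at h1
        have h0 : (((((ℓ : ℤ) * d' : ℤ) : ↥(modularFunctionFieldFull N)) :
            ↥(modularFunctionFieldFull N)) : LaurentSeries ℚ) =
            iotaQ (HahnSeries.C ((ℓ : ℤ) * d')) := by
          rw [iotaQ_C, map_intCast (HahnSeries.C : ℚ →+* LaurentSeries ℚ)]
          simp
        rw [h0] at h1
        have h2 : p.eval₂ (Int.castRingHom (LaurentSeries ℤ)) tT * v =
            HahnSeries.C ((ℓ : ℤ) * d') * u := by
          apply iotaQ_injective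
          rw [map_mul, map_mul, ← h1, ← huv]
          ring
        have h3 := congrArg (redL ℓ) h2
        simp only [map_mul, redL_C_self, zero_mul] at h3
        exact redL_eval₂_T_ne_zero tT htr hne ((mul_eq_zero.mp h3).resolve_right hv)
      obtain ⟨p', rfl⟩ := exists_eq_C_mul_of_map_eq_zero ℓ hp0
      have hℓF : ((ℓ : ℤ) : ↥(modularFunctionFieldFull N)) ≠ 0 := by
        simp only [Int.cast_natCast]
        exact Nat.cast_ne_zero.mpr (Fact.out : ℓ.Prime).ne_zero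
      refine ih d'.natAbs ?_ d' p' rfl hd' ?_
      · rw [← hk, Int.natAbs_mul, Int.natAbs_natCast]
        have : 0 < d'.natAbs := Int.natAbs_pos.mpr hd'
        nlinarith
      · apply mul_left_cancel₀ hℓF
        rw [← mul_assoc, ← Int.cast_mul, h, eval₂_mul, eval₂_C, eq_intCast]
    · -- `d` is a unit of `ℤ_(ℓ)`
      have hcop : ((d : ℚ)⁻¹).den.Coprime ℓ := by
        rw [Rat.inv_intCast_den, if_neg hd]
        refine Nat.Coprime.symm ((Nat.Prime.coprime_iff_not_dvd (Fact.out : ℓ.Prime)).mpr ?_)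
        intro h0
        exact hdvd (Int.natCast_dvd.mpr h0)
      have hdF : (d : ↥(modularFunctionFieldFull N)) ≠ 0 := Int.cast_ne_zero.mpr hd
      have hw' : w = algebraMap ↥(GaloisRep.ratLocalizedAt ℓ) ↥(modularFunctionFieldFull N)
          ⟨(d : ℚ)⁻¹, hcop⟩ * p.eval₂ (Int.castRingHom ↥(modularFunctionFieldFull N)) T := by
        rw [← h, RingHom.algebraMap_toAlgebra, RingHom.comp_apply]
        rw [show (algebraMap ↥(GaloisRep.ratLocalizedAt ℓ) ℚ ⟨(d : ℚ)⁻¹, hcop⟩) = (d : ℚ)⁻¹ from rfl]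
        rw [map_inv₀, map_intCast, ← mul_assoc, inv_mul_cancel₀ hdF, one_mul]
      rw [hw']
      exact mul_mem (Subalgebra.algebraMap_mem _ _) (eval₂_T_mem_adjoin T p)

omit [NeZero N] in
include htr in
theorem div_eval₂_mem_gaussRing (hT : (T : LaurentSeries ℚ) = iotaQ tT) (a b : ℤ[X])
    (hb : b.map (Int.castRingHom (ZMod ℓ)) ≠ 0) :
    ((a.eval₂ (Int.castRingHom ↥(modularFunctionFieldFull N)) T /
      b.eval₂ (Int.castRingHom ↥(modularFunctionFieldFull N)) T :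
        ↥(modularFunctionFieldFull N)) : LaurentSeries ℚ) ∈ gaussRing ℓ := by
  have hv := redL_eval₂_T_ne_zero tT htr hb
  refine ⟨a.eval₂ (Int.castRingHom (LaurentSeries ℤ)) tT,
    b.eval₂ (Int.castRingHom (LaurentSeries ℤ)) tT, hv, ?_⟩
  have h1 : (((a.eval₂ (Int.castRingHom ↥(modularFunctionFieldFull N)) T /
      b.eval₂ (Int.castRingHom ↥(modularFunctionFieldFull N)) T :
        ↥(modularFunctionFieldFull N)) : LaurentSeries ℚ)) =
      iotaQ (a.eval₂ (Int.castRingHom (LaurentSeries ℤ)) tT) /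
        iotaQ (b.eval₂ (Int.castRingHom (LaurentSeries ℤ)) tT) := by
    rw [← coe_eval₂_T T tT hT, ← coe_eval₂_T T tT hT]
    push_cast
    rfl
  rw [h1, div_mul_cancel₀ _ (redL_ne_zero_imp ℓ hv)]

/-- The determinant trick. -/
theorem isIntegralElem_of_mulVec {R L : Type*} [CommRing R] [Field L] (f : R →+* L) {n : ℕ}
    (C : Matrix (Fin n) (Fin n) R) (θ : Fin n → L) (hθ : θ ≠ 0) (y : L)
    (h : ∀ k, ∑ i, f (C k i) * θ i = y * θ k) : f.IsIntegralElem y := by
  refine ⟨C.charpoly, Matrix.charpoly_monic C, ?_⟩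
  rw [← Polynomial.eval_map, ← Matrix.charpoly_map, Matrix.eval_charpoly]
  refine Matrix.exists_mulVec_eq_zero_iff.mp ⟨θ, hθ, ?_⟩
  ext k
  rw [Matrix.sub_mulVec]
  simp only [Pi.sub_apply, Pi.zero_apply, Matrix.mulVec, dotProduct, Matrix.map_apply,
    Matrix.scalar_apply, Matrix.diagonal_apply]
  rw [h k]
  simp

/-- The Gauss valuation ring of `ℚ(T)`. -/
def gaussValT (ℓ : ℕ) [Fact ℓ.Prime] (T : ↥(modularFunctionFieldFull N)) :
    ValuationSubring ↥ℚ⟮T⟯ :=
  (gaussVal N ℓ).comap (algebraMap ↥ℚ⟮T⟯ ↥(modularFunctionFieldFull N))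

/-- The structure map of the Gauss valuation ring of `ℚ(T)` into the function field. -/
def gaussValTHom (ℓ : ℕ) [Fact ℓ.Prime] (T : ↥(modularFunctionFieldFull N)) :
    ↥(gaussValT ℓ T) →+* ↥(modularFunctionFieldFull N) :=
  (algebraMap ↥ℚ⟮T⟯ ↥(modularFunctionFieldFull N)).comp (algebraMap ↥(gaussValT ℓ T) ↥ℚ⟮T⟯)

variable (hT : (T : LaurentSeries ℚ) = iotaQ tT)
  (hθ : ∀ i, (θ i : LaurentSeries ℚ) = iotaQ (t i))
  (hspan : ∀ z : ↥(modularFunctionFieldFull N), ∃ (b : ℤ[X]) (a : Fin n → ℤ[X]), b ≠ 0 ∧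
    b.eval₂ (Int.castRingHom ↥(modularFunctionFieldFull N)) T * z =
      ∑ i, (a i).eval₂ (Int.castRingHom ↥(modularFunctionFieldFull N)) T * θ i)
  (hindep : ∀ a : Fin n → (ZMod ℓ)[X],
    ∑ i, (a i).eval₂ HahnSeries.C (redL ℓ tT) * redL ℓ (t i) = 0 → ∀ i, a i = 0)

include htr hT hθ hspan hindep in
/-- The `q`-expansion principle: elements of the Gauss ring are integral over the Gauss
valuation ring of `ℚ(T)`. -/
theorem isIntegralElem_gaussValT (y : ↥(modularFunctionFieldFull N))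
    (hy : (y : LaurentSeries ℚ) ∈ gaussRing ℓ) : (gaussValTHom ℓ T).IsIntegralElem y := by
  have hz : ∀ k, ((y * θ k : ↥(modularFunctionFieldFull N)) : LaurentSeries ℚ) ∈ gaussRing ℓ := by
    intro k
    rw [MulMemClass.coe_mul, hθ k]
    exact mul_mem hy (iotaQ_mem_gaussRing ℓ _)
  choose b a hb hab using fun k => qp_coeff T tT t θ hT hθ hspan hindep (y * θ k) (hz k)
  have hbT : ∀ k, (b k).eval₂ (Int.castRingHom ↥(modularFunctionFieldFull N)) T ≠ 0 := fun k =>
    eval₂_T_ne_zero T tT htr hT (fun h0 => hb k (by rw [h0, Polynomial.map_zero]))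
  have hcoe : ∀ p : ℤ[X], algebraMap ↥ℚ⟮T⟯ ↥(modularFunctionFieldFull N)
      (p.eval₂ (Int.castRingHom ↥ℚ⟮T⟯) (AdjoinSimple.gen ℚ T)) =
      p.eval₂ (Int.castRingHom ↥(modularFunctionFieldFull N)) T := by
    intro p
    rw [Polynomial.hom_eval₂, AdjoinSimple.algebraMap_gen]
    congr 1
  have hmem : ∀ k i, (a k i).eval₂ (Int.castRingHom ↥ℚ⟮T⟯) (AdjoinSimple.gen ℚ T) /
      (b k).eval₂ (Int.castRingHom ↥ℚ⟮T⟯) (AdjoinSimple.gen ℚ T) ∈ gaussValT ℓ T := by
    intro k i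
    change algebraMap ↥ℚ⟮T⟯ ↥(modularFunctionFieldFull N) _ ∈ gaussVal N ℓ
    rw [map_div₀, hcoe, hcoe, mem_gaussVal]
    exact div_eval₂_mem_gaussRing T tT htr hT _ _ (hb k)
  have hθ0 : θ ≠ 0 := by
    intro h0
    obtain ⟨b₁, a₁, hb₁, h₁⟩ := hspan 1
    rw [h0] at h₁
    simp only [Pi.zero_apply, mul_zero, Finset.sum_const_zero, mul_one] at h₁
    exact eval₂_T_ne_zero T tT htr hT hb₁ h₁
  refine isIntegralElem_of_mulVec (gaussValTHom ℓ T) (fun k i => ⟨_, hmem k i⟩) θ hθ0 y ?_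
  intro k
  have h1 : ∀ i, gaussValTHom ℓ T ⟨_, hmem k i⟩ =
      (a k i).eval₂ (Int.castRingHom ↥(modularFunctionFieldFull N)) T /
        (b k).eval₂ (Int.castRingHom ↥(modularFunctionFieldFull N)) T := by
    intro i
    change algebraMap ↥ℚ⟮T⟯ ↥(modularFunctionFieldFull N)
      ((a k i).eval₂ (Int.castRingHom ↥ℚ⟮T⟯) (AdjoinSimple.gen ℚ T) /
        (b k).eval₂ (Int.castRingHom ↥ℚ⟮T⟯) (AdjoinSimple.gen ℚ T)) = _
    rw [map_div₀, hcoe, hcoe]
  simp only [h1]
  rw [eq_comm, ← mul_right_inj' (hbT k), hab k, Finset.mul_sum]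
  refine Finset.sum_congr rfl fun i _ => ?_
  field_simp [hbT k]

set_option synthInstance.maxHeartbeats 400000 in
set_option maxHeartbeats 1000000 in
open scoped IntermediateField.algebraAdjoinAdjoin in
include htr hT hθ hspan hindep in
/-- An element of the Gauss ring which is integral over `ℚ[T]` is integral over `ℤ_(ℓ)[T]`. -/
theorem qp_integral (y : ↥(modularFunctionFieldFull N))
    (hy : (y : LaurentSeries ℚ) ∈ gaussRing ℓ) (hyQ : IsIntegral ↥(Algebra.adjoin ℚ {T}) y) :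
    y ∈ chartAlg N ℓ {T} := by
  classical
  have htrans := transcendental_T T tT htr hT
  let _ : Algebra ↥(gaussValT ℓ T) ↥(modularFunctionFieldFull N) := (gaussValTHom ℓ T).toAlgebra
  have : IsScalarTower ↥(gaussValT ℓ T) ↥ℚ⟮T⟯ ↥(modularFunctionFieldFull N) :=
    IsScalarTower.of_algebraMap_eq' rfl
  have hO : IsIntegral ↥(gaussValT ℓ T) y :=
    isIntegralElem_gaussValT T tT t θ htr hT hθ hspan hindep y hy
  have : UniqueFactorizationMonoid ↥(Algebra.adjoin ℚ {T}) :=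
    htrans.uniqueFactorizationMonoid_adjoin
  have : IsScalarTower ↥(Algebra.adjoin ℚ {T}) ↥ℚ⟮T⟯ ↥(modularFunctionFieldFull N) :=
    IsScalarTower.of_algebraMap_eq' rfl
  have e1 := minpoly.isIntegrallyClosed_eq_field_fractions' ↥ℚ⟮T⟯ hO
  have e2 := minpoly.isIntegrallyClosed_eq_field_fractions' ↥ℚ⟮T⟯ hyQ
  have hcoef : ∀ i, algebraMap ↥ℚ⟮T⟯ ↥(modularFunctionFieldFull N) ((minpoly ↥ℚ⟮T⟯ y).coeff i) ∈
      Algebra.adjoin ↥(GaloisRep.ratLocalizedAt ℓ) {T} := by
    intro i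
    have hg : ((algebraMap ↥ℚ⟮T⟯ ↥(modularFunctionFieldFull N) ((minpoly ↥ℚ⟮T⟯ y).coeff i) :
        ↥(modularFunctionFieldFull N)) : LaurentSeries ℚ) ∈ gaussRing ℓ := by
      rw [e1, coeff_map]
      exact ((minpoly ↥(gaussValT ℓ T) y).coeff i).2
    have hq : algebraMap ↥ℚ⟮T⟯ ↥(modularFunctionFieldFull N) ((minpoly ↥ℚ⟮T⟯ y).coeff i) ∈
        Algebra.adjoin ℚ {T} := by
      rw [e2, coeff_map]
      exact ((minpoly ↥(Algebra.adjoin ℚ {T}) y).coeff i).2
    rw [Algebra.adjoin_singleton_eq_range_aeval] at hq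
    obtain ⟨p, hp⟩ := hq
    obtain ⟨d, hdm, hd⟩ := IsLocalization.integerNormalization_spec (nonZeroDivisors ℤ) p
    refine mem_adjoin_of_gaussRing T tT htr hT _ hg d
      (IsLocalization.integerNormalization (nonZeroDivisors ℤ) p)
      (mem_nonZeroDivisors_iff_ne_zero.mp hdm) ?_
    rw [← hp]
    change _ * aeval T p = _
    have h5 := congrArg (fun q : ℚ[X] => aeval T q) hd
    simp only [aeval_def, eval₂_map, Algebra.smul_def, eval₂_mul] at h5
    have h6 : ((algebraMap ℚ ↥(modularFunctionFieldFull N)).comp (algebraMap ℤ ℚ)) =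
        Int.castRingHom ↥(modularFunctionFieldFull N) := RingHom.ext_int _ _
    rw [h6] at h5
    rw [aeval_def, h5]
    congr 1
    rw [eq_intCast (algebraMap ℤ ℚ[X]) d, ← map_intCast (C : ℚ →+* ℚ[X]), eval₂_C, map_intCast]
  have hlift : (minpoly ↥ℚ⟮T⟯ y).map (algebraMap ↥ℚ⟮T⟯ ↥(modularFunctionFieldFull N)) ∈
      Polynomial.lifts (algebraMap ↥(Algebra.adjoin ↥(GaloisRep.ratLocalizedAt ℓ) {T})
        ↥(modularFunctionFieldFull N)) := by
    rw [Polynomial.lifts_iff_coeff_lifts]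
    intro i
    rw [coeff_map]
    exact ⟨⟨_, hcoef i⟩, rfl⟩
  have hmonic : ((minpoly ↥ℚ⟮T⟯ y).map
      (algebraMap ↥ℚ⟮T⟯ ↥(modularFunctionFieldFull N))).Monic := by
    rw [e2]
    exact ((minpoly.monic hyQ).map _).map _
  obtain ⟨q, hq, -, hqm⟩ := Polynomial.lifts_and_natDegree_eq_and_monic hlift hmonic
  rw [mem_chartAlg_iff]
  refine ⟨q, hqm, ?_⟩
  rw [← Polynomial.eval_map, hq, Polynomial.eval_map, ← aeval_def, minpoly.aeval]

omit [NeZero N] [Fact ℓ.Prime] in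
theorem adjoin_ratLoc_le_adjoin_rat {z : ↥(modularFunctionFieldFull N)}
    (hz : z ∈ Algebra.adjoin ↥(GaloisRep.ratLocalizedAt ℓ) {T}) : z ∈ Algebra.adjoin ℚ {T} := by
  induction hz using Algebra.adjoin_induction with
  | mem y hy => exact Algebra.subset_adjoin hy
  | algebraMap r =>
    rw [RingHom.algebraMap_toAlgebra, RingHom.comp_apply]
    exact Subalgebra.algebraMap_mem _ _
  | add y z _ _ hy hz => exact add_mem hy hz
  | mul y z _ _ hy hz => exact mul_mem hy hz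

include htr hT hθ hspan hindep in
/-- **The `q`-expansion principle**: the kernel of the reduction map on the integral closure of
`ℤ_(ℓ)[T]` is generated by `ℓ`. -/
theorem qp_main (x : ↥(modularFunctionFieldFull N)) (hx : x ∈ chartAlg N ℓ {T})
    (hxg : (x : LaurentSeries ℚ) ∈ gaussRing ℓ)
    (hred : gaussRed ℓ ⟨(x : LaurentSeries ℚ), hxg⟩ = 0) :
    ∃ y ∈ chartAlg N ℓ {T}, x = (ℓ : ↥(modularFunctionFieldFull N)) * y := by
  obtain ⟨y', hy'⟩ := exists_eq_mul_of_gaussRed_eq_zero ℓ ⟨_, hxg⟩ hred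
  have hℓF : ((ℓ : ℕ) : ↥(modularFunctionFieldFull N)) ≠ 0 :=
    Nat.cast_ne_zero.mpr (Fact.out : ℓ.Prime).ne_zero
  have hℓQ : ((ℓ : ℕ) : LaurentSeries ℚ) ≠ 0 := by
    rw [← map_natCast (HahnSeries.C : ℚ →+* LaurentSeries ℚ) ℓ]
    exact HahnSeries.C_ne_zero (Nat.cast_ne_zero.mpr (Fact.out : ℓ.Prime).ne_zero)
  refine ⟨(ℓ : ↥(modularFunctionFieldFull N))⁻¹ * x,
    qp_integral T tT t θ htr hT hθ hspan hindep _ ?_ ?_, by field_simp⟩
  · have h1 : ((((ℓ : ↥(modularFunctionFieldFull N))⁻¹ * x : ↥(modularFunctionFieldFull N))) :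
        LaurentSeries ℚ) = (y' : LaurentSeries ℚ) := by
      have h2 : (HahnSeries.C (ℓ : ℚ) : LaurentSeries ℚ) = ((ℓ : ℕ) : LaurentSeries ℚ) :=
        map_natCast (HahnSeries.C : ℚ →+* LaurentSeries ℚ) ℓ
      push_cast
      change _ * (x : LaurentSeries ℚ) = _
      rw [show (x : LaurentSeries ℚ) = _ from hy', h2, ← mul_assoc, inv_mul_cancel₀ hℓQ, one_mul]
    rw [h1]
    exact y'.2
  · rw [mem_chartAlg_iff] at hx
    let φ : ↥(Algebra.adjoin ↥(GaloisRep.ratLocalizedAt ℓ) {T}) →+* ↥(Algebra.adjoin ℚ {T}) :=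
      { toFun := fun z => ⟨z.1, adjoin_ratLoc_le_adjoin_rat T z.2⟩
        map_one' := rfl
        map_mul' := fun _ _ => rfl
        map_zero' := rfl
        map_add' := fun _ _ => rfl }
    have h1 : IsIntegral ↥(Algebra.adjoin ℚ {T}) x :=
      hx.map_of_comp_eq φ (RingHom.id _) (by ext; rfl)
    have h2 : IsIntegral ↥(Algebra.adjoin ℚ {T}) ((ℓ : ↥(modularFunctionFieldFull N))⁻¹) := by
      have h3 : ((ℓ : ↥(modularFunctionFieldFull N))⁻¹) =
          algebraMap ↥(Algebra.adjoin ℚ {T}) ↥(modularFunctionFieldFull N)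
            (algebraMap ℚ ↥(Algebra.adjoin ℚ {T}) ((ℓ : ℚ)⁻¹)) := by
        rw [← IsScalarTower.algebraMap_apply, map_inv₀, map_natCast]
      rw [h3]
      exact isIntegral_algebraMap
    exact h2.mul h1

end Main2

end

end Fermat.Agent.S28
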