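import Mathlib
import Fermat.Prelude.Def_ModularCurve_IgusaScheme
import Fermat.Prelude.Def_ModularCurve_LaurentCoeff

set_option autoImplicit false

/-!
# Project S28, module [Tensor]: integrality of the special fibre from a `q`-expansion

If `A` is a `ℤ_(ℓ)`-algebra with a ring homomorphism `ρ : A → 𝔽_ℓ((q))` whose kernel is `ℓ A`,
then `A ⊗ K` is a domain for every field `K` of characteristic `ℓ`: it embeds into `K((q))`.
-/

namespace Fermat.Agent.S28

open TensorProduct ModularCurve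

noncomputable section

section Tensor

variable (ℓ : ℕ) [Fact ℓ.Prime]

omit [Fact ℓ.Prime] in
/-- Ring homomorphisms out of `ℤ_(ℓ)` are unique. -/
theorem ratLoc_ringHom_ext {S : Type*} [Ring S]
    (φ ψ : ↥(GaloisRep.ratLocalizedAt ℓ) →+* S) : φ = ψ := by
  ext r
  have hcop : (r : ℚ).den.Coprime ℓ := r.2
  have hden : ((r : ℚ).den : ℤ) ≠ 0 := by exact_mod_cast (r : ℚ).den_nz
  have hinv : ((((r : ℚ).den : ℤ) : ℚ)⁻¹).den.Coprime ℓ := by
    rw [Rat.inv_intCast_den, if_neg hden]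
    simpa using hcop
  let u : ↥(GaloisRep.ratLocalizedAt ℓ) := ⟨(((r : ℚ).den : ℤ) : ℚ)⁻¹, hinv⟩
  have h1 : u * (((r : ℚ).den : ℕ) : ↥(GaloisRep.ratLocalizedAt ℓ)) = 1 := by
    apply Subtype.ext
    push_cast
    change (((r : ℚ).den : ℤ) : ℚ)⁻¹ * _ = 1
    push_cast
    exact inv_mul_cancel₀ (by exact_mod_cast (r : ℚ).den_nz)
  have h2 : (((r : ℚ).den : ℕ) : ↥(GaloisRep.ratLocalizedAt ℓ)) * r =
      (((r : ℚ).num : ℤ) : ↥(GaloisRep.ratLocalizedAt ℓ)) := by
    apply Subtype.ext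
    push_cast
    exact Rat.den_mul_eq_num (r : ℚ)
  calc φ r = φ (u * (((r : ℚ).den : ℕ) : ↥(GaloisRep.ratLocalizedAt ℓ)) * r) := by
        rw [h1, one_mul]
    _ = φ u * (((r : ℚ).num : ℤ) : S) := by rw [mul_assoc, h2, map_mul, map_intCast]
    _ = φ u * (ψ (((r : ℚ).den : ℕ) : ↥(GaloisRep.ratLocalizedAt ℓ)) * ψ r) := by
        rw [← map_mul, h2, map_intCast]
    _ = φ u * φ (((r : ℚ).den : ℕ) : ↥(GaloisRep.ratLocalizedAt ℓ)) * ψ r := by
        rw [map_natCast, map_natCast, mul_assoc]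
    _ = ψ r := by rw [← map_mul, h1, map_one, one_mul]

variable {A : Type*} [CommRing A] [Algebra ↥(GaloisRep.ratLocalizedAt ℓ) A]
  (ρ : A →+* LaurentSeries (ZMod ℓ))
  (K : Type*) [Field K] [CharP K ℓ] [Algebra ↥(GaloisRep.ratLocalizedAt ℓ) K]

/-- The reduction map composed with the extension of coefficients to `K`. -/
def redK : A →ₐ[↥(GaloisRep.ratLocalizedAt ℓ)] LaurentSeries K :=
  { toRingHom := (coeffMap (ZMod.castHom (dvd_refl ℓ) K)).comp ρ
    commutes' := fun r => RingHom.congr_fun (ratLoc_ringHom_ext ℓ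
      (((coeffMap (ZMod.castHom (dvd_refl ℓ) K)).comp ρ).comp
        (algebraMap ↥(GaloisRep.ratLocalizedAt ℓ) A))
      (algebraMap ↥(GaloisRep.ratLocalizedAt ℓ) (LaurentSeries K))) r }

/-- Constants, as an algebra homomorphism. -/
def constK : K →ₐ[↥(GaloisRep.ratLocalizedAt ℓ)] LaurentSeries K :=
  { toRingHom := HahnSeries.C
    commutes' := fun r => RingHom.congr_fun (ratLoc_ringHom_ext ℓ
      ((HahnSeries.C : K →+* LaurentSeries K).comp (algebraMap ↥(GaloisRep.ratLocalizedAt ℓ) K))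
      (algebraMap ↥(GaloisRep.ratLocalizedAt ℓ) (LaurentSeries K))) r }

/-- The map `A ⊗ K → K((q))`. -/
def tensorToLaurent :
    A ⊗[↥(GaloisRep.ratLocalizedAt ℓ)] K →ₐ[↥(GaloisRep.ratLocalizedAt ℓ)] LaurentSeries K :=
  Algebra.TensorProduct.productMap (redK ℓ ρ K) (constK ℓ K)

theorem tensorToLaurent_tmul (a : A) (k : K) :
    tensorToLaurent ℓ ρ K (a ⊗ₜ k) =
      coeffMap (ZMod.castHom (dvd_refl ℓ) K) (ρ a) * HahnSeries.C k := by
  rw [tensorToLaurent, Algebra.TensorProduct.productMap_apply_tmul]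
  rfl

theorem tensorToLaurent_injective (hρ : ∀ a, ρ a = 0 → ∃ b, a = (ℓ : A) * b) :
    Function.Injective (tensorToLaurent ℓ ρ K) := by
  classical
  let _ := ZMod.algebra K ℓ
  let B := Module.Basis.ofVectorSpace (ZMod ℓ) K
  have hsmul : ∀ (c : ZMod ℓ) (k : K),
      (((c.val : ℕ) : ↥(GaloisRep.ratLocalizedAt ℓ))) • k = c • k := by
    intro c k
    rw [Algebra.smul_def, Algebra.smul_def, map_natCast]
    congr 1
    change ((c.val : ℕ) : K) = ZMod.castHom (dvd_refl ℓ) K c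
    rw [← map_natCast (ZMod.castHom (dvd_refl ℓ) K), ZMod.natCast_zmod_val]
  have hsurj : ∀ z : A ⊗[↥(GaloisRep.ratLocalizedAt ℓ)] K,
      ∃ f : (Module.Basis.ofVectorSpaceIndex (ZMod ℓ) K) →₀ A,
        z = f.sum (fun i a => a ⊗ₜ[↥(GaloisRep.ratLocalizedAt ℓ)] B i) := by
    intro z
    induction z using TensorProduct.induction_on with
    | zero => exact ⟨0, by simp⟩
    | tmul a k =>
      refine ⟨Finsupp.mapRange (fun c : ZMod ℓ =>
        (((c.val : ℕ) : ↥(GaloisRep.ratLocalizedAt ℓ))) • a) (by simp) (B.repr k), ?_⟩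
      rw [Finsupp.sum_mapRange_index (by simp)]
      simp only [TensorProduct.smul_tmul, hsmul]
      rw [Finsupp.sum, ← TensorProduct.tmul_sum]
      congr 1
      exact (B.linearCombination_repr k).symm
    | add x y hx hy =>
      obtain ⟨f, rfl⟩ := hx
      obtain ⟨g, rfl⟩ := hy
      refine ⟨f + g, ?_⟩
      rw [Finsupp.sum_add_index']
      · simp
      · intro i a b
        rw [TensorProduct.add_tmul]
  rw [injective_iff_map_eq_zero]
  intro z hz
  obtain ⟨f, rfl⟩ := hsurj z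
  rw [map_finsuppSum] at hz
  simp only [tensorToLaurent_tmul] at hz
  have h2 : ∀ i, ρ (f i) = 0 := by
    intro i
    ext n
    have h3 := congrArg (fun s : LaurentSeries K => s.coeff n) hz
    simp only [Finsupp.sum, HahnSeries.coeff_sum, HahnSeries.coeff_zero] at h3
    have h4 : Finsupp.linearCombination (ZMod ℓ) B
        (Finsupp.mapRange (fun a : A => (ρ a).coeff n) (by simp) f) = 0 := by
      rw [Finsupp.linearCombination_apply, Finsupp.sum_mapRange_index (by simp)]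
      rw [Finsupp.sum, ← h3]
      refine Finset.sum_congr rfl fun j _ => ?_
      rw [HahnSeries.C_apply, HahnSeries.coeff_mul_single_zero, Algebra.smul_def]
      rfl
    have h5 := linearIndependent_iff.mp B.linearIndependent _ h4
    have h6 := DFunLike.congr_fun h5 i
    simpa using h6
  rw [Finsupp.sum]
  refine Finset.sum_eq_zero fun i _ => ?_
  obtain ⟨b, hb⟩ := hρ _ (h2 i)
  rw [hb]
  have h7 : ((ℓ : A) * b) = ((ℓ : ℕ) : ↥(GaloisRep.ratLocalizedAt ℓ)) • b := by
    rw [Algebra.smul_def, map_natCast]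
  rw [h7, TensorProduct.smul_tmul, Algebra.smul_def, map_natCast, CharP.cast_eq_zero, zero_mul,
    TensorProduct.tmul_zero]

/-- If the kernel of `ρ : A → 𝔽_ℓ((q))` is `ℓ A`, then `A ⊗ K` is a domain for every field `K`
of characteristic `ℓ`. -/
theorem isDomain_tensor_of_reduction (hρ : ∀ a, ρ a = 0 → ∃ b, a = (ℓ : A) * b) :
    IsDomain (A ⊗[↥(GaloisRep.ratLocalizedAt ℓ)] K) :=
  Function.Injective.isDomain (tensorToLaurent ℓ ρ K).toRingHom
    (tensorToLaurent_injective ℓ ρ K hρ)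

end Tensor

end

end Fermat.Agent.S28
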