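import Mathlib
import Fermat.Prelude.Def_ModularCurve_IgusaScheme
import Fermat.Prelude.Def_ModularCurve_X0ModL
import Fermat.Agent.S28.QPrinciple
import Fermat.Agent.S28.Tensor
import Fermat.Agent.S28.Interface

set_option autoImplicit false

/-!
# Project S28, module [Charts]: the special fibres of the Igusa charts are integral

From a modular input (`ModInput`: integral `q`-expansions which are independent mod `ℓ` and as
many as the degree of the function field over `ℚ(j)`) we deduce the three hypotheses of the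
glueing lemma: `A_fin ⊗ K` and `A_inf ⊗ K` are domains, `A_mid ⊗ K` is nontrivial.
-/

namespace Fermat.Agent.S28

open ModularCurve ModularCurve.IgusaScheme Polynomial IntermediateField TensorProduct

noncomputable section

section Generic

variable {N : ℕ} [NeZero N] {ℓ : ℕ} [Fact ℓ.Prime]

/-- The reduction map on a chart algebra generated by elements of the Gauss ring. -/
def chartRed (S : Set ↥(modularFunctionFieldFull N)) (hS : ∀ s ∈ S, s ∈ gaussVal N ℓ) :
    ↥(chartAlg N ℓ S) →+* LaurentSeries (ZMod ℓ) :=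
  (gaussRed ℓ).comp
    { toFun := fun a => ⟨((a : ↥(modularFunctionFieldFull N)) : LaurentSeries ℚ),
        chartAlg_le_gaussVal N ℓ S hS a.2⟩
      map_one' := rfl
      map_mul' := fun _ _ => rfl
      map_zero' := rfl
      map_add' := fun _ _ => rfl }

variable (T : ↥(modularFunctionFieldFull N)) (tT : LaurentSeries ℤ)
  {n : ℕ} (t : Fin n → LaurentSeries ℤ) (θ : Fin n → ↥(modularFunctionFieldFull N))

theorem mem_gaussVal_of_eq_iotaQ (hT : (T : LaurentSeries ℚ) = iotaQ tT) : T ∈ gaussVal N ℓ := by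
  rw [mem_gaussVal, hT]
  exact iotaQ_mem_gaussRing ℓ _

variable (htr : ∀ p : (ZMod ℓ)[X], p ≠ 0 → p.eval₂ HahnSeries.C (redL ℓ tT) ≠ 0)
  (hT : (T : LaurentSeries ℚ) = iotaQ tT)
  (hθ : ∀ i, (θ i : LaurentSeries ℚ) = iotaQ (t i))
  (hspan : ∀ z : ↥(modularFunctionFieldFull N), ∃ (b : ℤ[X]) (a : Fin n → ℤ[X]), b ≠ 0 ∧
    b.eval₂ (Int.castRingHom ↥(modularFunctionFieldFull N)) T * z =
      ∑ i, (a i).eval₂ (Int.castRingHom ↥(modularFunctionFieldFull N)) T * θ i)
  (hindep : ∀ a : Fin n → (ZMod ℓ)[X],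
    ∑ i, (a i).eval₂ HahnSeries.C (redL ℓ tT) * redL ℓ (t i) = 0 → ∀ i, a i = 0)

include htr hT hθ hspan hindep in
/-- The special fibre of the chart `Spec (integral closure of ℤ_(ℓ)[T])` is integral. -/
theorem isDomain_tensor_chartAlg (K : Type*) [Field K] [CharP K ℓ]
    [Algebra ↥(GaloisRep.ratLocalizedAt ℓ) K] :
    IsDomain (↥(chartAlg N ℓ {T}) ⊗[↥(GaloisRep.ratLocalizedAt ℓ)] K) := by
  have hS : ∀ s ∈ ({T} : Set ↥(modularFunctionFieldFull N)), s ∈ gaussVal N ℓ := by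
    intro s hs
    rw [Set.mem_singleton_iff.mp hs]
    exact mem_gaussVal_of_eq_iotaQ T tT hT
  refine isDomain_tensor_of_reduction ℓ (chartRed {T} hS) K ?_
  intro a ha
  obtain ⟨y, hy, hxy⟩ := qp_main T tT t θ htr hT hθ hspan hindep a.1 a.2
    (chartAlg_le_gaussVal N ℓ {T} hS a.2) ha
  refine ⟨⟨y, hy⟩, Subtype.ext ?_⟩
  push_cast
  exact hxy

end Generic

/-! ### Spanning from the degree bound and independence mod `ℓ` -/

section Span

variable {N : ℕ} [NeZero N] {ℓ : ℕ} [Fact ℓ.Prime]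
variable (T : ↥(modularFunctionFieldFull N)) (tT : LaurentSeries ℤ)
  {n : ℕ} (t : Fin n → LaurentSeries ℤ) (θ : Fin n → ↥(modularFunctionFieldFull N))

omit [NeZero N] [Fact ℓ.Prime] in
theorem exists_int_poly_aeval (r : ℚ[X]) : ∃ (d : ℤ) (r₀ : ℤ[X]), d ≠ 0 ∧
    (d : ↥(modularFunctionFieldFull N)) * aeval T r =
      r₀.eval₂ (Int.castRingHom ↥(modularFunctionFieldFull N)) T := by
  obtain ⟨d, hdm, hd⟩ := IsLocalization.integerNormalization_spec (nonZeroDivisors ℤ) r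
  refine ⟨d, IsLocalization.integerNormalization (nonZeroDivisors ℤ) r,
    mem_nonZeroDivisors_iff_ne_zero.mp hdm, ?_⟩
  have h5 := congrArg (fun q : ℚ[X] => aeval T q) hd
  simp only [aeval_def, eval₂_map, Algebra.smul_def, eval₂_mul] at h5
  have h6 : ((algebraMap ℚ ↥(modularFunctionFieldFull N)).comp (algebraMap ℤ ℚ)) =
      Int.castRingHom ↥(modularFunctionFieldFull N) := RingHom.ext_int _ _
  rw [h6] at h5
  rw [aeval_def, h5]
  congr 1
  rw [eq_intCast (algebraMap ℤ ℚ[X]) d, ← map_intCast (C : ℚ →+* ℚ[X]), eval₂_C, map_intCast]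

omit [NeZero N] [Fact ℓ.Prime] in
/-- Elements of `ℚ(T)` are quotients of integer polynomials in `T`. -/
theorem exists_int_frac (c : ↥(modularFunctionFieldFull N)) (hc : c ∈ ℚ⟮T⟯) :
    ∃ a b : ℤ[X], b ≠ 0 ∧ b.eval₂ (Int.castRingHom ↥(modularFunctionFieldFull N)) T * c =
      a.eval₂ (Int.castRingHom ↥(modularFunctionFieldFull N)) T := by
  obtain ⟨r, s, hrs⟩ := (IntermediateField.mem_adjoin_simple_iff ℚ c).mp hc
  by_cases hs : aeval T s = 0
  · refine ⟨0, 1, one_ne_zero, ?_⟩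
    rw [hrs, hs, div_zero, mul_zero, eval₂_zero]
  · obtain ⟨dr, r₀, hdr, hr₀⟩ := exists_int_poly_aeval T r
    obtain ⟨ds, s₀, hds, hs₀⟩ := exists_int_poly_aeval T s
    have hdsF : (ds : ↥(modularFunctionFieldFull N)) ≠ 0 := Int.cast_ne_zero.mpr hds
    have hs₀ne : s₀ ≠ 0 := by
      intro h0
      rw [h0, eval₂_zero] at hs₀
      exact (mul_ne_zero hdsF hs) hs₀
    refine ⟨C ds * r₀, C dr * s₀, mul_ne_zero (C_ne_zero.mpr hdr) hs₀ne, ?_⟩
    rw [eval₂_mul, eval₂_mul, eval₂_C, eval₂_C, eq_intCast, eq_intCast, ← hr₀, ← hs₀, hrs]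
    field_simp

omit [NeZero N] [Fact ℓ.Prime] in
/-- Common denominators. -/
theorem exists_common_denominator (c : Fin n → ↥(modularFunctionFieldFull N))
    (hc : ∀ i, c i ∈ ℚ⟮T⟯) :
    ∃ (b : ℤ[X]) (a : Fin n → ℤ[X]), b ≠ 0 ∧
      ∀ i, b.eval₂ (Int.castRingHom ↥(modularFunctionFieldFull N)) T * c i =
        (a i).eval₂ (Int.castRingHom ↥(modularFunctionFieldFull N)) T := by
  classical
  choose a b hb hab using fun i => exists_int_frac T (c i) (hc i)
  refine ⟨∏ k, b k, fun i => a i * ∏ k ∈ Finset.univ.erase i, b k,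
    Finset.prod_ne_zero_iff.mpr fun k _ => hb k, fun i => ?_⟩
  rw [← Finset.mul_prod_erase Finset.univ b (Finset.mem_univ i), eval₂_mul, eval₂_mul,
    mul_right_comm, hab i]

variable (htr : ∀ p : (ZMod ℓ)[X], p ≠ 0 → p.eval₂ HahnSeries.C (redL ℓ tT) ≠ 0)
  (hT : (T : LaurentSeries ℚ) = iotaQ tT)
  (hθ : ∀ i, (θ i : LaurentSeries ℚ) = iotaQ (t i))
  (hindep : ∀ a : Fin n → (ZMod ℓ)[X],
    ∑ i, (a i).eval₂ HahnSeries.C (redL ℓ tT) * redL ℓ (t i) = 0 → ∀ i, a i = 0)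

include hT hθ hindep in
omit [NeZero N] in
/-- Integral independence: the `θ_i` are independent over `ℤ[T]`. -/
theorem int_indep (a : Fin n → ℤ[X])
    (h : ∑ i, (a i).eval₂ (Int.castRingHom ↥(modularFunctionFieldFull N)) T * θ i = 0) :
    ∀ i, a i = 0 := by
  have hℓ : 2 ≤ ℓ := (Fact.out : ℓ.Prime).two_le
  by_contra hcon
  push Not at hcon
  obtain ⟨i₀, hi₀⟩ := hcon
  suffices H : ∀ k : ℕ, ∀ a : Fin n → ℤ[X], (a i₀).leadingCoeff.natAbs = k → a i₀ ≠ 0 →
      ∑ i, (a i).eval₂ (Int.castRingHom ↥(modularFunctionFieldFull N)) T * θ i = 0 → False from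
    H _ a rfl hi₀ h
  intro k
  induction k using Nat.strong_induction_on with
  | _ k ih =>
    intro a hk hi₀ h
    have h1 : iotaQ (∑ i, (a i).eval₂ (Int.castRingHom (LaurentSeries ℤ)) tT * t i) = 0 := by
      have := congrArg (fun w : ↥(modularFunctionFieldFull N) => (w : LaurentSeries ℚ)) h
      simp only [AddSubmonoidClass.coe_finsetSum, MulMemClass.coe_mul, ZeroMemClass.coe_zero]
        at this
      rw [map_sum, ← this]
      refine Finset.sum_congr rfl fun i _ => ?_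
      rw [coe_eval₂_T T tT hT, hθ i, map_mul]
    have h2 := iotaQ_eq_zero.mp h1
    have h3 := congrArg (redL ℓ) h2
    rw [map_sum, map_zero] at h3
    have h4 : ∀ i, (a i).map (Int.castRingHom (ZMod ℓ)) = 0 := by
      refine hindep (fun i => (a i).map (Int.castRingHom (ZMod ℓ))) ?_
      rw [← h3]
      refine Finset.sum_congr rfl fun i _ => ?_
      rw [map_mul, redL_eval₂_T]
    choose a' ha' using fun i => exists_eq_C_mul_of_map_eq_zero ℓ (h4 i)
    have hi₀' : a' i₀ ≠ 0 := fun h0 => hi₀ (by rw [ha' i₀, h0, mul_zero])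
    have hlc : (a i₀).leadingCoeff = (ℓ : ℤ) * (a' i₀).leadingCoeff := by
      rw [ha' i₀, leadingCoeff_mul, leadingCoeff_C]
    have hlt : (a' i₀).leadingCoeff.natAbs < k := by
      rw [← hk, hlc, Int.natAbs_mul, Int.natAbs_natCast]
      have : 0 < (a' i₀).leadingCoeff.natAbs :=
        Int.natAbs_pos.mpr (leadingCoeff_ne_zero.mpr hi₀')
      nlinarith
    have hℓF : ((ℓ : ℤ) : ↥(modularFunctionFieldFull N)) ≠ 0 := by
      simp only [Int.cast_natCast]
      exact Nat.cast_ne_zero.mpr (Fact.out : ℓ.Prime).ne_zero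
    refine ih _ hlt a' rfl hi₀' ?_
    apply mul_left_cancel₀ hℓF
    rw [mul_zero, ← h, Finset.mul_sum]
    refine Finset.sum_congr rfl fun i _ => ?_
    rw [ha' i, eval₂_mul, eval₂_C, eq_intCast, mul_assoc]

include htr hT hθ hindep in
omit [NeZero N] in
/-- The `θ_i` are linearly independent over `ℚ(T)`. -/
theorem linearIndependent_theta : LinearIndependent ↥ℚ⟮T⟯ θ := by
  rw [Fintype.linearIndependent_iff]
  intro g hg i
  obtain ⟨b, a, hb, hab⟩ := exists_common_denominator T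
    (fun i => ((g i : ↥ℚ⟮T⟯) : ↥(modularFunctionFieldFull N))) (fun i => (g i).2)
  have hbT := eval₂_T_ne_zero T tT htr hT hb
  have h1 : ∑ i, (a i).eval₂ (Int.castRingHom ↥(modularFunctionFieldFull N)) T * θ i = 0 := by
    have h2 : ∑ i, ((g i : ↥ℚ⟮T⟯) : ↥(modularFunctionFieldFull N)) * θ i = 0 := hg
    rw [← mul_zero (b.eval₂ (Int.castRingHom ↥(modularFunctionFieldFull N)) T), ← h2,
      Finset.mul_sum]
    refine Finset.sum_congr rfl fun i _ => ?_
    rw [← hab i, mul_assoc]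
  have h3 := int_indep T tT t θ hT hθ hindep a h1 i
  have h4 := hab i
  rw [h3, eval₂_zero] at h4
  have h5 := (mul_eq_zero.mp h4).resolve_left hbT
  exact Subtype.ext h5

include htr hT hθ hindep in
omit [NeZero N] in
/-- Spanning, from the degree bound. -/
theorem hspan_of_finrank
    (hfin : FiniteDimensional ↥ℚ⟮T⟯ ↥(modularFunctionFieldFull N) ∧
      Module.finrank ↥ℚ⟮T⟯ ↥(modularFunctionFieldFull N) ≤ n)
    (z : ↥(modularFunctionFieldFull N)) :
    ∃ (b : ℤ[X]) (a : Fin n → ℤ[X]), b ≠ 0 ∧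
      b.eval₂ (Int.castRingHom ↥(modularFunctionFieldFull N)) T * z =
        ∑ i, (a i).eval₂ (Int.castRingHom ↥(modularFunctionFieldFull N)) T * θ i := by
  obtain ⟨hfd, hrank⟩ := hfin
  have hli := linearIndependent_theta T tT t θ htr hT hθ hindep
  have hcard : Fintype.card (Fin n) = Module.finrank ↥ℚ⟮T⟯ ↥(modularFunctionFieldFull N) := by
    apply le_antisymm hli.fintype_card_le_finrank
    simpa using hrank
  have hsp := hli.span_eq_top_of_card_eq_finrank' hcard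
  have hz : z ∈ Submodule.span ↥ℚ⟮T⟯ (Set.range θ) := by rw [hsp]; exact Submodule.mem_top
  obtain ⟨c, hc⟩ := (Submodule.mem_span_range_iff_exists_fun _).mp hz
  obtain ⟨b, a, hb, hab⟩ := exists_common_denominator T
    (fun i => ((c i : ↥ℚ⟮T⟯) : ↥(modularFunctionFieldFull N))) (fun i => (c i).2)
  refine ⟨b, a, hb, ?_⟩
  have h2 : ∑ i, ((c i : ↥ℚ⟮T⟯) : ↥(modularFunctionFieldFull N)) * θ i = z := hc
  rw [← h2, Finset.mul_sum]
  refine Finset.sum_congr rfl fun i _ => ?_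
  rw [← hab i, mul_assoc]

end Span

/-! ### Transcendence of `j` mod `ℓ` -/

section Trans

variable (R : Type*) [CommRing R]

theorem eval₂_jqModC_ne_zero {p : R[X]} (hp : p ≠ 0) :
    p.eval₂ HahnSeries.C (jqModC R) ≠ 0 := by
  intro h0
  have h1 := congrArg (fun s : LaurentSeries R => s.coeff (-(p.natDegree : ℤ))) h0
  simp only [HahnSeries.coeff_zero] at h1
  rw [eval₂_eq_sum_range, HahnSeries.coeff_sum] at h1
  rw [Finset.sum_eq_single_of_mem p.natDegree (Finset.self_mem_range_succ _)] at h1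
  · rw [HahnSeries.C_mul_eq_smul, HahnSeries.coeff_smul, coeff_jqModC_pow_self, smul_eq_mul,
      mul_one] at h1
    exact hp (leadingCoeff_eq_zero.mp h1)
  · intro i hi hne
    have hlt : i < p.natDegree := lt_of_le_of_ne (Nat.lt_succ_iff.mp (Finset.mem_range.mp hi)) hne
    rw [HahnSeries.C_mul_eq_smul, HahnSeries.coeff_smul, coeff_jqModC_pow_of_lt R (by omega),
      smul_zero]

end Trans

/-! ### Inverting the parameter -/

section Invert

theorem eval₂_mul_pow_of_mul_eq_one {R S : Type*} [CommSemiring R] [CommRing S] (i : R →+* S)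
    {x x' : S} (h : x * x' = 1) (D : ℕ) (p : R[X]) (hp : p.natDegree ≤ D) :
    eval₂ i x' p * x ^ D = eval₂ i x (reflect D p) := by
  let _ : Invertible x' := ⟨x, h, by rw [mul_comm]; exact h⟩
  have h1 := eval₂_reflect_mul_pow i x' D p hp
  have h2 : (⅟x' : S) = x := rfl
  rw [h2] at h1
  rw [← h1, mul_assoc, ← mul_pow, mul_comm x' x, h, one_pow, mul_one]

variable {N : ℕ} [NeZero N] {ℓ : ℕ} [Fact ℓ.Prime]
variable (T : ↥(modularFunctionFieldFull N)) (tT tT' : LaurentSeries ℤ)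
  {n : ℕ} (t : Fin n → LaurentSeries ℤ) (θ : Fin n → ↥(modularFunctionFieldFull N))

omit [NeZero N] in
theorem coe_inv_eq_iotaQ (hT : (T : LaurentSeries ℚ) = iotaQ tT) (hinv : tT * tT' = 1) :
    ((T⁻¹ : ↥(modularFunctionFieldFull N)) : LaurentSeries ℚ) = iotaQ tT' := by
  push_cast
  apply inv_eq_of_mul_eq_one_right
  rw [hT, ← map_mul, hinv, map_one]

omit [NeZero N] in
theorem htr_inv (htr : ∀ p : (ZMod ℓ)[X], p ≠ 0 → p.eval₂ HahnSeries.C (redL ℓ tT) ≠ 0)
    (hinv : tT * tT' = 1) :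
    ∀ p : (ZMod ℓ)[X], p ≠ 0 → p.eval₂ HahnSeries.C (redL ℓ tT') ≠ 0 := by
  intro p hp h0
  have hinv' : redL ℓ tT * redL ℓ tT' = 1 := by rw [← map_mul, hinv, map_one]
  have h1 := eval₂_mul_pow_of_mul_eq_one (HahnSeries.C : ZMod ℓ →+* LaurentSeries (ZMod ℓ))
    hinv' p.natDegree p le_rfl
  rw [h0, zero_mul] at h1
  exact htr _ (reflect_eq_zero_iff.not.mpr hp) h1.symm

omit [NeZero N] in
theorem hindep_inv (hinv : tT * tT' = 1)
    (hindep : ∀ a : Fin n → (ZMod ℓ)[X],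
      ∑ i, (a i).eval₂ HahnSeries.C (redL ℓ tT) * redL ℓ (t i) = 0 → ∀ i, a i = 0) :
    ∀ a : Fin n → (ZMod ℓ)[X],
      ∑ i, (a i).eval₂ HahnSeries.C (redL ℓ tT') * redL ℓ (t i) = 0 → ∀ i, a i = 0 := by
  intro a ha i
  have hinv' : redL ℓ tT * redL ℓ tT' = 1 := by rw [← map_mul, hinv, map_one]
  set D := Finset.univ.sup (fun i => (a i).natDegree) with hD
  have hle : ∀ i, (a i).natDegree ≤ D := fun i =>
    Finset.le_sup (f := fun i => (a i).natDegree) (Finset.mem_univ i)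
  have h1 : ∑ i, (reflect D (a i)).eval₂ HahnSeries.C (redL ℓ tT) * redL ℓ (t i) = 0 := by
    have h2 : ∑ i, (reflect D (a i)).eval₂ HahnSeries.C (redL ℓ tT) * redL ℓ (t i) =
        (∑ i, (a i).eval₂ HahnSeries.C (redL ℓ tT') * redL ℓ (t i)) * redL ℓ tT ^ D := by
      rw [Finset.sum_mul]
      refine Finset.sum_congr rfl fun i _ => ?_
      rw [← eval₂_mul_pow_of_mul_eq_one (HahnSeries.C : ZMod ℓ →+* LaurentSeries (ZMod ℓ))
        hinv' D (a i) (hle i)]
      ring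
    rw [h2, ha, zero_mul]
  exact reflect_eq_zero_iff.mp (hindep (fun i => reflect D (a i)) h1 i)

omit [NeZero N] [Fact ℓ.Prime] in
theorem hspan_inv (hT0 : T ≠ 0)
    (hspan : ∀ z : ↥(modularFunctionFieldFull N), ∃ (b : ℤ[X]) (a : Fin n → ℤ[X]), b ≠ 0 ∧
      b.eval₂ (Int.castRingHom ↥(modularFunctionFieldFull N)) T * z =
        ∑ i, (a i).eval₂ (Int.castRingHom ↥(modularFunctionFieldFull N)) T * θ i) :
    ∀ z : ↥(modularFunctionFieldFull N), ∃ (b : ℤ[X]) (a : Fin n → ℤ[X]), b ≠ 0 ∧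
      b.eval₂ (Int.castRingHom ↥(modularFunctionFieldFull N)) T⁻¹ * z =
        ∑ i, (a i).eval₂ (Int.castRingHom ↥(modularFunctionFieldFull N)) T⁻¹ * θ i := by
  intro z
  obtain ⟨b, a, hb, hab⟩ := hspan z
  have hinv : T⁻¹ * T = 1 := inv_mul_cancel₀ hT0
  set D := max b.natDegree (Finset.univ.sup (fun i => (a i).natDegree)) with hD
  have hleb : b.natDegree ≤ D := le_max_left _ _
  have hle : ∀ i, (a i).natDegree ≤ D := fun i =>
    le_trans (Finset.le_sup (f := fun i => (a i).natDegree) (Finset.mem_univ i))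
      (le_max_right _ _)
  refine ⟨reflect D b, fun i => reflect D (a i), reflect_eq_zero_iff.not.mpr hb, ?_⟩
  rw [← eval₂_mul_pow_of_mul_eq_one (Int.castRingHom ↥(modularFunctionFieldFull N)) hinv D b hleb,
    mul_right_comm, hab, Finset.sum_mul]
  refine Finset.sum_congr rfl fun i _ => ?_
  rw [← eval₂_mul_pow_of_mul_eq_one (Int.castRingHom ↥(modularFunctionFieldFull N)) hinv D (a i)
    (hle i)]
  ring

/-- The integral `q`-expansion of `j⁻¹`. -/
def jInvZ : LaurentSeries ℤ :=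
  HahnSeries.single (1 : ℤ) 1 * HahnSeries.ofPowerSeries ℤ ℤ
    (PowerSeries.invOfUnit (jNum.map (Int.castRingHom ℤ)) 1)

theorem jqModC_mul_jInvZ : jqModC ℤ * jInvZ = 1 := by
  have h1 : (jNum.map (Int.castRingHom ℤ)) *
      PowerSeries.invOfUnit (jNum.map (Int.castRingHom ℤ)) 1 = 1 := by
    apply PowerSeries.mul_invOfUnit
    rw [← PowerSeries.coeff_zero_eq_constantCoeff_apply, PowerSeries.coeff_map,
      PowerSeries.coeff_zero_eq_constantCoeff_apply, constantCoeff_jNum]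
    simp
  rw [jqModC, jInvZ]
  calc HahnSeries.single (-1 : ℤ) (1 : ℤ) * HahnSeries.ofPowerSeries ℤ ℤ
          (jNum.map (Int.castRingHom ℤ)) * (HahnSeries.single (1 : ℤ) 1 *
          HahnSeries.ofPowerSeries ℤ ℤ (PowerSeries.invOfUnit (jNum.map (Int.castRingHom ℤ)) 1))
      = (HahnSeries.single (-1 : ℤ) (1 : ℤ) * HahnSeries.single (1 : ℤ) 1) *
          HahnSeries.ofPowerSeries ℤ ℤ ((jNum.map (Int.castRingHom ℤ)) *
            PowerSeries.invOfUnit (jNum.map (Int.castRingHom ℤ)) 1) := by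
        rw [map_mul]; ring
    _ = 1 := by
        rw [h1, HahnSeries.single_mul_single]
        simp

end Invert

/-! ### The modular input and the three charts -/

section Final

variable {N : ℕ} [NeZero N] {ℓ : ℕ} [Fact ℓ.Prime] {n : ℕ} (I : ModInput N ℓ n)

/-- The functions `θ_i`. -/
def ModInput.θ (i : Fin n) : ↥(modularFunctionFieldFull N) := ⟨iotaQ (I.t i), I.mem i⟩

omit [Fact ℓ.Prime] in
theorem coe_jFull_eq_iotaQ : ((jFull N : ↥(modularFunctionFieldFull N)) : LaurentSeries ℚ) =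
    iotaQ (jqModC ℤ) := by
  rw [coe_jFull, iotaQ_jqModC]

theorem htr_jq : ∀ p : (ZMod ℓ)[X], p ≠ 0 →
    p.eval₂ HahnSeries.C (redL ℓ (jqModC ℤ)) ≠ 0 := by
  intro p hp
  rw [redL_jqModC]
  exact eval₂_jqModC_ne_zero (ZMod ℓ) hp

theorem ModInput.indep' : ∀ a : Fin n → (ZMod ℓ)[X],
    ∑ i, (a i).eval₂ HahnSeries.C (redL ℓ (jqModC ℤ)) * redL ℓ (I.t i) = 0 → ∀ i, a i = 0 := by
  intro a ha
  rw [redL_jqModC] at ha
  exact I.indep a ha

theorem ModInput.hspan : ∀ z : ↥(modularFunctionFieldFull N),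
    ∃ (b : ℤ[X]) (a : Fin n → ℤ[X]), b ≠ 0 ∧
      b.eval₂ (Int.castRingHom ↥(modularFunctionFieldFull N)) (jFull N) * z =
        ∑ i, (a i).eval₂ (Int.castRingHom ↥(modularFunctionFieldFull N)) (jFull N) * I.θ i :=
  hspan_of_finrank (jFull N) (jqModC ℤ) I.t I.θ htr_jq coe_jFull_eq_iotaQ (fun _ => rfl)
    I.indep' I.finrank_le

include I in
/-- The special fibre of the chart `j ≠ ∞` is integral. -/
theorem isDomain_tensor_chartAlgFin (K : Type*) [Field K] [CharP K ℓ]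
    [Algebra ↥(GaloisRep.ratLocalizedAt ℓ) K] :
    IsDomain (↥(chartAlgFin N ℓ) ⊗[↥(GaloisRep.ratLocalizedAt ℓ)] K) :=
  isDomain_tensor_chartAlg (jFull N) (jqModC ℤ) I.t I.θ htr_jq coe_jFull_eq_iotaQ
    (fun _ => rfl) I.hspan I.indep' K

include I in
/-- The special fibre of the chart `j ≠ 0` is integral. -/
theorem isDomain_tensor_chartAlgInf (K : Type*) [Field K] [CharP K ℓ]
    [Algebra ↥(GaloisRep.ratLocalizedAt ℓ) K] :
    IsDomain (↥(chartAlgInf N ℓ) ⊗[↥(GaloisRep.ratLocalizedAt ℓ)] K) :=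
  isDomain_tensor_chartAlg (jFull N)⁻¹ jInvZ I.t I.θ
    (htr_inv (jqModC ℤ) jInvZ htr_jq jqModC_mul_jInvZ)
    (coe_inv_eq_iotaQ (jFull N) (jqModC ℤ) jInvZ coe_jFull_eq_iotaQ jqModC_mul_jInvZ)
    (fun _ => rfl)
    (hspan_inv (jFull N) I.θ (jFull_ne_zero N) I.hspan)
    (hindep_inv (jqModC ℤ) jInvZ I.t jqModC_mul_jInvZ I.indep') K

/-- The special fibre of the chart `j ≠ 0, ∞` is nonempty. -/
theorem nontrivial_tensor_chartAlgMid_aux (N ℓ : ℕ) [NeZero N] [Fact ℓ.Prime]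
    (K : Type*) [Field K] [CharP K ℓ] [Algebra ↥(GaloisRep.ratLocalizedAt ℓ) K] :
    Nontrivial (↥(chartAlgMid N ℓ) ⊗[↥(GaloisRep.ratLocalizedAt ℓ)] K) := by
  have hS : ∀ s ∈ ({jFull N, (jFull N)⁻¹} : Set ↥(modularFunctionFieldFull N)),
      s ∈ gaussVal N ℓ := by
    intro s hs
    rcases hs with rfl | hs
    · exact mem_gaussVal_of_eq_iotaQ _ (jqModC ℤ) coe_jFull_eq_iotaQ
    · rw [Set.mem_singleton_iff.mp hs]
      exact mem_gaussVal_of_eq_iotaQ _ jInvZ
        (coe_inv_eq_iotaQ (jFull N) (jqModC ℤ) jInvZ coe_jFull_eq_iotaQ jqModC_mul_jInvZ)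
  exact (tensorToLaurent ℓ (chartRed _ hS) K).toRingHom.domain_nontrivial

/-- The special fibre of the chart `j ≠ 0, ∞` is nonempty. -/
theorem nontrivial_tensor_chartAlgMid (_I : ModInput N ℓ n) (K : Type*) [Field K] [CharP K ℓ]
    [Algebra ↥(GaloisRep.ratLocalizedAt ℓ) K] :
    Nontrivial (↥(chartAlgMid N ℓ) ⊗[↥(GaloisRep.ratLocalizedAt ℓ)] K) :=
  nontrivial_tensor_chartAlgMid_aux N ℓ K

end Final

end

end Fermat.Agent.S28
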