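import Mathlib

set_option autoImplicit false

/-!
# Project S28, module [EIS]: a two-variable Eisenstein criterion "at `T = ∞`"

`P ∈ K[T][X]` monic in `X` such that the coefficient of `X ^ (ψ - 1)` has `T`-degree `n ≥ 1`,
every other coefficient has `T`-degree `< n`, and `P(X = 0) ≠ 0`, is irreducible.
(Outer variable: `X`; inner variable: `T`.)
-/

namespace Fermat.Agent.S28

open Polynomial

section swap

variable {R : Type*} [CommRing R]

/-- coefficients of the swapped bivariate polynomial -/
theorem eis_coeff_coeff_swap (p : Polynomial (Polynomial R)) (i k : ℕ) :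
    ((Polynomial.Bivariate.swap p).coeff i).coeff k = (p.coeff k).coeff i := by
  induction p using Polynomial.induction_on' with
  | add p q hp hq => simp only [map_add, coeff_add, hp, hq]
  | monomial n f =>
    induction f using Polynomial.induction_on' with
    | add f g hf hg => simp only [map_add, coeff_add, hf, hg]
    | monomial m r =>
      rw [Polynomial.Bivariate.swap_monomial_monomial]
      simp only [coeff_monomial]
      by_cases h1 : m = i <;> by_cases h2 : n = k <;> simp [h1, h2, coeff_monomial]

end swap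

section main

variable {K : Type*} [Field K]

/-- For `f` monic in `X` whose swap has positive `T`-degree, the top `T`-coefficient has
`X`-degree `< deg_X f`. -/
theorem eis_natDegree_leadingCoeff_swap_lt (f : Polynomial (Polynomial K)) (hf : f.Monic)
    (hm : 1 ≤ (Polynomial.Bivariate.swap f).natDegree) :
    (Polynomial.Bivariate.swap f).leadingCoeff.natDegree < f.natDegree := by
  have hne0 : Polynomial.Bivariate.swap f ≠ 0 := by
    intro h
    rw [h] at hm
    simp at hm
  have hne : (Polynomial.Bivariate.swap f).leadingCoeff ≠ 0 := leadingCoeff_ne_zero.mpr hne0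
  have hvan : ∀ k, f.natDegree ≤ k → ((Polynomial.Bivariate.swap f).leadingCoeff).coeff k = 0 := by
    intro k hk
    rw [leadingCoeff, eis_coeff_coeff_swap]
    rcases hk.eq_or_lt with rfl | hlt
    · rw [hf.coeff_natDegree, coeff_one]
      have : ¬ (Polynomial.Bivariate.swap f).natDegree = 0 := by omega
      simp [this]
    · rw [coeff_eq_zero_of_natDegree_lt hlt]
      simp
  by_contra hcon
  push Not at hcon
  have h := hvan _ hcon
  rw [coeff_natDegree] at h
  exact hne (leadingCoeff_eq_zero.mp h)

/-- If the swap of `f` has `T`-degree `0`, a divisor relation on the top coefficient forces `f`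
to be a unit or to vanish at `X = 0`. -/
theorem eis_natDegree_eq_zero_of_swap (f : Polynomial (Polynomial K))
    (hm : (Polynomial.Bivariate.swap f).natDegree = 0) {c : K} (hc : c ≠ 0) {m : ℕ}
    (hdvd : (Polynomial.Bivariate.swap f).leadingCoeff ∣ monomial m c) (h0 : f.coeff 0 ≠ 0) :
    f.natDegree = 0 := by
  obtain ⟨g₀, hg₀⟩ : ∃ g₀ : Polynomial K, Polynomial.Bivariate.swap f = C g₀ :=
    ⟨_, eq_C_of_natDegree_eq_zero hm⟩
  have hf : f = g₀.map C := by
    have h := congrArg Polynomial.Bivariate.swap hg₀
    rw [Polynomial.Bivariate.swap_swap_apply, Polynomial.Bivariate.swap_C] at h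
    exact h
  rw [hg₀, leadingCoeff_C] at hdvd
  have hmon : (monomial m c : Polynomial K) = C c * X ^ m := by
    rw [← C_mul_X_pow_eq_monomial]
  rw [hmon, (isUnit_C.mpr (isUnit_iff_ne_zero.mpr hc)).dvd_mul_left] at hdvd
  obtain ⟨j, -, hj⟩ := (dvd_prime_pow Polynomial.prime_X m).mp hdvd
  rcases Nat.eq_zero_or_pos j with rfl | hjpos
  · rw [pow_zero] at hj
    have hu : IsUnit g₀ := hj.symm.isUnit isUnit_one
    rw [hf, natDegree_map_eq_of_injective C_injective]
    exact natDegree_eq_zero_of_isUnit hu
  · exfalso
    apply h0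
    have hX : (X : Polynomial K) ∣ g₀ := (dvd_pow_self X hjpos.ne').trans hj.symm.dvd
    rw [hf, coeff_map, X_dvd_iff.mp hX, map_zero]

/-- **Two-variable Eisenstein criterion at `T = ∞`.**  Outer variable `X`, inner variable `T`. -/
theorem irreducible_of_top_coeff (P : Polynomial (Polynomial K)) (hP : P.Monic) {n : ℕ}
    (hn : 1 ≤ n) (hψ : 1 ≤ P.natDegree) (h1 : (P.coeff (P.natDegree - 1)).natDegree = n)
    (h2 : ∀ i, i ≠ P.natDegree - 1 → (P.coeff i).natDegree < n) (h0 : P.coeff 0 ≠ 0) :
    Irreducible P := by
  rw [hP.irreducible_iff_natDegree]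
  refine ⟨fun h => by rw [h] at hψ; simp at hψ, ?_⟩
  intro f g hf hg hfg
  set ψ := P.natDegree with hψdef
  set c : K := (P.coeff (ψ - 1)).leadingCoeff with hcdef
  have hc : c ≠ 0 := by
    rw [hcdef, leadingCoeff_ne_zero]
    intro h
    rw [h] at h1
    simp at h1
    omega
  -- the `T ^ n`-coefficient of `P`
  have hcoeffn : (Polynomial.Bivariate.swap P).coeff n = monomial (ψ - 1) c := by
    ext k
    rw [eis_coeff_coeff_swap, coeff_monomial]
    by_cases hk : ψ - 1 = k
    · subst hk
      rw [if_pos rfl, hcdef, leadingCoeff, h1]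
    · rw [if_neg hk]
      exact coeff_eq_zero_of_natDegree_lt (h2 k (Ne.symm hk))
  have hcoeffgt : ∀ i, n < i → (Polynomial.Bivariate.swap P).coeff i = 0 := by
    intro i hi
    ext k
    rw [eis_coeff_coeff_swap, coeff_zero]
    apply coeff_eq_zero_of_natDegree_lt
    by_cases hk : k = ψ - 1
    · rw [hk, h1]; exact hi
    · exact (h2 k hk).trans hi
  have hmonne : (monomial (ψ - 1) c : Polynomial K) ≠ 0 := by
    rw [Ne, monomial_eq_zero_iff]
    exact hc
  have hdeg : (Polynomial.Bivariate.swap P).natDegree = n := by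
    apply le_antisymm
    · rw [natDegree_le_iff_coeff_eq_zero]
      exact hcoeffgt
    · apply le_natDegree_of_ne_zero
      rw [hcoeffn]
      exact hmonne
  have hlc : (Polynomial.Bivariate.swap P).leadingCoeff = monomial (ψ - 1) c := by
    rw [leadingCoeff, hdeg, hcoeffn]
  have hmul : Polynomial.Bivariate.swap f * Polynomial.Bivariate.swap g =
      Polynomial.Bivariate.swap P := by
    rw [← map_mul, hfg]
  have hlcmul : (Polynomial.Bivariate.swap f).leadingCoeff *
      (Polynomial.Bivariate.swap g).leadingCoeff = monomial (ψ - 1) c := by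
    rw [← leadingCoeff_mul, hmul, hlc]
  have hf0 : f.coeff 0 ≠ 0 := by
    intro h
    apply h0
    rw [← hfg, mul_coeff_zero, h, zero_mul]
  have hg0 : g.coeff 0 ≠ 0 := by
    intro h
    apply h0
    rw [← hfg, mul_coeff_zero, h, mul_zero]
  by_cases hfm : (Polynomial.Bivariate.swap f).natDegree = 0
  · left
    exact eis_natDegree_eq_zero_of_swap f hfm hc (Dvd.intro _ hlcmul) hf0
  by_cases hgm : (Polynomial.Bivariate.swap g).natDegree = 0
  · right
    exact eis_natDegree_eq_zero_of_swap g hgm hc (Dvd.intro_left _ hlcmul) hg0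
  exfalso
  have hfl := eis_natDegree_leadingCoeff_swap_lt f hf (Nat.one_le_iff_ne_zero.mpr hfm)
  have hgl := eis_natDegree_leadingCoeff_swap_lt g hg (Nat.one_le_iff_ne_zero.mpr hgm)
  have hfne : (Polynomial.Bivariate.swap f).leadingCoeff ≠ 0 := by
    intro h
    rw [h, zero_mul] at hlcmul
    exact hmonne hlcmul.symm
  have hgne : (Polynomial.Bivariate.swap g).leadingCoeff ≠ 0 := by
    intro h
    rw [h, mul_zero] at hlcmul
    exact hmonne hlcmul.symm
  have hsum := congrArg natDegree hlcmul
  rw [natDegree_mul hfne hgne, natDegree_monomial_eq (ψ - 1) hc] at hsum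
  have hfg' := congrArg natDegree hfg
  rw [hf.natDegree_mul hg] at hfg'
  omega

end main

end Fermat.Agent.S28
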