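import Mathlib
import Fermat.Agent.S28.Defs

/-!
# S28: `OO ℓ ∩ ℚ ⊆ ℤ_(ℓ)`
-/

set_option autoImplicit false

namespace Fermat.Agent.S28

/-- A rational number lying in `OO ℓ` has denominator prime to `ℓ`. -/
theorem mem_ratLocalizedAt_of_mem_OO {ℓ : ℕ} [Fact ℓ.Prime] (a : ℚ) (h : (a : ℂ) ∈ OO ℓ) :
    a ∈ GaloisRep.ratLocalizedAt ℓ := by
  obtain ⟨d, hd, hd0, hint⟩ := h
  have e : ((d : ℂ) * (a : ℂ)) = algebraMap ℚ ℂ ((d : ℚ) * a) := by
    simp
  rw [e, isIntegral_algebraMap_iff (algebraMap ℚ ℂ).injective] at hint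
  obtain ⟨n, hn⟩ := IsIntegrallyClosed.isIntegral_iff.mp hint
  have hdQ : (d : ℚ) ≠ 0 := by exact_mod_cast hd0
  have ha : a = (n : ℚ) / ((d : ℤ) : ℚ) := by
    have hn' : (n : ℚ) = (d : ℚ) * a := by simpa using hn
    rw [hn']
    push_cast
    field_simp
  have hden : (a.den : ℤ) ∣ (d : ℤ) := by
    rw [ha, ← Rat.divInt_eq_div]
    exact Rat.den_dvd n d
  have hden' : a.den ∣ d := by exact_mod_cast hden
  show a.den.Coprime ℓ
  exact Nat.Coprime.coprime_dvd_left hden' hd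

end Fermat.Agent.S28
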