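import Mathlib
import Fermat.Prelude.Def_ModularCurve_IgusaScheme
import Fermat.Agent.S28.Gauss
import Fermat.Agent.S28.Tensor

set_option autoImplicit false

/-!
# Project S28, module [Red]: the residue map of `ℤ_(ℓ)` and reduction of relations
-/

namespace Fermat.Agent.S28

open ModularCurve Polynomial

noncomputable section

variable (ℓ : ℕ) [Fact ℓ.Prime]

theorem den_ne_zero_of_mem_ratLoc (r : ↥(GaloisRep.ratLocalizedAt ℓ)) :
    (((r : ℚ).den : ℕ) : ZMod ℓ) ≠ 0 := by
  have hcop : (r : ℚ).den.Coprime ℓ := r.2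
  intro h0
  rw [ZMod.natCast_eq_zero_iff] at h0
  have := Nat.Coprime.eq_one_of_dvd hcop.symm h0
  exact (Fact.out : ℓ.Prime).one_lt.ne' this

/-- The residue map `ℤ_(ℓ) → 𝔽_ℓ`. -/
def resZl : ↥(GaloisRep.ratLocalizedAt ℓ) →+* ZMod ℓ where
  toFun r := ((r : ℚ) : ZMod ℓ)
  map_one' := by simp
  map_mul' x y := by
    change (((x : ℚ) * (y : ℚ) : ℚ) : ZMod ℓ) = _
    exact Rat.cast_mul_of_ne_zero (den_ne_zero_of_mem_ratLoc ℓ x) (den_ne_zero_of_mem_ratLoc ℓ y)
  map_zero' := by simp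
  map_add' x y := by
    change (((x : ℚ) + (y : ℚ) : ℚ) : ZMod ℓ) = _
    exact Rat.cast_add_of_ne_zero (den_ne_zero_of_mem_ratLoc ℓ x) (den_ne_zero_of_mem_ratLoc ℓ y)

theorem resZl_apply (r : ↥(GaloisRep.ratLocalizedAt ℓ)) : resZl ℓ r = ((r : ℚ) : ZMod ℓ) := rfl

/-- Constants of `ℤ_(ℓ)` lie in the Gauss ring. -/
theorem C_ratLoc_mem_gaussRing (r : ↥(GaloisRep.ratLocalizedAt ℓ)) :
    (HahnSeries.C (r : ℚ) : LaurentSeries ℚ) ∈ gaussRing ℓ := by
  refine ⟨HahnSeries.C (r : ℚ).num, HahnSeries.C ((r : ℚ).den : ℤ), ?_, ?_⟩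
  · rw [redL_C]
    apply HahnSeries.C_ne_zero
    have h2 : ((((r : ℚ).den : ℕ) : ℤ) : ZMod ℓ) = (((r : ℚ).den : ℕ) : ZMod ℓ) := by
      push_cast; rfl
    rw [h2]
    exact den_ne_zero_of_mem_ratLoc ℓ r
  · rw [iotaQ_C, iotaQ_C, ← map_mul]
    congr 1
    push_cast
    exact Rat.mul_den_eq_num (r : ℚ)

/-- Constants, as a ring homomorphism `ℤ_(ℓ) → gaussRing ℓ`. -/
def constGauss : ↥(GaloisRep.ratLocalizedAt ℓ) →+* ↥(gaussRing ℓ) where
  toFun r := ⟨HahnSeries.C (r : ℚ), C_ratLoc_mem_gaussRing ℓ r⟩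
  map_one' := Subtype.ext (by simp)
  map_mul' x y := Subtype.ext
    (map_mul (HahnSeries.C : ℚ →+* LaurentSeries ℚ) (x : ℚ) (y : ℚ))
  map_zero' := Subtype.ext (by simp)
  map_add' x y := Subtype.ext
    (map_add (HahnSeries.C : ℚ →+* LaurentSeries ℚ) (x : ℚ) (y : ℚ))

/-- Reduction of a relation `χ(j, x) = 0` with `ℓ`-integral coefficients. -/
theorem red_relation (χ : Polynomial (Polynomial ↥(GaloisRep.ratLocalizedAt ℓ)))
    (xZ : LaurentSeries ℤ)
    (h : χ.eval₂ (Polynomial.eval₂RingHom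
        (HahnSeries.C.comp (algebraMap ↥(GaloisRep.ratLocalizedAt ℓ) ℚ)) jq) (iotaQ xZ) = 0) :
    (χ.map (Polynomial.mapRingHom (resZl ℓ))).eval₂
      (Polynomial.eval₂RingHom HahnSeries.C (jqModC (ZMod ℓ))) (redL ℓ xZ) = 0 := by
  -- the evaluation inside the Gauss ring
  let jG : ↥(gaussRing ℓ) := ⟨iotaQ (jqModC ℤ), iotaQ_mem_gaussRing ℓ _⟩
  let xG : ↥(gaussRing ℓ) := ⟨iotaQ xZ, iotaQ_mem_gaussRing ℓ _⟩
  let ev : Polynomial (Polynomial ↥(GaloisRep.ratLocalizedAt ℓ)) →+* ↥(gaussRing ℓ) :=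
    Polynomial.eval₂RingHom (Polynomial.eval₂RingHom (constGauss ℓ) jG) xG
  -- its composition with the inclusion is the given evaluation
  have h1 : ((gaussRing ℓ).subtype.comp ev) = Polynomial.eval₂RingHom (Polynomial.eval₂RingHom
      (HahnSeries.C.comp (algebraMap ↥(GaloisRep.ratLocalizedAt ℓ) ℚ)) jq) (iotaQ xZ) := by
    apply Polynomial.ringHom_ext
    · intro p
      simp only [ev, RingHom.comp_apply, Polynomial.coe_eval₂RingHom, Polynomial.eval₂_C]
      induction p using Polynomial.induction_on' with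
      | add p q hp hq => simp only [Polynomial.eval₂_add, map_add, hp, hq]
      | monomial k a =>
        simp only [Polynomial.eval₂_monomial, map_mul, map_pow]
        congr 1
        · rw [← iotaQ_jqModC]
          rfl
    · simp only [ev, RingHom.comp_apply, Polynomial.coe_eval₂RingHom, Polynomial.eval₂_X]
      rfl
  have h2 : ev χ = 0 := by
    apply Subtype.ext
    have := RingHom.congr_fun h1 χ
    rw [RingHom.comp_apply] at this
    change ((ev χ : ↥(gaussRing ℓ)) : LaurentSeries ℚ) = 0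
    rw [show ((ev χ : ↥(gaussRing ℓ)) : LaurentSeries ℚ) = (gaussRing ℓ).subtype (ev χ) from rfl,
      this]
    exact h
  -- apply the reduction map
  have h3 : ((gaussRed ℓ).comp ev) = (Polynomial.eval₂RingHom
      (Polynomial.eval₂RingHom HahnSeries.C (jqModC (ZMod ℓ))) (redL ℓ xZ)).comp
      (Polynomial.mapRingHom (Polynomial.mapRingHom (resZl ℓ))) := by
    have hc : (gaussRed ℓ).comp (constGauss ℓ) = (HahnSeries.C : ZMod ℓ →+* _).comp (resZl ℓ) :=
      ratLoc_ringHom_ext ℓ _ _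
    have hj : gaussRed ℓ jG = jqModC (ZMod ℓ) := by
      rw [gaussRed_iotaQ, redL_jqModC]
    have hx : gaussRed ℓ xG = redL ℓ xZ := gaussRed_iotaQ ℓ xZ
    apply Polynomial.ringHom_ext
    · intro p
      simp only [ev, RingHom.comp_apply, Polynomial.coe_eval₂RingHom, Polynomial.eval₂_C,
        Polynomial.coe_mapRingHom, Polynomial.map_C]
      induction p using Polynomial.induction_on' with
      | add p q hp hq => simp only [Polynomial.eval₂_add, map_add, Polynomial.map_add, hp, hq]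
      | monomial k a =>
        simp only [Polynomial.eval₂_monomial, map_mul, map_pow, Polynomial.map_monomial, hj]
        congr 1
        exact RingHom.congr_fun hc a
    · simp only [ev, RingHom.comp_apply, Polynomial.coe_eval₂RingHom, Polynomial.eval₂_X,
        Polynomial.coe_mapRingHom, Polynomial.map_X, hx]
  have h4 := RingHom.congr_fun h3 χ
  rw [RingHom.comp_apply, h2, map_zero, RingHom.comp_apply] at h4
  exact h4.symm

end

end Fermat.Agent.S28
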