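import Mathlib
import Fermat.Agent.S28.Interface
import Fermat.Agent.S28.OOrat
import Fermat.Agent.S28.Red
import Fermat.Agent.S28.Eisenstein
import Fermat.Agent.S24.Bridge
import Fermat.Agent.S24.LinDisj

/-!
# S28, leaf L2 (DESCENT): from the analytic characteristic polynomial to `ModInput`

* `descent_eq_zero_of_natDegree_lt` : a monic irreducible bivariate relation `P(j, x) = 0`
  (`j` transcendental) has no nontrivial relation of smaller degree in `x`;
* `descent_coeff_lifts` : such a `P` is defined over any subfield over which *some* nontrivial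
  relation of no larger degree exists;
* `descent_exists_lift` : descent of the coefficients to `ℤ_(ℓ)`;
* `nonempty_modInput_of_unitData` : the main statement.
-/

set_option autoImplicit false

namespace Fermat.Agent.S28

open ModularCurve Polynomial IntermediateField
open Fermat.Agent

noncomputable section

/-! ### No relation of smaller degree -/

/-- If `P ∈ k[T][X]` is monic irreducible with `P(j, x) = 0`, `j` transcendental over `k`, then
every `B ∈ k[T][X]` of smaller `X`-degree with `B(j, x) = 0` vanishes. -/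
theorem descent_eq_zero_of_natDegree_lt {k L : Type*} [Field k] [Field L] (f : k →+* L) (j x : L)
    (hj : ∀ p : k[X], p.eval₂ f j = 0 → p = 0)
    (P : k[X][X]) (hP : P.Monic) (hirr : Irreducible P)
    (hroot : P.eval₂ (Polynomial.eval₂RingHom f j) x = 0)
    (B : k[X][X]) (hB : B.natDegree < P.natDegree)
    (hBroot : B.eval₂ (Polynomial.eval₂RingHom f j) x = 0) : B = 0 := by
  classical
  have hθinj : Function.Injective (Polynomial.eval₂RingHom f j) := by
    rw [injective_iff_map_eq_zero]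
    intro p hp
    exact hj p hp
  have hφ : (IsFractionRing.lift (K := FractionRing k[X]) hθinj).comp
      (algebraMap k[X] (FractionRing k[X])) = Polynomial.eval₂RingHom f j :=
    RingHom.ext fun p => IsFractionRing.lift_algebraMap hθinj p
  have hirr' : Irreducible (P.map (algebraMap k[X] (FractionRing k[X]))) :=
    (Polynomial.Monic.irreducible_iff_irreducible_map_fraction_map hP).mp hirr
  have hev : ∀ A : k[X][X], (A.map (algebraMap k[X] (FractionRing k[X]))).eval₂
      (IsFractionRing.lift (K := FractionRing k[X]) hθinj) x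
        = A.eval₂ (Polynomial.eval₂RingHom f j) x := by
    intro A
    rw [Polynomial.eval₂_map, hφ]
  rcases EuclideanDomain.dvd_or_coprime _ (B.map (algebraMap k[X] (FractionRing k[X]))) hirr'
    with hdvd | hcop
  · by_contra hB0
    have hB0' : B.map (algebraMap k[X] (FractionRing k[X])) ≠ 0 := by
      rwa [Ne, Polynomial.map_eq_zero_iff (IsFractionRing.injective k[X] (FractionRing k[X]))]
    have h1 := Polynomial.natDegree_le_of_dvd hdvd hB0'
    rw [hP.natDegree_map] at h1
    have h2 := Polynomial.natDegree_map_le (f := algebraMap k[X] (FractionRing k[X])) (p := B)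
    omega
  · exfalso
    obtain ⟨u, v, huv⟩ := hcop
    have h := congrArg (Polynomial.eval₂ (IsFractionRing.lift (K := FractionRing k[X]) hθinj) x) huv
    rw [Polynomial.eval₂_add, Polynomial.eval₂_mul, Polynomial.eval₂_mul, hev, hev, hroot, hBroot,
      mul_zero, mul_zero, add_zero, Polynomial.eval₂_one] at h
    exact zero_ne_one h

/-! ### Descent of the field of definition -/

/-- If `P ∈ k'[T][X]` is monic irreducible with `P(j, x) = 0` and there is a nontrivial relation
`Q₀` with coefficients in the subfield `k`, of `X`-degree at most that of `P`, then all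
coefficients of `P` are defined over `k`. -/
theorem descent_coeff_lifts {k k' L : Type*} [Field k] [Field k'] [Field L] (φ : k →+* k')
    (f : k' →+* L) (j x : L) (hj : ∀ p : k'[X], p.eval₂ f j = 0 → p = 0)
    (P : k'[X][X]) (hP : P.Monic) (hirr : Irreducible P)
    (hroot : P.eval₂ (Polynomial.eval₂RingHom f j) x = 0)
    (Q₀ : k[X][X]) (hQ₀ : Q₀ ≠ 0) (hdeg : Q₀.natDegree ≤ P.natDegree)
    (hQroot : (Q₀.map (Polynomial.mapRingHom φ)).eval₂ (Polynomial.eval₂RingHom f j) x = 0)
    (i : ℕ) : ∃ r : k[X], r.map φ = P.coeff i := by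
  classical
  have hΦinj : Function.Injective (Polynomial.mapRingHom φ) := Polynomial.map_injective φ φ.injective
  have hQ'0 : Q₀.map (Polynomial.mapRingHom φ) ≠ 0 := by
    rwa [Ne, Polynomial.map_eq_zero_iff hΦinj]
  have hQ'deg : (Q₀.map (Polynomial.mapRingHom φ)).natDegree = Q₀.natDegree :=
    Polynomial.natDegree_map_eq_of_injective hΦinj _
  have hdegeq : (Q₀.map (Polynomial.mapRingHom φ)).natDegree = P.natDegree := by
    by_contra hne
    exact hQ'0 (descent_eq_zero_of_natDegree_lt f j x hj P hP hirr hroot _ (by omega) hQroot)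
  have hl0 : Q₀.leadingCoeff ≠ 0 := Polynomial.leadingCoeff_ne_zero.mpr hQ₀
  have hl0' : Polynomial.mapRingHom φ Q₀.leadingCoeff ≠ 0 := by
    rwa [Ne, map_eq_zero_iff _ hΦinj]
  have hlc : (Q₀.map (Polynomial.mapRingHom φ)).leadingCoeff
      = Polynomial.mapRingHom φ Q₀.leadingCoeff :=
    Polynomial.leadingCoeff_map_of_injective hΦinj _
  have hB : Q₀.map (Polynomial.mapRingHom φ)
      - C (Polynomial.mapRingHom φ Q₀.leadingCoeff) * P = 0 := by
    by_contra hB0
    have hlt : (Q₀.map (Polynomial.mapRingHom φ)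
        - C (Polynomial.mapRingHom φ Q₀.leadingCoeff) * P).degree
          < (Q₀.map (Polynomial.mapRingHom φ)).degree := by
      apply Polynomial.degree_sub_lt_left
      · rw [Polynomial.degree_C_mul hl0', Polynomial.degree_eq_natDegree hQ'0,
          Polynomial.degree_eq_natDegree hP.ne_zero, hdegeq]
      · exact hQ'0
      · rw [Polynomial.leadingCoeff_mul, Polynomial.leadingCoeff_C, hP.leadingCoeff, mul_one, hlc]
    have hnat : (Q₀.map (Polynomial.mapRingHom φ)
        - C (Polynomial.mapRingHom φ Q₀.leadingCoeff) * P).natDegree < P.natDegree := by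
      rw [← hdegeq]
      exact Polynomial.natDegree_lt_natDegree hB0 hlt
    apply hB0
    apply descent_eq_zero_of_natDegree_lt f j x hj P hP hirr hroot _ hnat
    rw [Polynomial.eval₂_sub, Polynomial.eval₂_mul, hroot, mul_zero, sub_zero, hQroot]
  have hcoeff : Polynomial.mapRingHom φ (Q₀.coeff i)
      = Polynomial.mapRingHom φ Q₀.leadingCoeff * P.coeff i := by
    have h := congrArg (fun A => A.coeff i) (sub_eq_zero.mp hB)
    simp only [Polynomial.coeff_C_mul] at h
    rw [← h, Polynomial.coeff_map]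
  have hdvd : Q₀.leadingCoeff ∣ Q₀.coeff i := by
    rw [← Polynomial.map_dvd_map' φ]
    exact Dvd.intro _ hcoeff.symm
  obtain ⟨r, hr⟩ := hdvd
  refine ⟨r, ?_⟩
  apply mul_left_cancel₀ hl0'
  rw [← hcoeff, hr, map_mul]
  rfl

/-! ### Descent to `ℤ_(ℓ)` -/

/-- A bivariate complex polynomial with rational coefficients lying in `OO ℓ` comes from
`ℤ_(ℓ)[T][X]`. -/
theorem descent_exists_lift {ℓ : ℕ} [Fact ℓ.Prime] (P : ℂ[X][X])
    (hrat : ∀ i, ∃ r : ℚ[X], r.map (algebraMap ℚ ℂ) = P.coeff i)
    (hOO : ∀ i j, (P.coeff i).coeff j ∈ OO ℓ) :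
    ∃ χ : Polynomial (Polynomial ↥(GaloisRep.ratLocalizedAt ℓ)),
      χ.map (Polynomial.mapRingHom
        ((algebraMap ℚ ℂ).comp (algebraMap ↥(GaloisRep.ratLocalizedAt ℓ) ℚ))) = P := by
  rw [← Polynomial.mem_lifts, Polynomial.lifts_iff_coeff_lifts]
  intro i
  obtain ⟨r, hr⟩ := hrat i
  have hmem : P.coeff i ∈ Polynomial.lifts
      ((algebraMap ℚ ℂ).comp (algebraMap ↥(GaloisRep.ratLocalizedAt ℓ) ℚ)) := by
    rw [Polynomial.lifts_iff_coeff_lifts]
    intro j
    have h1 : (P.coeff i).coeff j = algebraMap ℚ ℂ (r.coeff j) := by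
      rw [← hr, Polynomial.coeff_map]
    have h2 : r.coeff j ∈ GaloisRep.ratLocalizedAt ℓ := by
      apply mem_ratLocalizedAt_of_mem_OO
      have := hOO i j
      rw [h1] at this
      exact this
    exact ⟨⟨r.coeff j, h2⟩, h1.symm⟩
  obtain ⟨s, hs⟩ := (Polynomial.mem_lifts _).mp hmem
  exact ⟨s, hs⟩

/-! ### Transcendence of `j` in the form needed here -/

theorem descent_jq_transc (k : Type*) [Field k] (p : k[X])
    (h : p.eval₂ HahnSeries.C (jqModC k) = 0) : p = 0 := by
  by_contra hp
  apply S24.aeval_jqModC_ne_zero hp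
  rw [Polynomial.aeval_def]
  have e : (algebraMap k (LaurentSeries k)) = HahnSeries.C := by
    refine RingHom.ext fun c => ?_
    rw [algebraMap_laurentSeries_eq_single]
    rfl
  rw [e]
  exact h

theorem descent_coeffMap_injective {R S : Type*} [CommRing R] [CommRing S] (f : R →+* S)
    (hf : Function.Injective f) : Function.Injective (coeffMap f) := by
  intro x y h
  ext k
  have := congrArg (fun z => z.coeff k) h
  simp only [coeffMap_coeff] at this
  exact hf this

/-! ### The main statement -/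

theorem nonempty_modInput_of_unitData {N ℓ : ℕ} [NeZero N] [Fact ℓ.Prime] (D : UnitData N ℓ) :
    Nonempty (ModInput N ℓ D.P.natDegree) := by
  classical
  -- Step 1: irreducibility over `ℂ`
  have hP0 : D.P.coeff 0 ≠ 0 := by
    rw [D.const]
    exact Polynomial.C_ne_zero.mpr D.hc
  have hirr : Irreducible D.P :=
    irreducible_of_top_coeff D.P D.monic D.hm D.hdeg D.top D.low hP0
  have hjC : ∀ p : ℂ[X], p.eval₂ HahnSeries.C (jqModC ℂ) = 0 → p = 0 := descent_jq_transc ℂ
  -- Step 2: a rational relation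
  have e1 : coeffMap (algebraMap ℚ ℂ) jq = jqModC ℂ := by
    rw [← jqModC_rat]
    exact map_jqModC _
  have e2 : coeffMap (algebraMap ℚ ℂ) (iotaQ D.xZ) = iotaC D.xZ := by
    rw [iotaQ, iotaC, coeffMap_coeffMap]
    exact coeffMap_congr (RingHom.ext_int _ _) _
  have hroot' : D.P.eval₂ (Polynomial.eval₂RingHom HahnSeries.C (coeffMap (algebraMap ℚ ℂ) jq))
      (coeffMap (algebraMap ℚ ℂ) (iotaQ D.xZ)) = 0 := by
    rw [e1, e2]
    exact D.root
  obtain ⟨Q₀, hQ₀, hQdeg, hQroot⟩ :=
    S24.ld_bivariate (algebraMap ℚ ℂ) jq (iotaQ D.xZ) D.P D.monic.ne_zero hroot'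
  have hcompQ : (coeffMap (algebraMap ℚ ℂ)).comp (Polynomial.eval₂RingHom HahnSeries.C jq)
      = (Polynomial.eval₂RingHom HahnSeries.C (jqModC ℂ)).comp
          (Polynomial.mapRingHom (algebraMap ℚ ℂ)) := by
    refine Polynomial.ringHom_ext (fun c => ?_) ?_
    · simp
    · simp [e1]
  have hQroot' : (Q₀.map (Polynomial.mapRingHom (algebraMap ℚ ℂ))).eval₂
      (Polynomial.eval₂RingHom HahnSeries.C (jqModC ℂ)) (iotaC D.xZ) = 0 := by
    have h := congrArg (coeffMap (algebraMap ℚ ℂ)) hQroot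
    rw [map_zero, Polynomial.hom_eval₂, e2, hcompQ] at h
    rw [Polynomial.eval₂_map]
    exact h
  have hrat : ∀ i, ∃ r : ℚ[X], r.map (algebraMap ℚ ℂ) = D.P.coeff i :=
    descent_coeff_lifts (algebraMap ℚ ℂ) HahnSeries.C (jqModC ℂ) (iotaC D.xZ) hjC D.P D.monic hirr
      D.root Q₀ hQ₀ hQdeg hQroot'
  -- Step 3: descent to `ℤ_(ℓ)`
  obtain ⟨χ, hχ⟩ := descent_exists_lift D.P hrat D.coeff_mem
  have hψinj : Function.Injective
      ((algebraMap ℚ ℂ).comp (algebraMap ↥(GaloisRep.ratLocalizedAt ℓ) ℚ)) :=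
    (algebraMap ℚ ℂ).injective.comp Subtype.val_injective
  have hΨinj : Function.Injective (Polynomial.mapRingHom
      ((algebraMap ℚ ℂ).comp (algebraMap ↥(GaloisRep.ratLocalizedAt ℓ) ℚ))) :=
    Polynomial.map_injective _ hψinj
  have hχmonic : χ.Monic := Polynomial.monic_of_injective hΨinj (by rw [hχ]; exact D.monic)
  have hχdeg : χ.natDegree = D.P.natDegree := by
    rw [← hχ, Polynomial.natDegree_map_eq_of_injective hΨinj]
  have hcoeff : ∀ i, (χ.coeff i).map
      ((algebraMap ℚ ℂ).comp (algebraMap ↥(GaloisRep.ratLocalizedAt ℓ) ℚ)) = D.P.coeff i := by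
    intro i
    rw [← hχ, Polynomial.coeff_map]
    rfl
  have hcoeffdeg : ∀ i, (χ.coeff i).natDegree = (D.P.coeff i).natDegree := by
    intro i
    rw [← hcoeff, Polynomial.natDegree_map_eq_of_injective hψinj]
  have hcc : ∀ i j, ((algebraMap ℚ ℂ).comp (algebraMap ↥(GaloisRep.ratLocalizedAt ℓ) ℚ))
      ((χ.coeff i).coeff j) = (D.P.coeff i).coeff j := by
    intro i j
    rw [← hcoeff, Polynomial.coeff_map]
  -- Step 4: the relation over `ℚ` for `χ`, and its reduction
  have hcompZ : (coeffMap (algebraMap ℚ ℂ)).comp (Polynomial.eval₂RingHom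
        (HahnSeries.C.comp (algebraMap ↥(GaloisRep.ratLocalizedAt ℓ) ℚ)) jq)
      = (Polynomial.eval₂RingHom HahnSeries.C (jqModC ℂ)).comp (Polynomial.mapRingHom
          ((algebraMap ℚ ℂ).comp (algebraMap ↥(GaloisRep.ratLocalizedAt ℓ) ℚ))) := by
    refine Polynomial.ringHom_ext (fun c => ?_) ?_
    · simp
    · simp [e1]
  have hχroot : χ.eval₂ (Polynomial.eval₂RingHom
      (HahnSeries.C.comp (algebraMap ↥(GaloisRep.ratLocalizedAt ℓ) ℚ)) jq) (iotaQ D.xZ) = 0 := by
    apply descent_coeffMap_injective (algebraMap ℚ ℂ) (algebraMap ℚ ℂ).injective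
    rw [map_zero, Polynomial.hom_eval₂, e2, hcompZ, ← Polynomial.eval₂_map, hχ]
    exact D.root
  have hred := red_relation ℓ χ D.xZ hχroot
  -- Step 5: the shape of the reduction
  have hχbmonic : (χ.map (Polynomial.mapRingHom (resZl ℓ))).Monic := hχmonic.map _
  have hχbdeg : (χ.map (Polynomial.mapRingHom (resZl ℓ))).natDegree = D.P.natDegree := by
    rw [hχmonic.natDegree_map, hχdeg]
  have hχbcoeff : ∀ i, (χ.map (Polynomial.mapRingHom (resZl ℓ))).coeff i
      = (χ.coeff i).map (resZl ℓ) := by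
    intro i
    rw [Polynomial.coeff_map]
    rfl
  have htop1 : (χ.coeff (D.P.natDegree - 1)).coeff D.m = -1 := by
    apply hψinj
    rw [hcc, D.top_coeff, map_neg, map_one]
  have htop : ((χ.map (Polynomial.mapRingHom (resZl ℓ))).coeff (D.P.natDegree - 1)).natDegree
      = D.m := by
    rw [hχbcoeff]
    apply le_antisymm
    · refine Polynomial.natDegree_map_le.trans ?_
      rw [hcoeffdeg, D.top]
    · apply Polynomial.le_natDegree_of_ne_zero
      rw [Polynomial.coeff_map, htop1, map_neg, map_one]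
      exact neg_ne_zero.mpr one_ne_zero
  have hlow : ∀ i, i ≠ D.P.natDegree - 1 →
      ((χ.map (Polynomial.mapRingHom (resZl ℓ))).coeff i).natDegree < D.m := by
    intro i hi
    rw [hχbcoeff]
    refine lt_of_le_of_lt Polynomial.natDegree_map_le ?_
    rw [hcoeffdeg]
    exact D.low i hi
  have hconst : (χ.map (Polynomial.mapRingHom (resZl ℓ))).coeff 0 ≠ 0 := by
    rw [hχbcoeff]
    have hdeg0 : (χ.coeff 0).natDegree = 0 := by
      rw [hcoeffdeg, D.const, Polynomial.natDegree_C]
    have hc0 : ((algebraMap ℚ ℂ).comp (algebraMap ↥(GaloisRep.ratLocalizedAt ℓ) ℚ))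
        ((χ.coeff 0).coeff 0) = D.c := by
      rw [hcc, D.const, Polynomial.coeff_C_zero]
    have hq0 : (((χ.coeff 0).coeff 0 : ↥(GaloisRep.ratLocalizedAt ℓ)) : ℚ) ≠ 0 := by
      intro h0
      apply D.hc
      rw [← hc0]
      show algebraMap ℚ ℂ ((((χ.coeff 0).coeff 0 : ↥(GaloisRep.ratLocalizedAt ℓ)) : ℚ)) = 0
      rw [h0, map_zero]
    have hinv : ((((χ.coeff 0).coeff 0 : ↥(GaloisRep.ratLocalizedAt ℓ)) : ℚ))⁻¹
        ∈ GaloisRep.ratLocalizedAt ℓ := by
      apply mem_ratLocalizedAt_of_mem_OO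
      have h := D.c_inv
      rw [← hc0] at h
      have e : ((((((χ.coeff 0).coeff 0 : ↥(GaloisRep.ratLocalizedAt ℓ)) : ℚ))⁻¹ : ℚ) : ℂ)
          = (((algebraMap ℚ ℂ).comp (algebraMap ↥(GaloisRep.ratLocalizedAt ℓ) ℚ))
              ((χ.coeff 0).coeff 0))⁻¹ := by
        push_cast
        rfl
      rw [e]
      exact h
    have hunit : IsUnit ((χ.coeff 0).coeff 0) := by
      refine IsUnit.of_mul_eq_one (b := ⟨_, hinv⟩) ?_
      apply Subtype.ext
      show (((χ.coeff 0).coeff 0 : ↥(GaloisRep.ratLocalizedAt ℓ)) : ℚ)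
        * ((((χ.coeff 0).coeff 0 : ↥(GaloisRep.ratLocalizedAt ℓ)) : ℚ))⁻¹ = 1
      exact mul_inv_cancel₀ hq0
    rw [Polynomial.eq_C_of_natDegree_eq_zero hdeg0, Polynomial.map_C]
    exact Polynomial.C_ne_zero.mpr (hunit.map (resZl ℓ)).ne_zero
  have hirrb : Irreducible (χ.map (Polynomial.mapRingHom (resZl ℓ))) :=
    irreducible_of_top_coeff _ hχbmonic D.hm (by rw [hχbdeg]; exact D.hdeg)
      (by rw [hχbdeg]; exact htop) (by rw [hχbdeg]; exact hlow) hconst
  -- Step 6: the structure
  refine ⟨{ t := fun i => D.xZ ^ (i : ℕ), mem := ?_, finrank_le := D.finrank_le, indep := ?_ }⟩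
  · intro i
    rw [map_pow]
    exact pow_mem D.mem _
  · intro a ha
    have hBdeg : (∑ i : Fin D.P.natDegree, C (a i) * X ^ (i : ℕ) : (ZMod ℓ)[X][X]).natDegree
        < (χ.map (Polynomial.mapRingHom (resZl ℓ))).natDegree := by
      rw [hχbdeg]
      by_cases hB0 : (∑ i : Fin D.P.natDegree, C (a i) * X ^ (i : ℕ) : (ZMod ℓ)[X][X]) = 0
      · rw [hB0, Polynomial.natDegree_zero]
        exact D.hdeg
      · rw [Polynomial.natDegree_lt_iff_degree_lt hB0]
        exact Polynomial.degree_sum_fin_lt _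
    have hBroot : (∑ i : Fin D.P.natDegree, C (a i) * X ^ (i : ℕ) : (ZMod ℓ)[X][X]).eval₂
        (Polynomial.eval₂RingHom HahnSeries.C (jqModC (ZMod ℓ))) (redL ℓ D.xZ) = 0 := by
      rw [Polynomial.eval₂_finsetSum, ← ha]
      refine Finset.sum_congr rfl fun i _ => ?_
      rw [Polynomial.eval₂_mul, Polynomial.eval₂_C, Polynomial.eval₂_pow, Polynomial.eval₂_X,
        map_pow]
      rfl
    have hB := descent_eq_zero_of_natDegree_lt HahnSeries.C (jqModC (ZMod ℓ)) (redL ℓ D.xZ)
      (descent_jq_transc (ZMod ℓ)) _ hχbmonic hirrb hred _ hBdeg hBroot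
    intro i
    have h := congrArg (fun A => A.coeff (i : ℕ)) hB
    simp only [Polynomial.finsetSum_coeff, Polynomial.coeff_C_mul, Polynomial.coeff_X_pow,
      Polynomial.coeff_zero] at h
    rw [Finset.sum_eq_single i] at h
    · simpa using h
    · intro b _ hb
      have : ¬ ((i : ℕ) = (b : ℕ)) := fun h' => hb (Fin.ext h').symm
      simp [this]
    · intro hi
      exact absurd (Finset.mem_univ i) hi

end

end Fermat.Agent.S28
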