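import Fermat.Agent.S28.Interface
import Fermat.Agent.S28.DegQ
import Fermat.Agent.S24.Bridge
import Fermat.Agent.ES.XTransfer

/-!
# S28: the level-one case (owner: helper2)
-/

set_option autoImplicit false

namespace Fermat.Agent.S28

open ModularCurve ModularCurve.IgusaScheme Polynomial IntermediateField Fermat.Agent

noncomputable section

theorem nonempty_modInput_one (ℓ : ℕ) [Fact ℓ.Prime] : Nonempty (ModInput 1 ℓ 1) := by
  refine ⟨{ t := fun _ => 1, mem := fun _ => ?_, finrank_le := ?_, indep := ?_ }⟩
  · rw [map_one]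
    exact one_mem _
  · obtain ⟨h1, h2⟩ := S28A.finrank_full_le 1
    refine ⟨h1, h2.trans ?_⟩
    rw [← Nat.card_eq_fintype_card, ES.card_X_eq, dedekindPsi_one]
  · intro a h i
    rw [Fin.sum_univ_one, map_one, mul_one] at h
    by_contra hne
    have hi : i = 0 := Subsingleton.elim _ _
    subst hi
    refine S24.aeval_jqModC_ne_zero hne ?_
    rw [Polynomial.aeval_def]
    have e : algebraMap (ZMod ℓ) (LaurentSeries (ZMod ℓ)) = HahnSeries.C := by
      refine RingHom.ext fun c => ?_
      rw [algebraMap_laurentSeries_eq_single]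
      rfl
    rw [e]
    exact h

end

end Fermat.Agent.S28
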