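import Mathlib
import Fermat.Agent.S28.Defs
import Fermat.Agent.S24.BridgePoly
import Fermat.Prelude.Def_ModularCurve_X0ModL
import Fermat.Prelude.Thm_ModularCurve_coeff_jqModC_pow_self
import Fermat.Prelude.Thm_ModularCurve_coeff_jqModC_pow_of_lt

/-!
# S28, leaf L3: formal / bridge lemmas

* `isLaurentOf_shiftScale` : the Laurent expansion of `τ ↦ f (M τ + t)`;
* `isLaurentOf_discriminant`, `isLaurentOf_discriminant_inv` : the expansions of `Δ`, `Δ⁻¹`;
* closure properties of `LSO A`;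
* triangularity of polynomials in `j(q^M)`.
-/

set_option autoImplicit false

noncomputable section

namespace Fermat.Agent.S28

open UpperHalfPlane ModularForm PowerSeries Filter Topology Function ModularCurve Polynomial
open Fermat.Agent.S24B
open scoped Manifold Real

local notation "𝕢" => Function.Periodic.qParam

/-! ### The shift `τ ↦ τ + t` -/

theorem qFun_shift {t : ℝ} {S : ℍ → ℍ} (hS : ∀ τ : ℍ, (S τ : ℂ) = τ + t) (τ : ℍ) :
    qFun (S τ) = Complex.exp (2 * π * Complex.I * t) * qFun τ := by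
  simp only [qFun, Function.Periodic.qParam, hS]
  rw [← Complex.exp_add]
  congr 1
  simp only [Complex.ofReal_one, div_one]
  ring

theorem mdiff_comp_shift {f : ℍ → ℂ} (hf : MDiff f) {t : ℝ} {S : ℍ → ℍ}
    (hS : ∀ τ : ℍ, (S τ : ℂ) = τ + t) : MDiff (f ∘ S) := by
  rw [UpperHalfPlane.mdifferentiable_iff] at hf ⊢
  have hmaps : Set.MapsTo (fun z : ℂ => z + (t : ℂ)) {z : ℂ | 0 < z.im} {z : ℂ | 0 < z.im} := by
    intro z hz
    simpa using hz
  have h2 : DifferentiableOn ℂ ((f ∘ ofComplex) ∘ fun z : ℂ => z + (t : ℂ)) {z : ℂ | 0 < z.im} :=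
    hf.comp (by fun_prop) hmaps
  refine h2.congr fun z hz => ?_
  simp only [comp_apply]
  congr 1
  have hz' := hmaps hz
  rw [ofComplex_apply_of_im_pos hz']
  ext
  rw [hS, ofComplex_apply_of_im_pos hz]

theorem isLaurentOf_shift {s : LaurentSeries ℂ} {f : ℍ → ℂ} (hf : IsLaurentOf s f) (t : ℝ)
    {S : ℍ → ℍ} (hS : ∀ τ : ℍ, (S τ : ℂ) = τ + t) :
    IsLaurentOf (twistL (Complex.exp (2 * π * Complex.I * t)) s) (f ∘ S) := by
  set ζ : ℂ := Complex.exp (2 * π * Complex.I * t) with hζ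
  have hζ0 : ζ ≠ 0 := Complex.exp_ne_zero _
  have hfm : MDiff f := hf.mdiff
  have hfv := hf.vadd
  obtain ⟨m, h1, h2⟩ := hf
  have hcoef : ∀ k : ℤ, s.coeff (k - m) =
      (HahnSeries.ofPowerSeries ℤ ℂ (qExpansion 1 (qFun ^ m * f))).coeff k := by
    intro k
    rw [← h2]
    have := HahnSeries.coeff_single_mul_add (r := (1 : ℂ)) (x := s) (a := k - m) (b := (m : ℤ))
    rw [sub_add_cancel, one_mul] at this
    exact this.symm
  have hSv : ∀ τ : ℍ, S ((1 : ℝ) +ᵥ τ) = (1 : ℝ) +ᵥ S τ := by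
    intro τ
    apply UpperHalfPlane.ext
    rw [hS, UpperHalfPlane.coe_vadd, UpperHalfPlane.coe_vadd, hS]
    ring
  have key := isQHol_of_hasSum (f := qFun ^ m * (f ∘ S))
    (c := fun k : ℕ => ζ ^ ((k : ℤ) - m) * (qExpansion 1 (qFun ^ m * f)).coeff k) ?_ ?_ ?_
  · refine ⟨m, key.1, ?_⟩
    rw [key.2]
    ext k
    have e1 : (HahnSeries.single (m : ℤ) (1 : ℂ) * twistL ζ s).coeff k =
        ζ ^ (k - m) * s.coeff (k - m) := by
      have := HahnSeries.coeff_single_mul_add (r := (1 : ℂ)) (x := twistL ζ s) (a := k - m)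
        (b := (m : ℤ))
      rw [sub_add_cancel, one_mul] at this
      rw [this, twistL_coeff]
    rw [e1, hcoef]
    rcases lt_or_ge k 0 with hk | hk
    · rw [ModularCurve.ofPowerSeries_coeff_of_neg _ hk,
        ModularCurve.ofPowerSeries_coeff_of_neg _ hk, mul_zero]
    · lift k to ℕ using hk
      rw [HahnSeries.ofPowerSeries_apply_coeff, HahnSeries.ofPowerSeries_apply_coeff,
        PowerSeries.coeff_mk]
  · refine periodic_comp_ofComplex_of fun τ => ?_
    simp only [Pi.mul_apply, Pi.pow_apply, comp_apply, qFun_isQHol.vadd τ, hSv, hfv]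
  · exact (qFun_isQHol.pow m).hol.mul (mdiff_comp_shift hfm hS)
  · intro τ
    have h := (h1.hasSum (S τ)).mul_left ((ζ ^ m)⁻¹)
    have hq : 𝕢 1 (S τ : ℂ) = ζ * 𝕢 1 (τ : ℂ) := qFun_shift hS τ
    have hq' : qFun (S τ) = ζ * qFun τ := qFun_shift hS τ
    have e2 : (ζ ^ m)⁻¹ * (qFun ^ m * f) (S τ) = (qFun ^ m * (f ∘ S)) τ := by
      simp only [Pi.mul_apply, Pi.pow_apply, comp_apply, hq', mul_pow]
      field_simp
    rw [e2] at h
    refine h.congr_fun ?_ |>.mono_left le_rfl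
    intro k
    simp only [hq, smul_eq_mul, mul_pow]
    rw [zpow_sub₀ hζ0, zpow_natCast, zpow_natCast]
    field_simp

/-- **F1.** The Laurent expansion of `τ ↦ f (M τ + t)`. -/
theorem isLaurentOf_shiftScale {s : LaurentSeries ℂ} {f : ℍ → ℂ} (hf : S24B.IsLaurentOf s f)
    (M : ℕ) [NeZero M] (t : ℝ) (G : ℍ → ℍ) (hG : ∀ τ : ℍ, (G τ : ℂ) = M * τ + t) :
    S24B.IsLaurentOf (qExpand ℂ M (twistL (Complex.exp (2 * π * Complex.I * t)) s)) (f ∘ G) := by
  have hM : (0 : ℝ) < M := by exact_mod_cast Nat.pos_of_ne_zero (NeZero.ne M)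
  let D : ℍ → ℍ := fun τ => ⟨(M : ℂ) * τ, by
    simp only [Complex.mul_im, Complex.natCast_re, Complex.natCast_im, zero_mul, add_zero]
    exact mul_pos hM τ.im_pos⟩
  have hD : ∀ τ : ℍ, (D τ : ℂ) = M * τ := fun τ => rfl
  let S : ℍ → ℍ := fun τ => (t : ℝ) +ᵥ τ
  have hS : ∀ τ : ℍ, (S τ : ℂ) = τ + t := fun τ => by
    show (((t : ℝ) +ᵥ τ : ℍ) : ℂ) = τ + t
    rw [UpperHalfPlane.coe_vadd, add_comm]
  have h := (isLaurentOf_shift hf t hS).scale hD
  have e : (f ∘ S) ∘ D = f ∘ G := by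
    funext τ
    simp only [comp_apply]
    congr 1
    apply UpperHalfPlane.ext
    rw [hS, hD, hG]
  rwa [e] at h

/-! ### The expansions of `Δ` and `Δ⁻¹` -/

theorem isLaurentOf_of_isQHol {g : ℍ → ℂ} (hg : IsQHol g) :
    IsLaurentOf (HahnSeries.ofPowerSeries ℤ ℂ (qExpansion 1 g)) g := by
  refine ⟨0, by simpa using hg, ?_⟩
  simp

theorem isLaurentOf_qFun : IsLaurentOf (HahnSeries.single (1 : ℤ) (1 : ℂ)) qFun := by
  have h := isLaurentOf_of_isQHol qFun_isQHol
  rwa [qExpansion_qFun, HahnSeries.ofPowerSeries_X] at h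

theorem isLaurentOf_qFun_inv : IsLaurentOf (HahnSeries.single (-1 : ℤ) (1 : ℂ)) qFun⁻¹ := by
  refine ⟨1, ?_, ?_⟩
  · have e : qFun ^ 1 * qFun⁻¹ = 1 := by
      funext τ
      simp [qFun_ne_zero τ]
    rw [e]
    exact IsQHol.one
  · have e : qFun ^ 1 * qFun⁻¹ = 1 := by
      funext τ
      simp [qFun_ne_zero τ]
    rw [e, qExpansion_one]
    have e5 : HahnSeries.single ((1 : ℕ) : ℤ) (1 : ℂ) * HahnSeries.single (-1 : ℤ) (1 : ℂ) = 1 := by
      rw [HahnSeries.single_mul_single]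
      simp
    rw [e5, map_one]

theorem qExpansion_etaFun_pow :
    qExpansion 1 (etaFun ^ 24) = dedekindEtaUnit.map (Int.castRingHom ℂ) := by
  rw [etaFun_isQHol.qExpansion_pow, qExpansion_etaFun, ← map_pow]
  rfl

theorem etaFun_pow_inv_isQHol : IsQHol (etaFun ^ 24)⁻¹ :=
  (etaFun_isQHol.pow 24).inv (fun τ => pow_ne_zero _ (etaFun_ne_zero τ)) etaFun_pow_coeff_zero

theorem qExpansion_etaFun_pow_inv :
    qExpansion 1 (etaFun ^ 24)⁻¹ = dedekindEtaUnitInv.map (Int.castRingHom ℂ) := by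
  have h1 := (etaFun_isQHol.pow 24).qExpansion_inv_mul
    (fun τ => pow_ne_zero _ (etaFun_ne_zero τ)) etaFun_pow_coeff_zero
  rw [qExpansion_etaFun_pow] at h1
  have h2 : dedekindEtaUnit.map (Int.castRingHom ℂ)
      * dedekindEtaUnitInv.map (Int.castRingHom ℂ) = 1 := by
    rw [← map_mul, dedekindEtaUnit_mul_inv, map_one]
  calc qExpansion 1 (etaFun ^ 24)⁻¹
      = qExpansion 1 (etaFun ^ 24)⁻¹ * (dedekindEtaUnit.map (Int.castRingHom ℂ)
        * dedekindEtaUnitInv.map (Int.castRingHom ℂ)) := by rw [h2, mul_one]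
    _ = dedekindEtaUnitInv.map (Int.castRingHom ℂ) := by
        rw [← mul_assoc, h1, one_mul]

/-- **F2.** The integral `Δ`-series is the Laurent expansion of `Δ`. -/
theorem isLaurentOf_discriminant :
    S24B.IsLaurentOf (iotaC (deltaZ : LaurentSeries ℤ))
      (fun τ : ℍ => ModularForm.discriminant τ) := by
  have h := isLaurentOf_qFun.mul (isLaurentOf_of_isQHol (etaFun_isQHol.pow 24))
  have e1 : (fun τ : ℍ => ModularForm.discriminant τ) = qFun * etaFun ^ 24 := by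
    funext τ
    rw [discriminant_eq_qFun_mul]
    rfl
  have e2 : iotaC (deltaZ : LaurentSeries ℤ) = HahnSeries.single (1 : ℤ) (1 : ℂ) *
      HahnSeries.ofPowerSeries ℤ ℂ (qExpansion 1 (etaFun ^ 24)) := by
    rw [coe_deltaZ, iotaC, map_mul, coeffMap_single, coeffMap_ofPowerSeries,
      qExpansion_etaFun_pow, map_one]
  rw [e1, e2]
  exact h

/-- **F2'.** The inverse of the integral `Δ`-series is the Laurent expansion of `Δ⁻¹`. -/
theorem isLaurentOf_discriminant_inv :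
    S24B.IsLaurentOf (iotaC ((deltaZ⁻¹ : (LaurentSeries ℤ)ˣ) : LaurentSeries ℤ))
      (fun τ : ℍ => (ModularForm.discriminant τ)⁻¹) := by
  have h := isLaurentOf_qFun_inv.mul (isLaurentOf_of_isQHol etaFun_pow_inv_isQHol)
  have e1 : (fun τ : ℍ => (ModularForm.discriminant τ)⁻¹) = qFun⁻¹ * (etaFun ^ 24)⁻¹ := by
    funext τ
    rw [discriminant_eq_qFun_mul, mul_inv]
    rfl
  have e2 : iotaC ((deltaZ⁻¹ : (LaurentSeries ℤ)ˣ) : LaurentSeries ℤ) =
      HahnSeries.single (-1 : ℤ) (1 : ℂ) *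
        HahnSeries.ofPowerSeries ℤ ℂ (qExpansion 1 (etaFun ^ 24)⁻¹) := by
    have e3 : ((deltaZ⁻¹ : (LaurentSeries ℤ)ˣ) : LaurentSeries ℤ) =
        HahnSeries.single (-1 : ℤ) 1 * HahnSeries.ofPowerSeries ℤ ℤ dedekindEtaUnitInv := rfl
    rw [e3, iotaC, map_mul, coeffMap_single, coeffMap_ofPowerSeries,
      qExpansion_etaFun_pow_inv, map_one]
  rw [e1, e2]
  exact h

/-! ### Closure properties of `LSO A` -/

/-- **F3a.** -/
theorem qExpand_mem_LSO {A : Subring ℂ} {s : LaurentSeries ℂ} (M : ℕ) [NeZero M]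
    (hs : s ∈ LSO A) : qExpand ℂ M s ∈ LSO A := by
  intro k
  by_cases hk : (M : ℤ) ∣ k
  · obtain ⟨j, rfl⟩ := hk
    rw [qExpand_coeff_mul]
    exact hs j
  · rw [qExpand_coeff_of_not_dvd _ _ hk]
    exact A.zero_mem

theorem zpow_mem_of_mem {A : Subring ℂ} {ζ : ℂ} (hζ : ζ ∈ A) (hζ' : ζ⁻¹ ∈ A) (n : ℤ) :
    ζ ^ n ∈ A := by
  obtain ⟨k, rfl | rfl⟩ := n.eq_nat_or_neg
  · rw [zpow_natCast]
    exact A.pow_mem hζ k
  · rw [zpow_neg, zpow_natCast, ← inv_pow]
    exact A.pow_mem hζ' k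

/-- **F3b.** -/
theorem twistL_mem_LSO {A : Subring ℂ} {ζ : ℂ} (hζ : ζ ∈ A) (hζ' : ζ⁻¹ ∈ A)
    {s : LaurentSeries ℂ} (hs : s ∈ LSO A) : twistL ζ s ∈ LSO A := by
  intro n
  rw [twistL_coeff]
  exact A.mul_mem (zpow_mem_of_mem hζ hζ' n) (hs n)

/-- **F3c.** -/
theorem iotaC_mem_LSO (A : Subring ℂ) (s : LaurentSeries ℤ) : iotaC s ∈ LSO A := by
  intro n
  rw [iotaC_coeff]
  exact intCast_mem A _

/-- **F3d.** -/
theorem C_mem_LSO {A : Subring ℂ} {c : ℂ} (hc : c ∈ A) : HahnSeries.C c ∈ LSO A := by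
  intro n
  rw [HahnSeries.C_apply, HahnSeries.coeff_single]
  split_ifs
  · exact hc
  · exact A.zero_mem

/-! ### Triangularity of polynomials in `j(q^M)` -/

theorem coeff_jM_pow_self (M : ℕ) [NeZero M] (b : ℕ) :
    ((qExpand ℂ M (jqModC ℂ)) ^ b).coeff (-((M : ℤ) * b)) = 1 := by
  rw [← map_pow, ← mul_neg, qExpand_coeff_mul]
  exact coeff_jqModC_pow_self ℂ b

theorem coeff_jM_pow_of_lt (M : ℕ) [NeZero M] {b : ℕ} {k : ℤ} (hk : k < -((M : ℤ) * b)) :
    ((qExpand ℂ M (jqModC ℂ)) ^ b).coeff k = 0 := by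
  rw [← map_pow]
  by_cases hd : (M : ℤ) ∣ k
  · obtain ⟨j, rfl⟩ := hd
    rw [qExpand_coeff_mul]
    refine coeff_jqModC_pow_of_lt ℂ ?_
    have hM : (0 : ℤ) < M := by exact_mod_cast Nat.pos_of_ne_zero (NeZero.ne M)
    rw [← mul_neg] at hk
    exact lt_of_mul_lt_mul_left hk hM.le
  · exact qExpand_coeff_of_not_dvd _ _ hd

theorem jM_pow_mem_LSO (A : Subring ℂ) (M : ℕ) [NeZero M] (b : ℕ) :
    (qExpand ℂ M (jqModC ℂ)) ^ b ∈ LSO A := by
  refine (LSO A).pow_mem (qExpand_mem_LSO M ?_) b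
  have h : jqModC ℂ = iotaC (jqModC ℤ) := (coeffMap_jqModC (Int.castRingHom ℂ)).symm
  rw [h]
  exact iotaC_mem_LSO A _

theorem coeff_eval₂_jM (M : ℕ) [NeZero M] (p : ℂ[X]) (k : ℤ) :
    (p.eval₂ HahnSeries.C (qExpand ℂ M (jqModC ℂ))).coeff k =
      ∑ i ∈ Finset.range (p.natDegree + 1),
        p.coeff i * ((qExpand ℂ M (jqModC ℂ)) ^ i).coeff k := by
  rw [Polynomial.eval₂_eq_sum_range, HahnSeries.coeff_sum]
  refine Finset.sum_congr rfl fun i _ => ?_
  rw [HahnSeries.C_mul_eq_smul, HahnSeries.coeff_smul, smul_eq_mul]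

/-- The coefficient of `q^{-Mm}` in `p(j(q^M))` is `p.coeff m` when `deg p ≤ m`. -/
theorem coeff_eval₂_jM_of_natDegree_le (M : ℕ) [NeZero M] (p : ℂ[X]) (m : ℕ)
    (hm : p.natDegree ≤ m) :
    (p.eval₂ HahnSeries.C (qExpand ℂ M (jqModC ℂ))).coeff (-((M : ℤ) * m)) = p.coeff m := by
  have hM : (0 : ℤ) < M := by exact_mod_cast Nat.pos_of_ne_zero (NeZero.ne M)
  rw [coeff_eval₂_jM]
  rcases hm.lt_or_eq with hlt | heq
  · rw [Polynomial.coeff_eq_zero_of_natDegree_lt hlt]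
    refine Finset.sum_eq_zero fun i hi => ?_
    rw [coeff_jM_pow_of_lt, mul_zero]
    have : (i : ℤ) < m := by
      have := Finset.mem_range.mp hi
      exact_mod_cast (by omega : i < m)
    nlinarith
  · rw [Finset.sum_eq_single m]
    · rw [coeff_jM_pow_self, mul_one]
    · intro i hi him
      rw [coeff_jM_pow_of_lt, mul_zero]
      have : (i : ℤ) < m := by
        have := Finset.mem_range.mp hi
        exact_mod_cast (by omega : i < m)
      nlinarith
    · intro h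
      exact absurd (Finset.mem_range.mpr (by omega)) h

/-- **F4a.** Triangularity: if `p(j(q^M))` has coefficients in `A`, so does `p`. -/
theorem coeff_mem_of_eval₂_mem_LSO {A : Subring ℂ} (M : ℕ) [NeZero M] (p : ℂ[X])
    (h : p.eval₂ HahnSeries.C (qExpand ℂ M (jqModC ℂ)) ∈ LSO A) (i : ℕ) : p.coeff i ∈ A := by
  suffices H : ∀ n : ℕ, ∀ p : ℂ[X], p.natDegree < n →
      p.eval₂ HahnSeries.C (qExpand ℂ M (jqModC ℂ)) ∈ LSO A → ∀ i, p.coeff i ∈ A from
    H (p.natDegree + 1) p (Nat.lt_succ_self _) h i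
  intro n
  induction n with
  | zero => intro p hp; exact absurd hp (Nat.not_lt_zero _)
  | succ n ih =>
    intro p hp hmem i
    have hlead : p.leadingCoeff ∈ A := by
      have := hmem (-((M : ℤ) * p.natDegree))
      rwa [coeff_eval₂_jM_of_natDegree_le M p p.natDegree le_rfl] at this
    rcases Nat.eq_zero_or_pos p.natDegree with h0 | hpos
    · rcases Nat.eq_zero_or_pos i with hi | hi
      · rw [hi]
        rw [Polynomial.leadingCoeff, h0] at hlead
        exact hlead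
      · rw [Polynomial.coeff_eq_zero_of_natDegree_lt (by omega)]
        exact A.zero_mem
    · have hdeg : p.eraseLead.natDegree < n := by
        have := Polynomial.eraseLead_natDegree_le p
        omega
      have hsplit := Polynomial.eraseLead_add_C_mul_X_pow p
      have hmem' : p.eraseLead.eval₂ HahnSeries.C (qExpand ℂ M (jqModC ℂ)) ∈ LSO A := by
        have e : p.eval₂ HahnSeries.C (qExpand ℂ M (jqModC ℂ)) =
            p.eraseLead.eval₂ HahnSeries.C (qExpand ℂ M (jqModC ℂ)) +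
              HahnSeries.C p.leadingCoeff * (qExpand ℂ M (jqModC ℂ)) ^ p.natDegree := by
          conv_lhs => rw [← hsplit]
          rw [Polynomial.eval₂_add, Polynomial.eval₂_mul, Polynomial.eval₂_C,
            Polynomial.eval₂_pow, Polynomial.eval₂_X]
        have h3 := (LSO A).sub_mem hmem
          ((LSO A).mul_mem (C_mem_LSO hlead) (jM_pow_mem_LSO A M p.natDegree))
        rwa [e, add_sub_cancel_right] at h3
      have := ih p.eraseLead hdeg hmem' i
      rw [Polynomial.eraseLead_coeff] at this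
      split_ifs at this with hi
      · rw [hi]
        exact hlead
      · exact this

/-- **F4b.** Degree bound from the pole order. -/
theorem natDegree_le_of_eval₂_coeff (M : ℕ) [NeZero M] (p : ℂ[X]) (m : ℕ)
    (h : ∀ k : ℤ, k < -((M : ℤ) * m) →
      (p.eval₂ HahnSeries.C (qExpand ℂ M (jqModC ℂ))).coeff k = 0) :
    p.natDegree ≤ m ∧
      p.coeff m = (p.eval₂ HahnSeries.C (qExpand ℂ M (jqModC ℂ))).coeff (-((M : ℤ) * m)) := by
  have hM : (0 : ℤ) < M := by exact_mod_cast Nat.pos_of_ne_zero (NeZero.ne M)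
  have hle : p.natDegree ≤ m := by
    by_contra hlt
    rw [not_le] at hlt
    have h1 := h (-((M : ℤ) * p.natDegree)) (by
      have : (m : ℤ) < p.natDegree := by exact_mod_cast hlt
      nlinarith)
    rw [coeff_eval₂_jM_of_natDegree_le M p p.natDegree le_rfl] at h1
    have hp0 : p = 0 := Polynomial.leadingCoeff_eq_zero.mp h1
    rw [hp0] at hlt
    simp at hlt
  exact ⟨hle, (coeff_eval₂_jM_of_natDegree_le M p m hle).symm⟩

end Fermat.Agent.S28
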