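import Mathlib
import Fermat.Prelude.Def_ModularCurve_IgusaScheme

set_option autoImplicit false
open AlgebraicGeometry CategoryTheory CategoryTheory.Limits ModularCurve ModularCurve.IgusaScheme
open TensorProduct

noncomputable section

namespace Fermat.Agent.S28Glue

/-- Topological lemma: a space covered by two irreducible open subsets that meet is irreducible. -/
theorem irreducibleSpace_of_two_opens {X : Type*} [TopologicalSpace X] {U V : Set X}
    (hU : IsOpen U) (hV : IsOpen V) (hUi : IsIrreducible U) (hVi : IsIrreducible V)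
    (hUV : (U ∩ V).Nonempty) (hcov : U ∪ V = Set.univ) : IrreducibleSpace X := by
  have key : ∀ w : Set X, IsOpen w → w.Nonempty → (w ∩ (U ∩ V)).Nonempty := by
    intro w hw ⟨x, hx⟩
    have hxUV : x ∈ U ∪ V := hcov ▸ Set.mem_univ x
    rcases hxUV with hxU | hxV
    · obtain ⟨y, hyU, hyw, hyV⟩ := hUi.2 w V hw hV ⟨x, hxU, hx⟩
        (by obtain ⟨z, hzU, hzV⟩ := hUV; exact ⟨z, hzU, hzV⟩)
      exact ⟨y, hyw, hyU, hyV⟩
    · obtain ⟨y, hyV, hyw, hyU⟩ := hVi.2 w U hw hU ⟨x, hxV, hx⟩
        (by obtain ⟨z, hzU, hzV⟩ := hUV; exact ⟨z, hzV, hzU⟩)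
      exact ⟨y, hyw, hyU, hyV⟩
  have hne : Nonempty X := ⟨hUV.some⟩
  refine { toPreirreducibleSpace := ⟨?_⟩, toNonempty := hne }
  rintro u v hu hv ⟨x, -, hx⟩ ⟨y, -, hy⟩
  obtain ⟨a, hau, haU, -⟩ := key u hu ⟨x, hx⟩
  obtain ⟨b, hbv, hbU, -⟩ := key v hv ⟨y, hy⟩
  obtain ⟨c, -, hcu, hcv⟩ := hUi.2 u v hu hv ⟨a, haU, hau⟩ ⟨b, hbU, hbv⟩
  exact ⟨c, Set.mem_univ c, hcu, hcv⟩


section general

variable {R A T : Type} [CommRing R] [CommRing A] [CommRing T] [Algebra R A] [Algebra R T]
variable {X : Scheme.{0}} (ι : Spec (CommRingCat.of A) ⟶ X) (f : X ⟶ Spec (CommRingCat.of R))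
variable (hι : ι ≫ f = Spec.map (CommRingCat.ofHom (algebraMap R A)))

/-- The chart of the base change `X ×_R T` lying over an affine chart `Spec A ⟶ X` is
`Spec (A ⊗[R] T)`. -/
def chartIso :
    pullback (pullback.fst f (Spec.map (CommRingCat.ofHom (algebraMap R T)))) ι ≅
      Spec (CommRingCat.of (A ⊗[R] T)) :=
  pullbackSymmetry _ _ ≪≫ pullbackRightPullbackFstIso f _ ι ≪≫ pullback.congrHom hι rfl ≪≫
    pullbackSpecIso R A T

include hι in
theorem chart_isReduced [_root_.IsReduced (A ⊗[R] T)] :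
    IsReduced (pullback (pullback.fst f (Spec.map (CommRingCat.ofHom (algebraMap R T)))) ι) :=
  isReduced_of_isOpenImmersion (chartIso (T := T) ι f hι).hom

include hι in
theorem chart_irreducibleSpace [IsDomain (A ⊗[R] T)] :
    IrreducibleSpace
      ↥(pullback (pullback.fst f (Spec.map (CommRingCat.ofHom (algebraMap R T)))) ι) :=
  (chartIso (T := T) ι f hι).hom.homeomorph.irreducibleSpace_iff.mpr inferInstance

end general


section igusa

variable (N : ℕ) [NeZero N] (ℓ : ℕ) [Fact ℓ.Prime]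

/-- The two charts of the Igusa scheme, indexed by `Bool`. -/
def coverObj : Bool → Scheme.{0}
  | true => XFin N ℓ
  | false => XInf N ℓ

/-- The two chart maps of the Igusa scheme. -/
def coverMap : (b : Bool) → coverObj N ℓ b ⟶ ModularCurve.IgusaScheme N ℓ
  | true => ιFin N ℓ
  | false => ιInf N ℓ

instance coverMap_isOpenImmersion (b : Bool) : IsOpenImmersion (coverMap N ℓ b) := by
  cases b
  · exact isOpenImmersion_ιInf N ℓ
  · exact isOpenImmersion_ιFin N ℓ

theorem coverMap_covers (x : ModularCurve.IgusaScheme N ℓ) :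
    ∃ (b : Bool) (y : coverObj N ℓ b), coverMap N ℓ b y = x := by
  rcases mem_range_ιFin_or_mem_range_ιInf N ℓ x with ⟨y, hy⟩ | ⟨y, hy⟩
  · exact ⟨true, y, hy⟩
  · exact ⟨false, y, hy⟩

/-- The two-chart open cover of the Igusa scheme. -/
def igusaOpenCover : (ModularCurve.IgusaScheme N ℓ).OpenCover :=
  Scheme.Cover.mkOfCovers Bool (coverObj N ℓ) (coverMap N ℓ) (coverMap_covers N ℓ)
    (fun b => coverMap_isOpenImmersion N ℓ b)


variable (K : Type) [Field K] [Algebra ↥(GaloisRep.ratLocalizedAt ℓ) K]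

theorem isIntegral_pullback_of_charts
    (hFin : IsDomain (↥(chartAlgFin N ℓ) ⊗[↥(GaloisRep.ratLocalizedAt ℓ)] K))
    (hInf : IsDomain (↥(chartAlgInf N ℓ) ⊗[↥(GaloisRep.ratLocalizedAt ℓ)] K))
    (hMid : Nontrivial (↥(chartAlgMid N ℓ) ⊗[↥(GaloisRep.ratLocalizedAt ℓ)] K)) :
    IsIntegral ↑(pullback (igusaTo N ℓ)
      (Spec.map (CommRingCat.ofHom (algebraMap ↥(GaloisRep.ratLocalizedAt ℓ) K)))) := by
  set g := Spec.map (CommRingCat.ofHom (algebraMap ↥(GaloisRep.ratLocalizedAt ℓ) K)) with hg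
  set h := pullback.fst (igusaTo N ℓ) g with hh
  -- reducedness
  have hred : IsReduced ↑(pullback (igusaTo N ℓ) g) := by
    have : ∀ b, IsReduced (((igusaOpenCover N ℓ).pullback₁ h).X b) := by
      intro b
      cases b
      · exact chart_isReduced (T := K) (ιInf N ℓ) (igusaTo N ℓ) (ιInf_igusaTo N ℓ)
      · exact chart_isReduced (T := K) (ιFin N ℓ) (igusaTo N ℓ) (ιFin_igusaTo N ℓ)
    exact IsReduced.of_openCover _ ((igusaOpenCover N ℓ).pullback₁ h)
  -- irreducibility
  have hirr : IrreducibleSpace ↑(pullback (igusaTo N ℓ) g) := by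
    refine irreducibleSpace_of_two_opens (U := Set.range (pullback.fst h (ιFin N ℓ)))
      (V := Set.range (pullback.fst h (ιInf N ℓ))) ?_ ?_ ?_ ?_ ?_ ?_
    · exact (pullback.fst h (ιFin N ℓ)).isOpenEmbedding.isOpen_range
    · exact (pullback.fst h (ιInf N ℓ)).isOpenEmbedding.isOpen_range
    · have := chart_irreducibleSpace (T := K) (ιFin N ℓ) (igusaTo N ℓ) (ιFin_igusaTo N ℓ)
      rw [← Set.image_univ]
      exact (IrreducibleSpace.isIrreducible_univ _).image _
        (pullback.fst h (ιFin N ℓ)).continuous.continuousOn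
    · have := chart_irreducibleSpace (T := K) (ιInf N ℓ) (igusaTo N ℓ) (ιInf_igusaTo N ℓ)
      rw [← Set.image_univ]
      exact (IrreducibleSpace.isIrreducible_univ _).image _
        (pullback.fst h (ιInf N ℓ)).continuous.continuousOn
    · -- a point of the middle chart lies in both opens
      let M : CommRingCat.{0} :=
        CommRingCat.of (↥(chartAlgMid N ℓ) ⊗[↥(GaloisRep.ratLocalizedAt ℓ)] K)
      let a : Spec M ⟶ XMid N ℓ :=
        Spec.map (CommRingCat.ofHom Algebra.TensorProduct.includeLeftRingHom)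
      let b : Spec M ⟶ Spec (CommRingCat.of K) :=
        Spec.map (CommRingCat.ofHom
          (Algebra.TensorProduct.includeRight (R := ↥(GaloisRep.ratLocalizedAt ℓ))
            (A := ↥(chartAlgMid N ℓ)) (B := K)).toRingHom)
      have hab : (a ≫ fFin N ℓ ≫ ιFin N ℓ) ≫ igusaTo N ℓ = b ≫ g := by
        simp only [Category.assoc, ιFin_igusaTo]
        rw [hg, ← Spec.map_comp, ← Spec.map_comp, ← Spec.map_comp]
        congr 1
        ext x
        simp
        rfl
      let m : Spec M ⟶ pullback (igusaTo N ℓ) g := pullback.lift (a ≫ fFin N ℓ ≫ ιFin N ℓ) b hab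
      have hm : m ≫ h = a ≫ fFin N ℓ ≫ ιFin N ℓ := pullback.lift_fst _ _ _
      obtain ⟨z⟩ : Nonempty (Spec M) := inferInstance
      refine ⟨m z, ?_, ?_⟩
      · rw [Scheme.Pullback.range_fst]
        refine ⟨fFin N ℓ (a z), ?_⟩
        rw [← Scheme.Hom.comp_apply, ← Scheme.Hom.comp_apply, ← Scheme.Hom.comp_apply, hm]
      · rw [Scheme.Pullback.range_fst]
        refine ⟨fInf N ℓ (a z), ?_⟩
        rw [← Scheme.Hom.comp_apply, ← Scheme.Hom.comp_apply, ← Scheme.Hom.comp_apply, hm,
          glue_condition]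
    · rw [Scheme.Pullback.range_fst, Scheme.Pullback.range_fst]
      ext x
      simp only [Set.mem_union, Set.mem_preimage, Set.mem_univ, iff_true]
      exact mem_range_ιFin_or_mem_range_ιInf N ℓ (h x)
  exact isIntegral_of_irreducibleSpace_of_isReduced _

end igusa

end Fermat.Agent.S28Glue
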