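import Fermat.Agent.S24.JLevel
import Fermat.Agent.S24.Conj

/-!
# S28, analytic inputs: the modular units `Δ(τ)/Δ(dτ)` and `Δ(dτ)/Δ(τ)`

* `dS d τ = Δ(dτ)`, `wS d = Δ/Δ(d·)`, `wSinv d = Δ(d·)/Δ`;
* both quotients are modular functions of level `Γ₀(N)` for `d ∣ N` (`S24.ModFun`);
* Hermite form of all `SL(2,ℤ)`-translates;
* the Fricke substitution `τ ↦ -1/(pτ)` ("S-trick").
-/

set_option autoImplicit false

namespace Fermat.Agent.S28A

open UpperHalfPlane hiding I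
open Real Complex Filter Function
open ModularForm
open scoped Manifold MatrixGroups ModularForm Topology
open Fermat.Agent Fermat.Agent.S24

noncomputable section

/-- `Δ(dτ)`. -/
def dS (d : ℕ) (τ : ℍ) : ℂ := ModularForm.discriminant (heckeDiagMatrix d • τ)

/-- `Δ(τ)/Δ(dτ)`. -/
def wS (d : ℕ) (τ : ℍ) : ℂ := ModularForm.discriminant τ / dS d τ

/-- `Δ(dτ)/Δ(τ)`. -/
def wSinv (d : ℕ) (τ : ℍ) : ℂ := dS d τ / ModularForm.discriminant τ

theorem dS_ne_zero (d : ℕ) (τ : ℍ) : dS d τ ≠ 0 := discriminant_ne_zero _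

theorem wS_ne_zero (d : ℕ) (τ : ℍ) : wS d τ ≠ 0 :=
  div_ne_zero (discriminant_ne_zero τ) (dS_ne_zero d τ)

theorem wSinv_ne_zero (d : ℕ) (τ : ℍ) : wSinv d τ ≠ 0 :=
  div_ne_zero (dS_ne_zero d τ) (discriminant_ne_zero τ)

theorem wS_mul_wSinv (d : ℕ) (τ : ℍ) : wS d τ * wSinv d τ = 1 := by
  unfold wS wSinv
  field_simp [dS_ne_zero d τ, discriminant_ne_zero τ]

theorem wSinv_eq_inv (d : ℕ) (τ : ℍ) : wSinv d τ = (wS d τ)⁻¹ :=
  eq_inv_of_mul_eq_one_right (wS_mul_wSinv d τ)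

theorem mdiff_dS (d : ℕ) : MDiff (dS d) :=
  mdiff_discriminant.comp (UpperHalfPlane.mdifferentiable_smul (det_heckeDiagMatrix_pos d))

theorem mdiff_wS (d : ℕ) : MDiff (wS d) :=
  mdiff_div mdiff_discriminant (mdiff_dS d) (dS_ne_zero d)

theorem mdiff_wSinv (d : ℕ) : MDiff (wSinv d) :=
  mdiff_div (mdiff_dS d) mdiff_discriminant discriminant_ne_zero

theorem scaledDelta_eq_dS (d : ℕ) [NeZero d] (τ : ℍ) :
    S23.scaledDelta d τ = (d : ℂ) ^ (11 : ℕ) * dS d τ :=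
  S23.Scale.scaledDelta_apply d τ

/-- `Δ(d·)` transforms with weight `12` under `Γ₀(d)`. -/
theorem dS_smul_of_mem_Gamma0 (d : ℕ) [NeZero d] {γ : SL(2, ℤ)}
    (hγ : γ ∈ CongruenceSubgroup.Gamma0 d) (τ : ℍ) :
    dS d (γ • τ) = denom γ τ ^ (12 : ℤ) * dS d τ := by
  have h0 : (⇑(S23.scaledDelta d) : ℍ → ℂ) ∣[(12 : ℤ)] γ = ⇑(S23.scaledDelta d) :=
    (S23.scaledDelta d).slash_action_eq' _ ⟨γ, hγ, rfl⟩
  have h := congrFun h0 τ
  rw [ModularForm.SL_slash_apply, scaledDelta_eq_dS, scaledDelta_eq_dS] at h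
  have hd : denom γ τ ≠ 0 := denom_ne_zero γ τ
  have hdC : ((d : ℂ)) ^ (11 : ℕ) ≠ 0 := pow_ne_zero _ (by exact_mod_cast NeZero.ne d)
  apply mul_left_cancel₀ hdC
  calc (d : ℂ) ^ (11 : ℕ) * dS d (γ • τ)
      = ((d : ℂ) ^ (11 : ℕ) * dS d (γ • τ) * denom γ τ ^ (-(12 : ℤ))) * denom γ τ ^ (12 : ℤ) := by
        rw [mul_assoc, ← zpow_add₀ hd]; simp
    _ = (d : ℂ) ^ (11 : ℕ) * (denom γ τ ^ (12 : ℤ) * dS d τ) := by rw [h]; ring

theorem wS_smul_of_mem_Gamma0 (d : ℕ) [NeZero d] {γ : SL(2, ℤ)}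
    (hγ : γ ∈ CongruenceSubgroup.Gamma0 d) (τ : ℍ) : wS d (γ • τ) = wS d τ := by
  unfold wS
  rw [dS_smul_of_mem_Gamma0 d hγ, discriminant_smul]
  exact mul_div_mul_left _ _ (zpow_ne_zero _ (denom_ne_zero γ τ))

theorem wSinv_smul_of_mem_Gamma0 (d : ℕ) [NeZero d] {γ : SL(2, ℤ)}
    (hγ : γ ∈ CongruenceSubgroup.Gamma0 d) (τ : ℍ) : wSinv d (γ • τ) = wSinv d τ := by
  rw [wSinv_eq_inv, wSinv_eq_inv, wS_smul_of_mem_Gamma0 d hγ]

/-! ### Hermite form of the translates -/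

/-- Hermite form of the `SL(2,ℤ)`-translates of `Δ(d·)`. -/
theorem dS_smul_eq (d : ℕ) [NeZero d] (γ : SL(2, ℤ)) :
    ∃ (e B D : ℤ), 0 < e ∧ 0 < D ∧ e * D = d ∧ (D = 1 → (d : ℤ) ∣ γ 1 0) ∧
      ∃ had : ((e : ℝ) * (D : ℝ)) ≠ 0, ∀ τ : ℍ,
        (D : ℂ) ^ (12 : ℕ) * dS d (γ • τ) = denom γ τ ^ (12 : ℤ) *
          ModularForm.discriminant (upperTriangularGL (e : ℝ) (B : ℝ) (D : ℝ) had • τ) := by
  obtain ⟨γ', e, B, D, he, hD, heD, hD1, had, hmat⟩ := S23.Scale.exists_hermite d γ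
  have heR : (0 : ℝ) < e := by exact_mod_cast he
  have hDR : (0 : ℝ) < D := by exact_mod_cast hD
  have hN : d ≠ 0 := NeZero.ne d
  have h1 : (⇑(S23.scaledDelta d) : ℍ → ℂ) ∣[(12 : ℤ)] γ =
      ModularForm.discriminant ∣[(12 : ℤ)] upperTriangularGL (e : ℝ) (B : ℝ) (D : ℝ) had := by
    rw [S23.Scale.coe_scaledDelta, S23.Scale.SL_slash_eq_mapGL, ← SlashAction.slash_mul, hmat,
      SlashAction.slash_mul]
    congr 1
    exact CuspForm.discriminant.slash_action_eq' _ ⟨γ', rfl⟩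
  refine ⟨e, B, D, he, hD, heD, hD1, had, fun τ => ?_⟩
  have h3 := congrFun h1 τ
  rw [S23.Scale.slash_upperTriangularGL_apply 12 heR hDR, ModularForm.SL_slash_apply,
    scaledDelta_eq_dS] at h3
  have hNC : (((e : ℝ) * (D : ℝ) : ℝ) : ℂ) = (d : ℂ) := by
    have : (e : ℝ) * D = d := by exact_mod_cast heD
    rw [this]
    simp
  have hDC : (D : ℂ) ≠ 0 := by exact_mod_cast hD.ne'
  have hNC0 : (d : ℂ) ≠ 0 := by exact_mod_cast hN
  have hden : denom γ τ ≠ 0 := denom_ne_zero γ τ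
  have e1 : ((12 : ℤ) - 1) = ((11 : ℕ) : ℤ) := by norm_num
  have e2 : (-(12 : ℤ)) = -((12 : ℕ) : ℤ) := by norm_num
  have hDD : (((D : ℝ) : ℂ)) = (D : ℂ) := by push_cast; rfl
  rw [hNC, e1, zpow_natCast, e2, zpow_neg, zpow_natCast, zpow_neg, zpow_natCast, hDD] at h3
  have hN11 : (d : ℂ) ^ 11 ≠ 0 := pow_ne_zero _ hNC0
  have hD12 : (D : ℂ) ^ 12 ≠ 0 := pow_ne_zero _ hDC
  have hden12 : denom γ τ ^ 12 ≠ 0 := pow_ne_zero _ hden
  have e3 : denom γ τ ^ (12 : ℤ) = denom γ τ ^ (12 : ℕ) := by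
    rw [show (12 : ℤ) = ((12 : ℕ) : ℤ) by norm_num, zpow_natCast]
  rw [e3]
  field_simp at h3
  linear_combination h3

/-- Hermite form of the `SL(2,ℤ)`-translates of `Δ/Δ(d·)`. -/
theorem wS_smul_eq (d : ℕ) [NeZero d] (γ : SL(2, ℤ)) :
    ∃ (e B D : ℤ), 0 < e ∧ 0 < D ∧ e * D = d ∧ (D = 1 → (d : ℤ) ∣ γ 1 0) ∧
      ∃ had : ((e : ℝ) * (D : ℝ)) ≠ 0, ∀ τ : ℍ,
        wS d (γ • τ) = (D : ℂ) ^ (12 : ℕ) * ModularForm.discriminant τ /
          ModularForm.discriminant (upperTriangularGL (e : ℝ) (B : ℝ) (D : ℝ) had • τ) := by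
  obtain ⟨e, B, D, he, hD, heD, hD1, had, h⟩ := dS_smul_eq d γ
  refine ⟨e, B, D, he, hD, heD, hD1, had, fun τ => ?_⟩
  have hDC : (D : ℂ) ≠ 0 := by exact_mod_cast hD.ne'
  have hden : denom γ τ ^ (12 : ℤ) ≠ 0 := zpow_ne_zero _ (denom_ne_zero γ τ)
  have h2 := h τ
  have h0 := dS_ne_zero d (γ • τ)
  have h4 : ModularForm.discriminant (upperTriangularGL (e : ℝ) (B : ℝ) (D : ℝ) had • τ) ≠ 0 :=
    discriminant_ne_zero _
  unfold wS
  rw [discriminant_smul, div_eq_div_iff h0 h4]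
  linear_combination (-(ModularForm.discriminant τ)) * h2

/-- Hermite form of the `SL(2,ℤ)`-translates of `Δ(d·)/Δ`. -/
theorem wSinv_smul_eq (d : ℕ) [NeZero d] (γ : SL(2, ℤ)) :
    ∃ (e B D : ℤ), 0 < e ∧ 0 < D ∧ e * D = d ∧ (D = 1 → (d : ℤ) ∣ γ 1 0) ∧
      ∃ had : ((e : ℝ) * (D : ℝ)) ≠ 0, ∀ τ : ℍ,
        wSinv d (γ • τ) =
          ModularForm.discriminant (upperTriangularGL (e : ℝ) (B : ℝ) (D : ℝ) had • τ) /
            ((D : ℂ) ^ (12 : ℕ) * ModularForm.discriminant τ) := by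
  obtain ⟨e, B, D, he, hD, heD, hD1, had, h⟩ := wS_smul_eq d γ
  refine ⟨e, B, D, he, hD, heD, hD1, had, fun τ => ?_⟩
  rw [wSinv_eq_inv, h τ, inv_div]

/-! ### Growth at the cusps and `ModFun` -/

/-- Every `SL(2,ℤ)`-translate of `Δ/Δ(d·)` has a pole of order at most `d` at `i∞`. -/
theorem isBoundedAtImInfty_wS_smul (d : ℕ) [NeZero d] (γ : SL(2, ℤ)) :
    IsBoundedAtImInfty (fun τ => wS d (γ • τ) * ModularForm.discriminant τ ^ d) := by
  obtain ⟨e, B, D, he, hD, heD, -, had, hτ⟩ := wS_smul_eq d γ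
  obtain ⟨C₁, C₂, A', hC₁, hC₂, hb⟩ := S23.Scale.exists_discriminant_bounds
  have heR : (0 : ℝ) < e := by exact_mod_cast he
  have hDR : (0 : ℝ) < D := by exact_mod_cast hD
  have hdR : (d : ℝ) = e * D := by exact_mod_cast heD.symm
  have hD1 : (1 : ℝ) ≤ D := by
    have : (1 : ℤ) ≤ D := by omega
    exact_mod_cast this
  rw [UpperHalfPlane.isBoundedAtImInfty_iff]
  refine ⟨(D : ℝ) ^ 12 * (C₂ ^ (d + 1) * C₁), max (A' * D / e) (max A' 0), fun τ hτ' => ?_⟩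
  have h1 : A' * D / e ≤ τ.im := (le_max_left _ _).trans hτ'
  have h2 : A' ≤ τ.im := (le_max_left _ _).trans ((le_max_right _ _).trans hτ')
  have h3 := (hb (upperTriangularGL (e : ℝ) (B : ℝ) (D : ℝ) had • τ) (by
    rw [S23.Scale.im_upperTriangularGL_smul heR hDR, le_div_iff₀ hDR]
    rw [div_le_iff₀ heR] at h1
    linarith)).1
  rw [S23.Scale.im_upperTriangularGL_smul heR hDR] at h3
  have h4 := (hb τ h2).2
  have him := τ.im_pos
  set x := ‖ModularForm.discriminant τ‖ with hx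
  set z := ‖ModularForm.discriminant (upperTriangularGL (e : ℝ) (B : ℝ) (D : ℝ) had • τ)‖ with hz
  have hzpos : 0 < z := norm_pos_iff.mpr (discriminant_ne_zero _)
  have hx0 : 0 ≤ x := norm_nonneg _
  have h5 : x ^ (d + 1) ≤ (C₂ * Real.exp (-2 * π * τ.im)) ^ (d + 1) :=
    pow_le_pow_left₀ hx0 h4 (d + 1)
  have h6 : (C₂ * Real.exp (-2 * π * τ.im)) ^ (d + 1) =
      C₂ ^ (d + 1) * Real.exp (-2 * π * τ.im * (d + 1)) := by
    rw [mul_pow, ← Real.exp_nat_mul]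
    congr 2
    push_cast
    ring
  have h7 : Real.exp (-2 * π * τ.im * (d + 1)) ≤ Real.exp (-2 * π * (e * τ.im / D)) := by
    rw [Real.exp_le_exp]
    have h8 : e * τ.im / D ≤ τ.im * (d + 1) := by
      rw [div_le_iff₀ hDR, hdR]
      have h9 : 0 ≤ e * τ.im := by positivity
      nlinarith [mul_le_mul_of_nonneg_left hD1 h9, mul_pos him hDR, mul_pos (mul_pos heR him) hDR]
    have hπ : 0 < 2 * π := by positivity
    nlinarith [mul_le_mul_of_nonneg_left h8 hπ.le]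
  have h10 : x ^ (d + 1) ≤ C₂ ^ (d + 1) * C₁ * z := by
    calc x ^ (d + 1) ≤ C₂ ^ (d + 1) * Real.exp (-2 * π * τ.im * (d + 1)) := h5.trans h6.le
      _ ≤ C₂ ^ (d + 1) * Real.exp (-2 * π * (e * τ.im / D)) :=
          mul_le_mul_of_nonneg_left h7 (by positivity)
      _ ≤ C₂ ^ (d + 1) * (C₁ * z) := mul_le_mul_of_nonneg_left h3 (by positivity)
      _ = C₂ ^ (d + 1) * C₁ * z := by ring
  have hDn : ‖(D : ℂ)‖ = (D : ℝ) := by
    rw [show (D : ℂ) = ((D : ℝ) : ℂ) by push_cast; rfl, Complex.norm_real,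
      Real.norm_of_nonneg hDR.le]
  rw [hτ τ, norm_mul, norm_div, norm_mul, norm_pow, norm_pow, hDn, ← hx, ← hz]
  have e1 : (D : ℝ) ^ 12 * x / z * x ^ d = (D : ℝ) ^ 12 * (x ^ (d + 1) / z) := by
    rw [pow_succ]; field_simp; ring
  rw [e1]
  refine mul_le_mul_of_nonneg_left ?_ (by positivity)
  rw [div_le_iff₀ hzpos]
  exact h10

/-- Every `SL(2,ℤ)`-translate of `Δ(d·)/Δ` has at most a simple pole at `i∞`. -/
theorem isBoundedAtImInfty_wSinv_smul (d : ℕ) [NeZero d] (γ : SL(2, ℤ)) :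
    IsBoundedAtImInfty (fun τ => wSinv d (γ • τ) * ModularForm.discriminant τ ^ 1) := by
  obtain ⟨e, B, D, he, hD, heD, -, had, hτ⟩ := wSinv_smul_eq d γ
  obtain ⟨C₁, C₂, A', hC₁, hC₂, hb⟩ := S23.Scale.exists_discriminant_bounds
  have heR : (0 : ℝ) < e := by exact_mod_cast he
  have hDR : (0 : ℝ) < D := by exact_mod_cast hD
  have hD1 : (1 : ℝ) ≤ D := by
    have : (1 : ℤ) ≤ D := by omega
    exact_mod_cast this
  rw [UpperHalfPlane.isBoundedAtImInfty_iff]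
  refine ⟨C₂, A' * D / e, fun τ h1 => ?_⟩
  have h3 := (hb (upperTriangularGL (e : ℝ) (B : ℝ) (D : ℝ) had • τ) (by
    rw [S23.Scale.im_upperTriangularGL_smul heR hDR, le_div_iff₀ hDR]
    rw [div_le_iff₀ heR] at h1
    linarith)).2
  rw [S23.Scale.im_upperTriangularGL_smul heR hDR] at h3
  have him := τ.im_pos
  have hne : ModularForm.discriminant τ ≠ 0 := discriminant_ne_zero τ
  have hDC : (D : ℂ) ≠ 0 := by exact_mod_cast hD.ne'
  have e1 : wSinv d (γ • τ) * ModularForm.discriminant τ ^ 1 =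
      ModularForm.discriminant (upperTriangularGL (e : ℝ) (B : ℝ) (D : ℝ) had • τ) /
        (D : ℂ) ^ (12 : ℕ) := by
    rw [hτ τ, pow_one]
    field_simp
  have hDn : ‖(D : ℂ)‖ = (D : ℝ) := by
    rw [show (D : ℂ) = ((D : ℝ) : ℂ) by push_cast; rfl, Complex.norm_real,
      Real.norm_of_nonneg hDR.le]
  rw [e1, norm_div, norm_pow, hDn]
  have h5 : Real.exp (-2 * π * (e * τ.im / D)) ≤ 1 := by
    rw [Real.exp_le_one_iff]
    have : 0 ≤ e * τ.im / D := by positivity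
    have hπ : 0 < 2 * π := by positivity
    nlinarith
  have h6 : (1 : ℝ) ≤ (D : ℝ) ^ 12 := one_le_pow₀ hD1
  rw [div_le_iff₀ (by positivity)]
  calc ‖ModularForm.discriminant (upperTriangularGL (e : ℝ) (B : ℝ) (D : ℝ) had • τ)‖
      ≤ C₂ * Real.exp (-2 * π * (e * τ.im / D)) := h3
    _ ≤ C₂ * 1 := mul_le_mul_of_nonneg_left h5 hC₂.le
    _ ≤ C₂ * (D : ℝ) ^ 12 := mul_le_mul_of_nonneg_left h6 hC₂.le

theorem neZero_of_dvd {d N : ℕ} [NeZero N] (hd : d ∣ N) : NeZero d :=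
  ⟨fun h => NeZero.ne N (by rw [h] at hd; exact Nat.eq_zero_of_zero_dvd hd)⟩

/-- `Δ/Δ(d·)` is a modular function of level `Γ₀(N)` for `d ∣ N`. -/
theorem modFun_wS {N d : ℕ} [NeZero N] (hd : d ∣ N) : ModFun N (wS d) where
  mdiff := mdiff_wS d
  inv := fun _ hγ τ => by
    have : NeZero d := neZero_of_dvd hd
    exact wS_smul_of_mem_Gamma0 d (Gamma0_le_of_dvd hd hγ) τ
  growth := fun γ => by
    have : NeZero d := neZero_of_dvd hd
    exact ⟨d, isBoundedAtImInfty_wS_smul d γ⟩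

/-- `Δ(d·)/Δ` is a modular function of level `Γ₀(N)` for `d ∣ N`. -/
theorem modFun_wSinv {N d : ℕ} [NeZero N] (hd : d ∣ N) : ModFun N (wSinv d) where
  mdiff := mdiff_wSinv d
  inv := fun _ hγ τ => by
    have : NeZero d := neZero_of_dvd hd
    exact wSinv_smul_of_mem_Gamma0 d (Gamma0_le_of_dvd hd hγ) τ
  growth := fun γ => by
    have : NeZero d := neZero_of_dvd hd
    exact ⟨1, isBoundedAtImInfty_wSinv_smul d γ⟩

/-! ### The Fricke substitution `τ ↦ -1/(pτ)` -/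

/-- The Fricke point `-1/(pτ)`. -/
def fricke (p : ℕ) (τ : ℍ) : ℍ := ModularGroup.S • (heckeDiagMatrix p • τ)

theorem coe_fricke (p : ℕ) [NeZero p] (τ : ℍ) :
    ((fricke p τ : ℍ) : ℂ) = -((p : ℂ) * (τ : ℂ))⁻¹ := by
  unfold fricke
  rw [UpperHalfPlane.modular_S_smul]
  simp [coe_heckeDiagMatrix_smul (NeZero.ne p)]

theorem heckeDiag_fricke (p : ℕ) [NeZero p] (τ : ℍ) :
    heckeDiagMatrix p • fricke p τ = ModularGroup.S • τ := by
  apply UpperHalfPlane.ext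
  rw [coe_heckeDiagMatrix_smul (NeZero.ne p), coe_fricke, UpperHalfPlane.modular_S_smul]
  have hp : (p : ℂ) ≠ 0 := by exact_mod_cast NeZero.ne p
  have hτ : (τ : ℂ) ≠ 0 := UpperHalfPlane.ne_zero τ
  field_simp

theorem jA_fricke (p : ℕ) (τ : ℍ) : jA (fricke p τ) = jS p τ := by
  unfold fricke jS
  exact jA_smul _ _

theorem jS_fricke (p : ℕ) [NeZero p] (τ : ℍ) : jS p (fricke p τ) = jA τ := by
  unfold jS
  rw [heckeDiag_fricke, jA_smul]

theorem discriminant_S_smul (τ : ℍ) :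
    ModularForm.discriminant (ModularGroup.S • τ) =
      (τ : ℂ) ^ (12 : ℕ) * ModularForm.discriminant τ := by
  rw [discriminant_smul, ModularGroup.denom_S]
  norm_cast

theorem discriminant_fricke (p : ℕ) [NeZero p] (τ : ℍ) :
    ModularForm.discriminant (fricke p τ) =
      ((p : ℂ) * (τ : ℂ)) ^ (12 : ℕ) * dS p τ := by
  unfold fricke
  rw [discriminant_S_smul, coe_heckeDiagMatrix_smul (NeZero.ne p)]
  rfl

theorem dS_fricke (p : ℕ) [NeZero p] (τ : ℍ) :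
    dS p (fricke p τ) = (τ : ℂ) ^ (12 : ℕ) * ModularForm.discriminant τ := by
  unfold dS
  rw [heckeDiag_fricke, discriminant_S_smul]

theorem wS_fricke (p : ℕ) [NeZero p] (τ : ℍ) :
    wS p (fricke p τ) = (p : ℂ) ^ (12 : ℕ) * wSinv p τ := by
  have hτ : (τ : ℂ) ≠ 0 := UpperHalfPlane.ne_zero τ
  have h1 := discriminant_ne_zero τ
  unfold wS wSinv
  rw [discriminant_fricke, dS_fricke]
  field_simp

theorem wSinv_fricke (p : ℕ) [NeZero p] (τ : ℍ) :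
    wSinv p (fricke p τ) = ((p : ℂ) ^ (12 : ℕ))⁻¹ * wS p τ := by
  have hp : (p : ℂ) ≠ 0 := by exact_mod_cast NeZero.ne p
  rw [wSinv_eq_inv, wS_fricke, mul_inv, wSinv_eq_inv, inv_inv]

open Polynomial in
/-- **S-trick** for `j`: a relation `P(j(pτ), j(τ)) = 0` gives `P(j(τ), j(pτ)) = 0`. -/
theorem fricke_swap_j (p : ℕ) [NeZero p] (P : ℂ[X][X])
    (h : ∀ τ : ℍ, (P.map (evalRingHom (jA τ))).eval (jS p τ) = 0) :
    ∀ τ : ℍ, (P.map (evalRingHom (jS p τ))).eval (jA τ) = 0 := by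
  intro τ
  have := h (fricke p τ)
  rwa [jA_fricke, jS_fricke] at this

open Polynomial in
/-- **S-trick** for the unit: a relation `Q(w(τ), j(τ)) = 0` for `w = Δ/Δ(p·)` gives
`Q(p¹² Δ(pτ)/Δ(τ), j(pτ)) = 0`. -/
theorem fricke_swap_w (p : ℕ) [NeZero p] (Q : ℂ[X][X])
    (h : ∀ τ : ℍ, (Q.map (evalRingHom (jA τ))).eval (wS p τ) = 0) :
    ∀ τ : ℍ, (Q.map (evalRingHom (jS p τ))).eval ((p : ℂ) ^ (12 : ℕ) * wSinv p τ) = 0 := by
  intro τ
  have := h (fricke p τ)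
  rwa [jA_fricke, wS_fricke] at this

open Polynomial in
/-- **S-trick** for the inverse unit: a relation `Q(w⁻¹(τ), j(τ)) = 0` for `w⁻¹ = Δ(p·)/Δ` gives
`Q(p⁻¹² Δ(τ)/Δ(pτ), j(pτ)) = 0`. -/
theorem fricke_swap_wInv (p : ℕ) [NeZero p] (Q : ℂ[X][X])
    (h : ∀ τ : ℍ, (Q.map (evalRingHom (jA τ))).eval (wSinv p τ) = 0) :
    ∀ τ : ℍ, (Q.map (evalRingHom (jS p τ))).eval (((p : ℂ) ^ (12 : ℕ))⁻¹ * wS p τ) = 0 := by
  intro τ
  have := h (fricke p τ)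
  rwa [jA_fricke, wSinv_fricke] at this

end

end Fermat.Agent.S28A
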